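import Fermat.Agent.Ribet.H819.PerFE
import Fermat.Agent.S29.H991.CoeffDescent

/-!
# Row 38, WALL-p, (S4) WILD: descent of functions to a level (helper819)

`K` a field of characteristic `0` (`ℚ̄`), `F₀ ⊆ ℚ((t))`, `E ⊆ K` an intermediate field.

* `mem_imBC_of_coeff_mem` : `z ∈ K·F₀` (`= FF N`) with all coefficients in `E` lies in the image
  `imBC F₀ E` of `F_E = E·F₀` (`= A2.Mod.FE E N`);
* `exists_FE_of_coeff_mem` : the same, producing the element of `F_E`;
* `mem_imBC_of_fixed`, `exists_FE_of_fixed` : `z ∈ K·F₀` fixed (coefficientwise) by a set `H` of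
  automorphisms of `K` whose fixed elements lie in `E`;
* `imBC_le_BC` : `imBC F₀ E ⊆ K·F₀`.

Use: the Kummer generators `f_x, G` (fixed by `Stab_{I₁}(x)`) and `f_t` (fixed by `I₁`) of KD
are elements of `K₂ = FE E₂ N`, `K₁ = FE E₁ N`.
-/

set_option autoImplicit false
set_option linter.unusedSectionVars false
set_option linter.style.haveILetI false

noncomputable section

namespace Fermat.Agent.Ribet.H819

open ModularCurve

section Desc

variable {K : Type} [Field K] [Algebra ℚ K] (F₀ : IntermediateField ℚ (LaurentSeries ℚ))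

/-- A Laurent series with coefficients in `E`, as a Laurent series over `E`. -/
def liftCoeff (E : IntermediateField ℚ K) (z : LaurentSeries K) (hc : ∀ n : ℤ, z.coeff n ∈ E) :
    LaurentSeries ↥E where
  coeff n := ⟨z.coeff n, hc n⟩
  isPWO_support' := z.isPWO_support.mono (by
    intro n hn
    rw [Function.mem_support] at hn
    rw [HahnSeries.mem_support]
    intro h0
    exact hn (Subtype.ext h0))

theorem coeffMap_liftCoeff (E : IntermediateField ℚ K) (z : LaurentSeries K)
    (hc : ∀ n : ℤ, z.coeff n ∈ E) :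
    coeffMap (algebraMap ↥E K) (liftCoeff E z hc) = z := by
  ext n
  rfl

theorem liftCoeff_mem (E : IntermediateField ℚ K) {z : LaurentSeries K}
    (hz : z ∈ laurentBaseChange K F₀) (hc : ∀ n : ℤ, z.coeff n ∈ E) :
    liftCoeff E z hc ∈ laurentBaseChange ↥E F₀ := by
  apply Fermat.Agent.S29.H991.mem_laurentBaseChange_of_coeffMap_mem (algebraMap ↥E K) (F₀ := F₀)
  rw [coeffMap_liftCoeff]
  exact hz

/-- **Descent to the level `E`**, producing the element of `F_E`. -/
theorem exists_FE_of_coeff_mem (E : IntermediateField ℚ K) {z : LaurentSeries K}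
    (hz : z ∈ laurentBaseChange K F₀) (hc : ∀ n : ℤ, z.coeff n ∈ E) :
    ∃ x : ↥(laurentBaseChange ↥E F₀), embBC F₀ E x = z :=
  ⟨⟨liftCoeff E z hc, liftCoeff_mem F₀ E hz hc⟩, coeffMap_liftCoeff E z hc⟩

theorem mem_imBC_of_coeff_mem (E : IntermediateField ℚ K) {z : LaurentSeries K}
    (hz : z ∈ laurentBaseChange K F₀) (hc : ∀ n : ℤ, z.coeff n ∈ E) : z ∈ imBC F₀ E :=
  (mem_imBC_iff F₀ E z).mpr (exists_FE_of_coeff_mem F₀ E hz hc)

/-- Descent for functions fixed by a set of automorphisms with fixed field in `E`. -/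
theorem exists_FE_of_fixed (E : IntermediateField ℚ K) (H : Set (K ≃+* K))
    (hE : ∀ a : K, (∀ ρ ∈ H, ρ a = a) → a ∈ E) {z : LaurentSeries K}
    (hz : z ∈ laurentBaseChange K F₀)
    (hfix : ∀ ρ ∈ H, coeffMap (ρ : K →+* K) z = z) :
    ∃ x : ↥(laurentBaseChange ↥E F₀), embBC F₀ E x = z := by
  refine exists_FE_of_coeff_mem F₀ E hz (fun n => hE _ (fun ρ hρ => ?_))
  have := congrArg (fun w : LaurentSeries K => w.coeff n) (hfix ρ hρ)
  simpa using this

theorem mem_imBC_of_fixed (E : IntermediateField ℚ K) (H : Set (K ≃+* K))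
    (hE : ∀ a : K, (∀ ρ ∈ H, ρ a = a) → a ∈ E) {z : LaurentSeries K}
    (hz : z ∈ laurentBaseChange K F₀)
    (hfix : ∀ ρ ∈ H, coeffMap (ρ : K →+* K) z = z) : z ∈ imBC F₀ E :=
  (mem_imBC_iff F₀ E z).mpr (exists_FE_of_fixed F₀ E H hE hz hfix)

/-- The image of `F_E` lies in `K·F₀`. -/
theorem imBC_le_BC (E : IntermediateField ℚ K) {z : LaurentSeries K} (hz : z ∈ imBC F₀ E) :
    z ∈ laurentBaseChange K F₀ := by
  have h : imBC F₀ E ≤ (laurentBaseChange K F₀).toSubfield := by
    rw [imBC_eq_closure, Subfield.closure_le]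
    rintro _ (⟨c, -, rfl⟩ | ⟨y, hy, rfl⟩)
    · show (HahnSeries.C c : LaurentSeries K) ∈ laurentBaseChange K F₀
      have : (HahnSeries.C c : LaurentSeries K) = algebraMap K (LaurentSeries K) c := by
        rw [algebraMap_laurentSeries_eq_single, HahnSeries.C_apply]
      rw [this]
      exact (laurentBaseChange K F₀).algebraMap_mem c
    · exact coeffEmb_mem_laurentBaseChange K hy
  exact h hz

end Desc

end Fermat.Agent.Ribet.H819

end
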