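import Mathlib

/-!
# Row 38, WALL-p, crux (I6), leaf INST-D — `p`-th roots of normalised Laurent series
# (helper819; Mathlib only)

`E` a field in which `p ≠ 0`.

* `exists_root_powerSeries_h819` : a power series with constant coefficient `1` has a `p`-th root
  with constant coefficient `1` (Hensel's lemma in `E⟦X⟧`);
* `exists_root_laurent_h819` : a Laurent series `g ≠ 0` with leading coefficient `1` and order
  divisible by `p` has a `p`-th root `h` in `E((t))`, with leading coefficient `1`.

Application: `g = f_t` the (normalised) Kummer generator of `t` over the tame level `E₁`,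
`h ^ p = f_t`, `h ∈ E₁((t))`: the generator of the cover field `F₁(h)` of `PerCtx`.
-/

set_option autoImplicit false
set_option linter.unusedSectionVars false
set_option linter.style.haveILetI false

noncomputable section

namespace Fermat.Agent.Ribet.H819

open Polynomial

section Root

variable {E : Type*} [Field E]

/-- Hensel: `p`-th roots of `1`-units of `E⟦X⟧`, `p ≠ 0` in `E`. -/
theorem exists_root_powerSeries_h819 (p : ℕ) (hp0 : p ≠ 0) (hp : (p : E) ≠ 0)
    (g : PowerSeries E) (hg : PowerSeries.constantCoeff g = 1) :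
    ∃ a : PowerSeries E, a ^ p = g ∧ PowerSeries.constantCoeff a = 1 := by
  have hmon : (X ^ p - C g : Polynomial (PowerSeries E)).Monic := monic_X_pow_sub_C g hp0
  have h1 : eval (1 : PowerSeries E) (X ^ p - C g : Polynomial (PowerSeries E)) ∈
      (Ideal.span {(PowerSeries.X : PowerSeries E)}) := by
    rw [eval_sub, eval_pow, eval_X, eval_C, one_pow, Ideal.mem_span_singleton,
      PowerSeries.X_dvd_iff, map_sub, map_one, hg, sub_self]
  have h2 : IsUnit (Ideal.Quotient.mk (Ideal.span {(PowerSeries.X : PowerSeries E)})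
      (eval (1 : PowerSeries E) (derivative (X ^ p - C g : Polynomial (PowerSeries E))))) := by
    apply IsUnit.map
    rw [derivative_sub, derivative_C, sub_zero, derivative_X_pow, eval_mul, eval_pow, eval_X,
      one_pow, mul_one]
    have e : eval (1 : PowerSeries E) (C ((p : ℕ) : PowerSeries E)) = (p : PowerSeries E) :=
      eval_C
    rw [e]
    have e2 : ((p : ℕ) : PowerSeries E) = PowerSeries.C (p : E) := by
      rw [map_natCast]
    rw [e2]
    exact (IsUnit.mk0 _ hp).map PowerSeries.C
  obtain ⟨a, ha, ha1⟩ := HenselianRing.is_henselian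
    (I := Ideal.span {(PowerSeries.X : PowerSeries E)})
    (X ^ p - C g : Polynomial (PowerSeries E)) hmon 1 h1 h2
  refine ⟨a, ?_, ?_⟩
  · have : eval a (X ^ p - C g : Polynomial (PowerSeries E)) = 0 := ha
    rw [eval_sub, eval_pow, eval_X, eval_C] at this
    exact sub_eq_zero.mp this
  · rw [Ideal.mem_span_singleton, PowerSeries.X_dvd_iff, map_sub, map_one] at ha1
    exact sub_eq_zero.mp ha1

theorem coeff_zero_ofPowerSeries_h819 (a : PowerSeries E) :
    (HahnSeries.ofPowerSeries ℤ E a).coeff 0 = PowerSeries.constantCoeff a := by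
  have := HahnSeries.ofPowerSeries_apply_coeff (Γ := ℤ) a 0
  rw [Nat.cast_zero] at this
  rw [this, PowerSeries.coeff_zero_eq_constantCoeff]

theorem coeff_neg_ofPowerSeries_h819 (a : PowerSeries E) {n : ℤ} (hn : n < 0) :
    (HahnSeries.ofPowerSeries ℤ E a).coeff n = 0 := by
  rw [HahnSeries.ofPowerSeries_apply]
  apply HahnSeries.embDomain_of_notMem_range
  rintro ⟨m, hm⟩
  have : (0 : ℤ) ≤ n := by
    rw [← hm]
    exact Int.natCast_nonneg m
  omega

/-- A power series with constant coefficient `1`, as a Laurent series: order `0`, leading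
coefficient `1`. -/
theorem order_ofPowerSeries_h819 (a : PowerSeries E) (ha : PowerSeries.constantCoeff a = 1) :
    (HahnSeries.ofPowerSeries ℤ E a) ≠ 0 ∧ (HahnSeries.ofPowerSeries ℤ E a).order = 0 ∧
      (HahnSeries.ofPowerSeries ℤ E a).leadingCoeff = 1 := by
  have hc0 : (HahnSeries.ofPowerSeries ℤ E a).coeff 0 = 1 := by
    rw [coeff_zero_ofPowerSeries_h819, ha]
  have hne : (HahnSeries.ofPowerSeries ℤ E a) ≠ 0 := by
    intro h0
    rw [h0] at hc0
    simp at hc0
  have hord : (HahnSeries.ofPowerSeries ℤ E a).order = 0 := by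
    apply le_antisymm
    · apply HahnSeries.order_le_of_coeff_ne_zero
      rw [hc0]
      exact one_ne_zero
    · by_contra hlt
      push Not at hlt
      exact hne (HahnSeries.coeff_order_eq_zero.mp (coeff_neg_ofPowerSeries_h819 a hlt))
  refine ⟨hne, hord, ?_⟩
  rw [HahnSeries.leadingCoeff_eq, hord, hc0]

/-- **`p`-th roots of normalised Laurent series.** -/
theorem exists_root_laurent_h819 (p : ℕ) (hp0 : p ≠ 0) (hp : (p : E) ≠ 0)
    (g : LaurentSeries E) (hlc : g.leadingCoeff = 1) (hord : (p : ℤ) ∣ g.order) :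
    ∃ h : LaurentSeries E, h ^ p = g ∧ h ≠ 0 ∧ h.leadingCoeff = 1 ∧
      (p : ℤ) * h.order = g.order := by
  obtain ⟨m, hm⟩ := hord
  have hg0 : g ≠ 0 := by
    intro h0
    rw [h0, HahnSeries.leadingCoeff_zero] at hlc
    exact zero_ne_one hlc
  have hG : PowerSeries.constantCoeff g.powerSeriesPart = 1 := by
    rw [← PowerSeries.coeff_zero_eq_constantCoeff, LaurentSeries.powerSeriesPart_coeff,
      Nat.cast_zero, add_zero, ← HahnSeries.leadingCoeff_eq, hlc]
  obtain ⟨a, hap, ha1⟩ := exists_root_powerSeries_h819 p hp0 hp g.powerSeriesPart hG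
  obtain ⟨hane, haord, halc⟩ := order_ofPowerSeries_h819 a ha1
  have hs0 : (HahnSeries.single m (1 : E) : LaurentSeries E) ≠ 0 :=
    HahnSeries.single_ne_zero one_ne_zero
  refine ⟨HahnSeries.single m (1 : E) * HahnSeries.ofPowerSeries ℤ E a, ?_,
    mul_ne_zero hs0 hane, ?_, ?_⟩
  · rw [mul_pow, HahnSeries.single_pow, one_pow, ← map_pow, hap]
    have : p • m = g.order := by
      rw [hm, nsmul_eq_mul]
    rw [this]
    exact LaurentSeries.single_order_mul_powerSeriesPart g
  · rw [HahnSeries.leadingCoeff_mul, halc, mul_one, HahnSeries.leadingCoeff_of_single]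
  · rw [HahnSeries.order_mul hs0 hane, haord, add_zero, HahnSeries.order_single one_ne_zero, hm]

end Root

end Fermat.Agent.Ribet.H819

end
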