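import Fermat.Agent.Ribet.H819.PerFE
import Fermat.Agent.Ribet.H819.PerRoot

/-!
# Row 38, WALL-p, (S4) WILD: the context of INST-D from the Kummer generator `f_t` (helper819)

`K` a field of characteristic `0` (`ℚ̄`), `F₀ ⊆ ℚ((t))`, `E₁ ⊆ K` the tame level,
`K₁ = F_{E₁} = laurentBaseChange E₁ F₀`, `f_t ∈ K₁` with leading coefficient `1`, order divisible
by `p`, not a `p`-th power in `K₁`.

* `rootBC` : a `p`-th root `h ∈ E₁((t)) ⊆ K((t))` of `f_t`; `rootBC_pow`, `rootBC_coeff_mem`,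
  `rootBC_notMem`, `rootBC_leadingCoeff`;
* `PerCtx.ofKummer` : the context `c : PerCtx K` with `c.F₁ = imBC F₀ E₁` (by `rfl`),
  `c.h = rootBC`, `c.h ^ p = embBC f_t`;
* `PerCtx.ofKummer_shell` : `PerShell.shell_period` for this context, from the ambient KD relation
  `σ₀ F = F · κ · f_t · G₀ ^ p` (`F = embBC f₂`), i.e. `σ₀ x = x + t` on Kummer generators.
-/

set_option autoImplicit false
set_option linter.unusedSectionVars false
set_option linter.style.haveILetI false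
set_option maxHeartbeats 400000

noncomputable section

namespace Fermat.Agent.Ribet.H819

open ModularCurve

section Root

variable {K : Type} [Field K] [Algebra ℚ K] (F₀ : IntermediateField ℚ (LaurentSeries ℚ))

theorem order_coeffMap_of_injective {R S : Type*} [Field R] [Field S] (f : R →+* S)
    (x : LaurentSeries R) : (coeffMap f x).order = x.order := by
  by_cases hx : x = 0
  · rw [hx, map_zero, HahnSeries.order_zero, HahnSeries.order_zero]
  have hinj : Function.Injective (coeffMap f) := (coeffMap f).injective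
  have hy : coeffMap f x ≠ 0 := fun h0 => hx (hinj (by rw [h0, map_zero]))
  apply le_antisymm
  · apply HahnSeries.order_le_of_coeff_ne_zero
    rw [coeffMap_coeff]
    intro h0
    have : x.coeff x.order = 0 := f.injective (by rw [h0, map_zero])
    exact hx (HahnSeries.coeff_order_eq_zero.mp this)
  · apply HahnSeries.order_le_of_coeff_ne_zero
    intro h0
    have : (coeffMap f x).coeff (coeffMap f x).order = 0 := by
      rw [coeffMap_coeff, h0, map_zero]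
    exact hy (HahnSeries.coeff_order_eq_zero.mp this)

theorem leadingCoeff_coeffMap_of_injective {R S : Type*} [Field R] [Field S] (f : R →+* S)
    (x : LaurentSeries R) : (coeffMap f x).leadingCoeff = f x.leadingCoeff := by
  rw [HahnSeries.leadingCoeff_eq, HahnSeries.leadingCoeff_eq, order_coeffMap_of_injective,
    coeffMap_coeff]

variable (p : ℕ) (hp0 : p ≠ 0) (E₁ : IntermediateField ℚ K) (ft : ↥(laurentBaseChange ↥E₁ F₀))
  (hlc : (ft : LaurentSeries ↥E₁).leadingCoeff = 1)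
  (hord : (p : ℤ) ∣ (ft : LaurentSeries ↥E₁).order)

include hp0 hlc hord in
theorem exists_rootBC :
    ∃ h' : LaurentSeries ↥E₁, h' ^ p = (ft : LaurentSeries ↥E₁) ∧ h'.leadingCoeff = 1 := by
  have hp : ((p : ℕ) : ↥E₁) ≠ 0 := Nat.cast_ne_zero.mpr hp0
  obtain ⟨h', h1, -, h2, -⟩ := exists_root_laurent_h819 p hp0 hp (ft : LaurentSeries ↥E₁) hlc hord
  exact ⟨h', h1, h2⟩

/-- A `p`-th root of `f_t` in `E₁((t)) ⊆ K((t))`. -/
def rootBC : LaurentSeries K :=
  coeffMap (algebraMap ↥E₁ K) (exists_rootBC F₀ p hp0 E₁ ft hlc hord).choose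

theorem rootBC_pow : rootBC F₀ p hp0 E₁ ft hlc hord ^ p = embBC F₀ E₁ ft := by
  rw [rootBC, ← map_pow, (exists_rootBC F₀ p hp0 E₁ ft hlc hord).choose_spec.1]
  rfl

theorem rootBC_coeff_mem (n : ℤ) : (rootBC F₀ p hp0 E₁ ft hlc hord).coeff n ∈ E₁ := by
  rw [rootBC, coeffMap_coeff]
  exact (((exists_rootBC F₀ p hp0 E₁ ft hlc hord).choose).coeff n).2

theorem rootBC_leadingCoeff : (rootBC F₀ p hp0 E₁ ft hlc hord).leadingCoeff = 1 := by
  rw [rootBC, leadingCoeff_coeffMap_of_injective,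
    (exists_rootBC F₀ p hp0 E₁ ft hlc hord).choose_spec.2, map_one]

theorem rootBC_notMem (hnp : ∀ x : ↥(laurentBaseChange ↥E₁ F₀), x ^ p ≠ ft) :
    rootBC F₀ p hp0 E₁ ft hlc hord ∉ imBC F₀ E₁ := by
  intro hmem
  obtain ⟨x, hx⟩ := (mem_imBC_iff F₀ E₁ _).mp hmem
  apply hnp x
  apply (embBC F₀ E₁).injective
  rw [map_pow, hx, rootBC_pow]

end Root

namespace PerCtx

section OfKummer

variable {K : Type} [Field K] [Algebra ℚ K] (F₀ : IntermediateField ℚ (LaurentSeries ℚ))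
  (p : ℕ) (hp : p.Prime) (E₁ : IntermediateField ℚ K) (ζ : K) (hζ : IsPrimitiveRoot ζ p)
  (hζE : ζ ∈ E₁) (σ₀ : K ≃+* K) (hσE : ∀ c ∈ E₁, σ₀ c = c) (u : K) (hσu : σ₀ u = ζ⁻¹ * u)
  (hu0 : u ≠ 0) (hup : u ^ p ∈ E₁) (ft : ↥(laurentBaseChange ↥E₁ F₀))
  (hlc : (ft : LaurentSeries ↥E₁).leadingCoeff = 1)
  (hord : (p : ℤ) ∣ (ft : LaurentSeries ↥E₁).order)
  (hnp : ∀ x : ↥(laurentBaseChange ↥E₁ F₀), x ^ p ≠ ft)

/-- **The context of INST-D** attached to the tame level `E₁`, the Kummer pair `(σ₀, u)` and the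
normalised Kummer generator `f_t ∈ F_{E₁}` of `t`. -/
def ofKummer : PerCtx K :=
  ofBC F₀ p hp E₁ ζ hζ hζE σ₀ hσE u hσu hu0 hup (rootBC F₀ p hp.ne_zero E₁ ft hlc hord)
    (rootBC_coeff_mem F₀ p hp.ne_zero E₁ ft hlc hord)
    (by rw [rootBC_pow]; exact embBC_mem F₀ E₁ ft)
    (rootBC_notMem F₀ p hp.ne_zero E₁ ft hlc hord hnp)

theorem ofKummer_p :
    (ofKummer F₀ p hp E₁ ζ hζ hζE σ₀ hσE u hσu hu0 hup ft hlc hord hnp).p = p := rfl

theorem ofKummer_u :
    (ofKummer F₀ p hp E₁ ζ hζ hζE σ₀ hσE u hσu hu0 hup ft hlc hord hnp).u = u := rfl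

theorem ofKummer_zeta :
    (ofKummer F₀ p hp E₁ ζ hζ hζE σ₀ hσE u hσu hu0 hup ft hlc hord hnp).ζ = ζ := rfl

theorem ofKummer_sigma₀ :
    (ofKummer F₀ p hp E₁ ζ hζ hζE σ₀ hσE u hσu hu0 hup ft hlc hord hnp).σ₀ = σ₀ := rfl

theorem ofKummer_F₁ :
    (ofKummer F₀ p hp E₁ ζ hζ hζE σ₀ hσE u hσu hu0 hup ft hlc hord hnp).F₁ = imBC F₀ E₁ := rfl

theorem ofKummer_E₁ :
    (ofKummer F₀ p hp E₁ ζ hζ hζE σ₀ hσE u hσu hu0 hup ft hlc hord hnp).E₁ = E₁.toSubfield :=
  rfl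

theorem ofKummer_h_pow :
    (ofKummer F₀ p hp E₁ ζ hζ hζE σ₀ hσE u hσu hu0 hup ft hlc hord hnp).h ^ p =
      embBC F₀ E₁ ft :=
  rootBC_pow F₀ p hp.ne_zero E₁ ft hlc hord

theorem ofKummer_h_leadingCoeff :
    (ofKummer F₀ p hp E₁ ζ hζ hζE σ₀ hσE u hσu hu0 hup ft hlc hord hnp).h.leadingCoeff = 1 :=
  rootBC_leadingCoeff F₀ p hp.ne_zero E₁ ft hlc hord

end OfKummer

end PerCtx

end Fermat.Agent.Ribet.H819

end
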