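import Fermat.Agent.Ribet.H819.PerAsm
import Fermat.Agent.Ribet.H712.FrameCover

/-!
# Row 38, WALL-p, (S4) WILD: bridge from `PerCtx` to the carriers of `H712.Frame` (helper819)

`H712.Frame.nonempty_wildFrame` (on main) builds `Nonempty (WildFrame …)` on the carriers
`cov ι h = closure (range ι ∪ {h}) ⊆ K((t))` with deck transformation `covDeck`, and takes PER in
`t`-expansion form.  This file feeds it from `PerCtx`:

`c : PerCtx K`, `ι₁ : K₁ →+* K((t))` with `c.F₁ = ι₁.fieldRange`, `ι₂ : K₂ →+* K((t))` with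
`c.F₂ = ι₂.fieldRange`.

* `cov_eq_Fc : cov ι₁ c.h = c.Fc`, `cov_eq_L : cov ι₂ c.h = c.L.toSubfield`;
* `coe_covDeck : ↑(covDeck ι₁ c.h … z) = ↑(c.tauA ⟨z, _⟩)`;
* **`per_cov`** : from the ambient KD relation `σ₀ F = F · κ · f_t · G₀ ^ p` (`F = ι₂ f₂`):
  `f', G : cov ι₁ c.h`, `b : cov ι₂ c.h` with
  `↑(covDeck f') = ↑f' · ι₁ a · ↑G ^ p` and `ι₂ f₂ = ι₂ ℓ₂ · ↑f' · ↑b ^ p`
  = the hypotheses `hper`, `hf₂` of `H712.Frame.nonempty_wildFrame` VERBATIM.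
-/

set_option autoImplicit false
set_option linter.unusedSectionVars false
set_option linter.style.haveILetI false
set_option maxHeartbeats 400000

noncomputable section

namespace Fermat.Agent.Ribet.H819

open ModularCurve Fermat.Agent.Ribet.H712.Frame

namespace PerCtx

section Cov

variable {K : Type} [Field K] (c : PerCtx K) {K₁ : Type} [Field K₁]
  (ι₁ : K₁ →+* LaurentSeries K) (hF₁ : c.F₁ = ι₁.fieldRange)

include hF₁ in
theorem cov_eq_Fc : cov ι₁ c.h = c.Fc := by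
  rw [cov, Fc, hF₁, RingHom.coe_fieldRange]

include hF₁ in
theorem mem_FcI_of_mem_cov {z : LaurentSeries K} (hz : z ∈ cov ι₁ c.h) : z ∈ c.FcI := by
  rw [c.mem_FcI_iff, ← c.cov_eq_Fc ι₁ hF₁]
  exact hz

include hF₁ in
theorem mem_cov_of_mem_FcI {z : LaurentSeries K} (hz : z ∈ c.FcI) : z ∈ cov ι₁ c.h := by
  rw [c.cov_eq_Fc ι₁ hF₁, ← c.mem_FcI_iff]
  exact hz

/-- `cov ι₁ h → FcI`, as a function. -/
def covToFun (z : ↥(cov ι₁ c.h)) : ↥c.FcI := ⟨z.1, c.mem_FcI_of_mem_cov ι₁ hF₁ z.2⟩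

theorem coe_covToFun (z : ↥(cov ι₁ c.h)) : (c.covToFun ι₁ hF₁ z).1 = z.1 := Subtype.coe_mk _ _

/-- `cov ι₁ h → FcI` (the identity on underlying Laurent series). -/
def covTo : ↥(cov ι₁ c.h) →+* ↥c.FcI where
  toFun := c.covToFun ι₁ hF₁
  map_one' := by
    apply Subtype.ext
    rw [coe_covToFun, IntermediateField.coe_one]
    rfl
  map_mul' x y := by
    apply Subtype.ext
    rw [coe_covToFun, IntermediateField.coe_mul, coe_covToFun, coe_covToFun]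
    rfl
  map_zero' := by
    apply Subtype.ext
    rw [coe_covToFun, IntermediateField.coe_zero]
    rfl
  map_add' x y := by
    apply Subtype.ext
    rw [coe_covToFun, IntermediateField.coe_add, coe_covToFun, coe_covToFun]
    rfl

theorem coe_covTo (z : ↥(cov ι₁ c.h)) :
    ((c.covTo ι₁ hF₁ z : ↥c.FcI) : LaurentSeries K) = (z : LaurentSeries K) :=
  c.coe_covToFun ι₁ hF₁ z

/-- The deck transformation `tauA`, as a ring homomorphism `cov ι₁ h → K((t))`. -/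
def covDeckHom : ↥(cov ι₁ c.h) →+* LaurentSeries K :=
  ((algebraMap ↥c.FcI (LaurentSeries K)).comp (c.tauA : ↥c.FcI →+* ↥c.FcI)).comp
    (c.covTo ι₁ hF₁)

theorem covDeckHom_apply (z : ↥(cov ι₁ c.h)) :
    c.covDeckHom ι₁ hF₁ z = ((c.tauA (c.covTo ι₁ hF₁ z) : ↥c.FcI) : LaurentSeries K) := rfl

variable {ζ₁ a₁ : K₁} (hζ₁ : IsPrimitiveRoot ζ₁ c.p) (hζc : ι₁ ζ₁ = HahnSeries.C c.ζ)
  (ha₁ : c.h ^ c.p = ι₁ a₁) (hh : c.h ∉ Set.range ι₁)

include hζc in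
/-- **`covDeck = tauA`** on underlying Laurent series. -/
theorem coe_covDeck (z : ↥(cov ι₁ c.h)) :
    letI := covAlgebra ι₁ c.h
    ((covDeck ι₁ c.h c.hp hζ₁ ha₁ hh z : ↥(cov ι₁ c.h)) : LaurentSeries K) =
      ((c.tauA (c.covTo ι₁ hF₁ z) : ↥c.FcI) : LaurentSeries K) := by
  letI := covAlgebra ι₁ c.h
  rw [← c.covDeckHom_apply ι₁ hF₁ z]
  refine covDeck_eq_of_ringHom ι₁ c.h c.hp hζ₁ ha₁ hh (c.covDeckHom ι₁ hF₁) ?_ ?_ z
  · intro x
    rw [covDeckHom_apply]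
    have hx : ι₁ x ∈ c.F₁ := by
      rw [hF₁]
      exact RingHom.mem_fieldRange.mpr ⟨x, rfl⟩
    have e : c.covTo ι₁ hF₁ (covMap ι₁ c.h x) = algebraMap ↥c.F₁ ↥c.FcI ⟨ι₁ x, hx⟩ := by
      apply Subtype.ext
      rw [coe_covTo, IntermediateField.coe_algebraMap_apply]
      rfl
    rw [e, AlgEquiv.commutes, IntermediateField.coe_algebraMap_apply]
    rfl
  · rw [covDeckHom_apply]
    have e : c.covTo ι₁ hF₁ (covGen ι₁ c.h) = c.hI := by
      apply Subtype.ext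
      rw [coe_covTo]
      rfl
    rw [e, c.coe_tauA_hI, hζc]
    rfl

end Cov

section Per

variable {K : Type} [Field K] [Algebra ℚ K] (F₀ : IntermediateField ℚ (LaurentSeries ℚ))
  (c : PerCtx K) {E₁ E₂ : IntermediateField ℚ K}
  (hF₁ : c.F₁ = imBC F₀ E₁)
  (hE : E₂.toSubfield = Subfield.closure ((E₁ : Set K) ∪ {c.u}))

include hF₁ hE in
theorem cov_eq_L : cov (embBC F₀ E₂) c.h = c.L.toSubfield := by
  have hF₂ : c.F₂ = (embBC F₀ E₂).fieldRange := c.F₂_eq_imBC F₀ hF₁ hE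
  apply le_antisymm
  · apply cov_le
    · intro x
      apply c.mem_L_of_mem_F₂
      rw [hF₂]
      exact RingHom.mem_fieldRange.mpr ⟨x, rfl⟩
    · exact c.h_mem_L
  · apply c.L_le
    · intro z hz
      have : z ∈ c.F₂ := c.F₁_le_F₂ hz
      rw [hF₂] at this
      obtain ⟨x, rfl⟩ := RingHom.mem_fieldRange.mp this
      exact map_mem_cov _ _ x
    · have : c.uC ∈ c.F₂ := c.uC_mem_F₂
      rw [hF₂] at this
      obtain ⟨x, hx⟩ := RingHom.mem_fieldRange.mp this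
      rw [← hx]
      exact map_mem_cov _ _ x
    · exact gen_mem_cov _ _

variable [Algebra ↥(laurentBaseChange ↥E₁ F₀) ↥(laurentBaseChange ↥E₂ F₀)]

include hF₁ hE in
/-- **PER on the carriers of `H712.Frame`**: the hypotheses `hper`, `hf₂` of
`H712.Frame.nonempty_wildFrame` from the ambient KD relation. -/
theorem per_cov (hE₁ : c.E₁ = E₁.toSubfield)
    {ζ₁ : ↥(laurentBaseChange ↥E₁ F₀)} (hζ₁ : IsPrimitiveRoot ζ₁ c.p)
    (hζc : embBC F₀ E₁ ζ₁ = HahnSeries.C c.ζ)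
    (ft : ↥(laurentBaseChange ↥E₁ F₀)) (hft : c.h ^ c.p = embBC F₀ E₁ ft)
    (hh : c.h ∉ Set.range (embBC F₀ E₁))
    (a : ↥(laurentBaseChange ↥E₁ F₀)) (ha : embBC F₀ E₁ a = HahnSeries.C (c.u ^ c.p))
    (f₂ G₀ ℓ₂ : ↥(laurentBaseChange ↥E₂ F₀)) (hf₂0 : f₂ ≠ 0)
    (hℓ : embBC F₀ E₂ ℓ₂ = HahnSeries.C (embBC F₀ E₂ f₂).leadingCoeff)
    (κ : K) (hκ : κ ∈ E₂)
    (hσ : coeffMap (c.σ₀ : K →+* K) (embBC F₀ E₂ f₂) =
      embBC F₀ E₂ f₂ * HahnSeries.C κ * embBC F₀ E₁ ft * (embBC F₀ E₂ G₀) ^ c.p) :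
    letI := covAlgebra (embBC F₀ E₁) c.h
    ∃ (f' G : ↥(cov (embBC F₀ E₁) c.h)) (b : ↥(cov (embBC F₀ E₂) c.h)),
      f' ≠ 0 ∧ G ≠ 0 ∧ b ≠ 0 ∧
      ((covDeck (embBC F₀ E₁) c.h c.hp hζ₁ hft hh f' : ↥(cov (embBC F₀ E₁) c.h)) :
          LaurentSeries K) =
        (f' : LaurentSeries K) * embBC F₀ E₁ a * (G : LaurentSeries K) ^ c.p ∧
      embBC F₀ E₂ f₂ =
        embBC F₀ E₂ ℓ₂ * (f' : LaurentSeries K) * (b : LaurentSeries K) ^ c.p := by
  letI := covAlgebra (embBC F₀ E₁) c.h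
  have hF₁' : c.F₁ = (embBC F₀ E₁).fieldRange := hF₁
  obtain ⟨f', G, b, hf', hG, hb, hτ, hfeq⟩ :=
    c.shell_period_BC F₀ hF₁ hE hE₁ ft hft a ha f₂ G₀ ℓ₂ hf₂0 hℓ κ hκ hσ
  have hτ' := congrArg (fun z : ↥c.FcI => (z : LaurentSeries K)) hτ
  have hfeq' := congrArg (fun z : ↥c.L => (z : LaurentSeries K)) hfeq
  simp only [IntermediateField.coe_mul, IntermediateField.coe_pow] at hτ' hfeq'
  refine ⟨⟨(f' : LaurentSeries K), c.mem_cov_of_mem_FcI _ hF₁' f'.2⟩,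
    ⟨(G : LaurentSeries K), c.mem_cov_of_mem_FcI _ hF₁' G.2⟩,
    ⟨(b : LaurentSeries K), by
      have : (b : LaurentSeries K) ∈ c.L.toSubfield := b.2
      rw [← c.cov_eq_L F₀ hF₁ hE] at this
      exact this⟩, ?_, ?_, ?_, ?_, ?_⟩
  · intro h0
    apply hf'
    apply Subtype.ext
    have := congrArg (fun z : ↥(cov (embBC F₀ E₁) c.h) => (z : LaurentSeries K)) h0
    exact this
  · intro h0
    apply hG
    apply Subtype.ext
    have := congrArg (fun z : ↥(cov (embBC F₀ E₁) c.h) => (z : LaurentSeries K)) h0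
    exact this
  · intro h0
    apply hb
    apply Subtype.ext
    have := congrArg (fun z : ↥(cov (embBC F₀ E₂) c.h) => (z : LaurentSeries K)) h0
    exact this
  · rw [c.coe_covDeck (embBC F₀ E₁) hF₁' hζ₁ hζc hft hh]
    have e : c.covTo (embBC F₀ E₁) hF₁' ⟨(f' : LaurentSeries K),
        c.mem_cov_of_mem_FcI _ hF₁' f'.2⟩ = f' := by
      apply Subtype.ext
      rw [coe_covTo]
    rw [e]
    rw [c.tauF_apply] at hτ'
    rw [hτ', c.coe_algebraMap_algF', coe_e₁BC]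
  · rw [c.coe_algebraMap_algL, c.coe_algebraMap_algL, coe_e₂BC, coe_e₂BC, c.algebraMap_algLL,
      c.coe_incl] at hfeq'
    exact hfeq'

end Per

end PerCtx

end Fermat.Agent.Ribet.H819

end
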