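import Fermat.Agent.Ribet.H819.PerFE
import Fermat.Agent.Ribet.H944.WildLevel

/-!
# Row 38, WALL-p, (S4) WILD: `E₂ = E₁(u)` for the levels of `H944` (helper819)

`wildLevel_toSubfield` : `(H944.Tame.wildLevel A ζ u).toSubfield = closure (tameLevel A ζ ∪ {u})`,
the hypothesis `hE` of `PerCtx.F₂_eq_imBC`, `PerCtx.e₂BC` (`PerFE.lean`).
-/

set_option autoImplicit false
set_option linter.unusedSectionVars false
set_option linter.style.haveILetI false

noncomputable section

namespace Fermat.Agent.Ribet.H819

open Fermat.Agent.A2 Fermat.Agent.A2.IF.H429 Fermat.Agent.Ribet.H944.Tame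

theorem closure_closure_union_h819 {Ω : Type*} [Field Ω] (S T : Set Ω) :
    Subfield.closure ((Subfield.closure S : Set Ω) ∪ T) = Subfield.closure (S ∪ T) := by
  rw [Subfield.closure_union, Subfield.closure_union, Subfield.closure_eq]

theorem tameLevel_toSubfield (A : ValuationSubring Qb) (ζ : Qb) :
    (tameLevel A ζ).toSubfield =
      Subfield.closure (Set.range (algebraMap (inertiaField A) Qb) ∪ conjSet {ζ}) := by
  show ((level₁ A {ζ}).restrictScalars ℚ).toSubfield = _
  rw [IntermediateField.restrictScalars_toSubfield, level₁, IntermediateField.adjoin_toSubfield]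

theorem wildLevel_toSubfield' (A : ValuationSubring Qb) (ζ u : Qb) :
    (wildLevel A ζ u).toSubfield =
      Subfield.closure (Set.range (algebraMap (inertiaField A) Qb) ∪ (conjSet {ζ} ∪ {u})) := by
  show ((wildLevel₁ A ζ u).restrictScalars ℚ).toSubfield = _
  rw [IntermediateField.restrictScalars_toSubfield, wildLevel₁,
    IntermediateField.adjoin_toSubfield]

/-- **`E₂ = E₁(u)`.** -/
theorem wildLevel_toSubfield (A : ValuationSubring Qb) (ζ u : Qb) :
    (wildLevel A ζ u).toSubfield =
      Subfield.closure (((tameLevel A ζ : IntermediateField ℚ Qb) : Set Qb) ∪ {u}) := by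
  have h1 : ((tameLevel A ζ : IntermediateField ℚ Qb) : Set Qb) =
      ((tameLevel A ζ).toSubfield : Set Qb) := rfl
  rw [h1, tameLevel_toSubfield, closure_closure_union_h819, wildLevel_toSubfield',
    Set.union_assoc]

end Fermat.Agent.Ribet.H819

end
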