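import Mathlib

/-!
# Change of the base field along an isomorphism (helper819; Mathlib only)

`L` a field which is an algebra over two fields `F₁` and `K₁`, `e : K₁ →+* F₁` a SURJECTIVE ring
homomorphism compatible with the structure maps (`algebraMap K₁ L = algebraMap F₁ L ∘ e`).
(Typical use: `K₁` an abstract function field, `F₁` its image in a field of Laurent series,
`L` a Kummer extension of `F₁` inside the Laurent series.)

* `algEquivOfBase_h819 : (L ≃ₐ[F₁] L) →* (L ≃ₐ[K₁] L)` (same underlying map), `algEquivToBase_h819`;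
* `isGalois_of_base_h819`, `finiteDimensional_of_base_h819`, `finrank_of_base_h819`;
* `adjoin_eq_top_of_base_h819`;
* `mem_zpowers_of_base_h819` : a generator of `Gal(L/F₁)` gives a generator of `Gal(L/K₁)`.
-/

set_option autoImplicit false
set_option linter.unusedSectionVars false
set_option linter.style.haveILetI false

noncomputable section

namespace Fermat.Agent.Ribet.H819

section BaseIso

variable {F₁ K₁ L : Type*} [Field F₁] [Field K₁] [Field L] [Algebra F₁ L] [Algebra K₁ L]
  (e : K₁ →+* F₁) (he : ∀ x, algebraMap K₁ L x = algebraMap F₁ L (e x))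
  (hsurj : Function.Surjective e)

/-- An `F₁`-automorphism, as a `K₁`-automorphism. -/
def algEquivOfBase_h819 : (L ≃ₐ[F₁] L) →* (L ≃ₐ[K₁] L) where
  toFun g := AlgEquiv.ofRingEquiv (f := g.toRingEquiv) (fun x => by
    rw [he]
    exact g.commutes _)
  map_one' := AlgEquiv.ext fun _ => rfl
  map_mul' _ _ := AlgEquiv.ext fun _ => rfl

@[simp]
theorem algEquivOfBase_apply_h819 (g : L ≃ₐ[F₁] L) (z : L) :
    algEquivOfBase_h819 e he g z = g z := rfl

/-- A `K₁`-automorphism, as an `F₁`-automorphism. -/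
def algEquivToBase_h819 (g : L ≃ₐ[K₁] L) : L ≃ₐ[F₁] L :=
  AlgEquiv.ofRingEquiv (f := g.toRingEquiv) (fun y => by
    obtain ⟨x, rfl⟩ := hsurj y
    rw [← he]
    exact g.commutes x)

@[simp]
theorem algEquivToBase_apply_h819 (g : L ≃ₐ[K₁] L) (z : L) :
    algEquivToBase_h819 e he hsurj g z = g z := rfl

theorem algEquivOfBase_toBase_h819 (g : L ≃ₐ[K₁] L) :
    algEquivOfBase_h819 e he (algEquivToBase_h819 e he hsurj g) = g :=
  AlgEquiv.ext fun _ => rfl

include he hsurj in
/-- The tower `F₁ → K₁ → L` (via `e⁻¹`) used for the transport. -/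
theorem exists_tower_h819 :
    ∃ (_ : Algebra F₁ K₁), IsScalarTower F₁ K₁ L := by
  let ee : K₁ ≃+* F₁ := RingEquiv.ofBijective e ⟨e.injective, hsurj⟩
  letI : Algebra F₁ K₁ := ee.symm.toRingHom.toAlgebra
  refine ⟨inferInstance, IsScalarTower.of_algebraMap_eq fun y => ?_⟩
  show algebraMap F₁ L y = algebraMap K₁ L (ee.symm y)
  rw [he]
  congr 1
  exact (ee.apply_symm_apply y).symm

include he hsurj in
theorem isGalois_of_base_h819 [IsGalois F₁ L] : IsGalois K₁ L := by
  obtain ⟨_, _⟩ := exists_tower_h819 e he hsurj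
  exact IsGalois.tower_top_of_isGalois F₁ K₁ L

include he hsurj in
theorem finiteDimensional_of_base_h819 [FiniteDimensional F₁ L] : FiniteDimensional K₁ L := by
  obtain ⟨_, _⟩ := exists_tower_h819 e he hsurj
  exact FiniteDimensional.right F₁ K₁ L

include he hsurj in
theorem adjoin_eq_top_of_base_h819 {S : Set L} (h : IntermediateField.adjoin F₁ S = ⊤) :
    IntermediateField.adjoin K₁ S = ⊤ := by
  obtain ⟨_, _⟩ := exists_tower_h819 e he hsurj
  rw [eq_top_iff]
  intro z _
  have h1 : IntermediateField.adjoin F₁ S ≤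
      (IntermediateField.adjoin K₁ S).restrictScalars F₁ := by
    rw [IntermediateField.adjoin_le_iff]
    intro s hs
    exact IntermediateField.subset_adjoin K₁ S hs
  have h2 : z ∈ IntermediateField.adjoin F₁ S := by
    rw [h]
    exact IntermediateField.mem_top
  exact h1 h2

include hsurj in
/-- A generator of `Gal(L/F₁)` gives a generator of `Gal(L/K₁)`. -/
theorem mem_zpowers_of_base_h819 (τ : L ≃ₐ[F₁] L)
    (hgen : ∀ g : L ≃ₐ[F₁] L, g ∈ Subgroup.zpowers τ) (g : L ≃ₐ[K₁] L) :
    g ∈ Subgroup.zpowers (algEquivOfBase_h819 e he τ) := by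
  obtain ⟨k, hk⟩ := Subgroup.mem_zpowers_iff.mp (hgen (algEquivToBase_h819 e he hsurj g))
  refine Subgroup.mem_zpowers_iff.mpr ⟨k, ?_⟩
  rw [← map_zpow, hk]
  exact algEquivOfBase_toBase_h819 e he hsurj g

include he hsurj in
theorem finrank_of_base_h819 : Module.finrank K₁ L = Module.finrank F₁ L := by
  refine Algebra.finrank_eq_of_equiv_equiv (RingEquiv.ofBijective e ⟨e.injective, hsurj⟩)
    (RingEquiv.refl L) ?_
  ext x
  exact (he x).symm

end BaseIso

end Fermat.Agent.Ribet.H819

end
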