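import Fermat.Agent.Ribet.H819.PerFE

/-!
# Row 38, WALL-p, (S4) WILD: `K₂ = K₁ · E₂` (helper819)

`K₁ = F_{E₁} = laurentBaseChange E₁ F₀`, `K₂ = F_{E₂}`, with ANY `[Algebra K₁ K₂]` compatible with
the embeddings into `K((t))` (`hcompat`).  Then `K₂` is generated over `K₁` by the constants of
`E₂`:

  `adjoin_range_BC : IntermediateField.adjoin K₁ (Set.range (algebraMap E₂ K₂)) = ⊤`

(the hypothesis `hK2` of HOR-DESC: `H769.horDesc_frame769`, `H127.divisibleDiv_descent_frame_h127`).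
-/

set_option autoImplicit false
set_option linter.unusedSectionVars false
set_option linter.style.haveILetI false
set_option maxHeartbeats 400000

noncomputable section

namespace Fermat.Agent.Ribet.H819

open ModularCurve

section HK2

variable {K : Type} [Field K] [Algebra ℚ K] (F₀ : IntermediateField ℚ (LaurentSeries ℚ))
  {E₁ E₂ : IntermediateField ℚ K}

theorem embBC_injective (E : IntermediateField ℚ K) : Function.Injective (embBC F₀ E) :=
  (embBC F₀ E).injective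

theorem embBC_coeffEmb (E : IntermediateField ℚ K) {y : LaurentSeries ℚ} (hy : y ∈ F₀) :
    embBC F₀ E ⟨coeffEmb ↥E y, coeffEmb_mem_laurentBaseChange ↥E hy⟩ = coeffEmb K y := by
  rw [embBC_apply]
  show coeffMap (algebraMap ↥E K) (coeffMap (algebraMap ℚ ↥E) y) = coeffMap (algebraMap ℚ K) y
  rw [coeffMap_coeffMap]
  exact coeffMap_congr (RingHom.ext fun q => (IsScalarTower.algebraMap_apply ℚ ↥E K q).symm) y

variable [Algebra ↥(laurentBaseChange ↥E₁ F₀) ↥(laurentBaseChange ↥E₂ F₀)]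
  (hcompat : ∀ x : ↥(laurentBaseChange ↥E₁ F₀),
    embBC F₀ E₂ (algebraMap ↥(laurentBaseChange ↥E₁ F₀) ↥(laurentBaseChange ↥E₂ F₀) x) =
      embBC F₀ E₁ x)

include hcompat in
theorem algebraMap_coeffEmb_BC {y : LaurentSeries ℚ} (hy : y ∈ F₀) :
    algebraMap ↥(laurentBaseChange ↥E₁ F₀) ↥(laurentBaseChange ↥E₂ F₀)
      ⟨coeffEmb ↥E₁ y, coeffEmb_mem_laurentBaseChange ↥E₁ hy⟩ =
      ⟨coeffEmb ↥E₂ y, coeffEmb_mem_laurentBaseChange ↥E₂ hy⟩ := by
  apply embBC_injective F₀ E₂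
  rw [hcompat, embBC_coeffEmb F₀ E₁ hy, embBC_coeffEmb F₀ E₂ hy]

include hcompat in
/-- **`K₂ = K₁ · E₂`.** -/
theorem adjoin_range_BC :
    IntermediateField.adjoin ↥(laurentBaseChange ↥E₁ F₀)
      (Set.range (algebraMap ↥E₂ ↥(laurentBaseChange ↥E₂ F₀))) = ⊤ := by
  rw [eq_top_iff]
  rintro ⟨z, hz⟩ -
  have key : ∀ (z : LaurentSeries ↥E₂) (hz : z ∈ laurentBaseChange ↥E₂ F₀),
      (⟨z, hz⟩ : ↥(laurentBaseChange ↥E₂ F₀)) ∈
        IntermediateField.adjoin ↥(laurentBaseChange ↥E₁ F₀)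
          (Set.range (algebraMap ↥E₂ ↥(laurentBaseChange ↥E₂ F₀))) := by
    intro z hz
    have hz' : z ∈ IntermediateField.adjoin ↥E₂
        (⇑(coeffEmb ↥E₂) '' (F₀ : Set (LaurentSeries ℚ))) := hz
    induction hz' using IntermediateField.adjoin_induction with
    | mem x hx =>
      obtain ⟨y, hy, rfl⟩ := hx
      have := algebraMap_coeffEmb_BC F₀ hcompat hy
      have h2 : (⟨coeffEmb ↥E₂ y, hz⟩ : ↥(laurentBaseChange ↥E₂ F₀)) =
          algebraMap ↥(laurentBaseChange ↥E₁ F₀) ↥(laurentBaseChange ↥E₂ F₀)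
            ⟨coeffEmb ↥E₁ y, coeffEmb_mem_laurentBaseChange ↥E₁ hy⟩ := this.symm
      rw [h2]
      exact IntermediateField.algebraMap_mem _ _
    | algebraMap x =>
      have h2 : (⟨algebraMap ↥E₂ (LaurentSeries ↥E₂) x, hz⟩ : ↥(laurentBaseChange ↥E₂ F₀)) =
          algebraMap ↥E₂ ↥(laurentBaseChange ↥E₂ F₀) x := Subtype.ext rfl
      rw [h2]
      exact IntermediateField.subset_adjoin _ _ ⟨x, rfl⟩
    | add x y hx hy ihx ihy =>
      have h2 : (⟨x + y, hz⟩ : ↥(laurentBaseChange ↥E₂ F₀)) = ⟨x, hx⟩ + ⟨y, hy⟩ :=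
        Subtype.ext rfl
      rw [h2]
      exact add_mem (ihx hx) (ihy hy)
    | inv x hx ihx =>
      have h2 : (⟨x⁻¹, hz⟩ : ↥(laurentBaseChange ↥E₂ F₀)) = (⟨x, hx⟩)⁻¹ := Subtype.ext rfl
      rw [h2]
      exact inv_mem (ihx hx)
    | mul x y hx hy ihx ihy =>
      have h2 : (⟨x * y, hz⟩ : ↥(laurentBaseChange ↥E₂ F₀)) = ⟨x, hx⟩ * ⟨y, hy⟩ :=
        Subtype.ext rfl
      rw [h2]
      exact mul_mem (ihx hx) (ihy hy)
  exact key z hz

end HK2

end Fermat.Agent.Ribet.H819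

end
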