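import Fermat.Agent.Ribet.H819.PerShell
import Fermat.Agent.Ribet.H819.PerKum
import Fermat.Agent.Ribet.H819.PerHK2

/-!
# Row 38, WALL-p, (S4) WILD: the cover side of `H704.CoreOut.WildFrame`, assembled (helper819)

`K = ℚ̄`, `F₀ = modularFunctionFieldFull N`, `E₁ ⊆ E₂ = E₁(u)` the tame and the wild level,
`K₁ = F_{E₁}`, `K₂ = F_{E₂}` (`= A2.Mod.FE Eᵢ N`), `c : PerCtx K` with `c.F₁ = imBC F₀ E₁`
(e.g. `c = PerCtx.ofKummer …`), `e₁ = c.e₁BC`, `e₂ = c.e₂BC`, `L₁ = c.FcI`, `L₂ = c.L`.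

* `hh_BC`           : `hI ^ p = algebraMap K₁ L₁ f_t`                               (field `hh`);
* `shell_period_BC` : from the ambient KD relation `σ₀ F = F · κ · f_t · G₀ ^ p`
  (`F = embBC f₂`, `κ ∈ E₂`): `f', G ∈ L₁`, `b ∈ L₂` with the fields `hper`, `hf₂`;
* the other cover fields: `PerShell` (`adjoin_incl_hI_algL`, `exists_pow_eq_tauF`, towers),
  `PerWild` (`isGalois_algF`, `finiteDimensional_algF`, `adjoin_hI_algF`), `PerHK2`.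
-/

set_option autoImplicit false
set_option linter.unusedSectionVars false
set_option linter.style.haveILetI false
set_option maxHeartbeats 400000

noncomputable section

namespace Fermat.Agent.Ribet.H819

open ModularCurve

namespace PerCtx

section Asm

variable {K : Type} [Field K] [Algebra ℚ K] (F₀ : IntermediateField ℚ (LaurentSeries ℚ))
  (c : PerCtx K) {E₁ E₂ : IntermediateField ℚ K}
  (hF₁ : c.F₁ = imBC F₀ E₁)
  (hE : E₂.toSubfield = Subfield.closure ((E₁ : Set K) ∪ {c.u}))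

theorem E'_eq_of (hE₁ : c.E₁ = E₁.toSubfield)
    (hE : E₂.toSubfield = Subfield.closure ((E₁ : Set K) ∪ {c.u})) :
    c.E' = E₂.toSubfield := by
  rw [hE, E', hE₁]
  rfl

/-- The field `hh` of `WildFrame`. -/
theorem hh_BC (ft : ↥(laurentBaseChange ↥E₁ F₀)) (hft : c.h ^ c.p = embBC F₀ E₁ ft) :
    letI := c.algF (c.e₁BC F₀ hF₁)
    c.hI ^ c.p = algebraMap ↥(laurentBaseChange ↥E₁ F₀) ↥c.FcI ft := by
  letI := c.algF (c.e₁BC F₀ hF₁)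
  exact c.hI_pow_algF (c.e₁BC F₀ hF₁) ft (by rw [coe_e₁BC, hft])

variable [Algebra ↥(laurentBaseChange ↥E₁ F₀) ↥(laurentBaseChange ↥E₂ F₀)]

/-- **The PER fields `hper`, `hf₂` of `WildFrame`** from the ambient KD relation. -/
theorem shell_period_BC (hE₁ : c.E₁ = E₁.toSubfield)
    (ft : ↥(laurentBaseChange ↥E₁ F₀)) (hft : c.h ^ c.p = embBC F₀ E₁ ft)
    (a : ↥(laurentBaseChange ↥E₁ F₀)) (ha : embBC F₀ E₁ a = HahnSeries.C (c.u ^ c.p))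
    (f₂ G₀ ℓ₂ : ↥(laurentBaseChange ↥E₂ F₀)) (hf₂0 : f₂ ≠ 0)
    (hℓ : embBC F₀ E₂ ℓ₂ = HahnSeries.C (embBC F₀ E₂ f₂).leadingCoeff)
    (κ : K) (hκ : κ ∈ E₂)
    (hσ : coeffMap (c.σ₀ : K →+* K) (embBC F₀ E₂ f₂) =
      embBC F₀ E₂ f₂ * HahnSeries.C κ * embBC F₀ E₁ ft * (embBC F₀ E₂ G₀) ^ c.p) :
    letI := c.algF (c.e₁BC F₀ hF₁)
    letI := c.algL (c.e₂BC F₀ hF₁ hE)
    letI := c.algLL
    ∃ (f' G : ↥c.FcI) (b : ↥c.L), f' ≠ 0 ∧ G ≠ 0 ∧ b ≠ 0 ∧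
      c.tauF (c.e₁BC F₀ hF₁) f' =
        f' * algebraMap ↥(laurentBaseChange ↥E₁ F₀) ↥c.FcI a * G ^ c.p ∧
      algebraMap ↥(laurentBaseChange ↥E₂ F₀) ↥c.L f₂ =
        algebraMap ↥(laurentBaseChange ↥E₂ F₀) ↥c.L ℓ₂ * algebraMap ↥c.FcI ↥c.L f' * b ^ c.p := by
  have hκ' : κ ∈ c.E' := by
    rw [c.E'_eq_of hE₁ hE]
    exact hκ
  refine c.shell_period (c.e₁BC F₀ hF₁) (c.e₂BC F₀ hF₁ hE) a ?_ f₂ G₀ ℓ₂ hf₂0 ?_ κ hκ' ?_
  · rw [coe_e₁BC]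
    exact ha
  · rw [coe_e₂BC]
    exact hℓ
  · rw [coe_e₂BC, coe_e₂BC, hσ, mul_pow, hft]
    ring

end Asm

end PerCtx

end Fermat.Agent.Ribet.H819

end
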