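import Fermat.Agent.Ribet.H819.PerField

/-!
# Row 38, WALL-p, crux (I6), leaf INST-D: the cover field `F₁(h)` and its deck group (helper819)

`c : PerCtx K` (`PerField.lean`).  The function field of the cover as a Mathlib Kummer extension:

* `c.FcI = F₁⟮h⟯ : IntermediateField F₁ K((t))`, with underlying subfield `c.Fc`;
* `c.tauA : FcI ≃ₐ[F₁] FcI`, `tauA h = ζ h`; it is the restriction of `c.tau` (`coe_tau_eq_tauA`);
* `finrank_FcI : [F₁(h) : F₁] = p`, `minpoly_h`, `irreducible_h`;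
* `exists_pow_eq_tauA` : every `F₁`-automorphism of `F₁(h)` is a power of `tauA`
  (so `tauA` generates the deck group: SHEETS for one generator gives SHEETS for `tauA`);
* `tauA_pow : tauA ^ p = 1`.
-/

set_option autoImplicit false
set_option linter.unusedSectionVars false
set_option linter.style.haveILetI false
set_option maxHeartbeats 400000

noncomputable section

namespace Fermat.Agent.Ribet.H819

open ModularCurve Polynomial

namespace PerCtx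

variable {K : Type} [Field K] (c : PerCtx K)

/-- The function field of the cover, as an intermediate field over `F₁`. -/
def FcI : IntermediateField ↥c.F₁ (LaurentSeries K) :=
  IntermediateField.adjoin ↥c.F₁ ({c.h} : Set (LaurentSeries K))

theorem FcI_toSubfield : c.FcI.toSubfield = c.Fc := by
  rw [FcI, IntermediateField.adjoin_toSubfield, Fc]
  congr 2
  ext y
  constructor
  · rintro ⟨b, rfl⟩
    exact b.2
  · intro hy
    exact ⟨⟨y, hy⟩, rfl⟩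

theorem mem_FcI_iff (z : LaurentSeries K) : z ∈ c.FcI ↔ z ∈ c.Fc := by
  rw [← c.FcI_toSubfield]
  rfl

theorem h_mem_FcI : c.h ∈ c.FcI := IntermediateField.mem_adjoin_simple_self _ _

/-- `h` as an element of the cover field. -/
def hI : ↥c.FcI := IntermediateField.AdjoinSimple.gen ↥c.F₁ c.h

@[simp]
theorem coe_hI : ((c.hI : ↥c.FcI) : LaurentSeries K) = c.h := rfl

/-- `h ^ p` as an element of `F₁`. -/
def aF : ↥c.F₁ := ⟨c.h ^ c.p, c.hhp⟩

theorem h_ne_zero : c.h ≠ 0 := fun h0 => c.hhF (h0 ▸ c.F₁.zero_mem)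

theorem irreducible_h : Irreducible (X ^ c.p - C c.aF : Polynomial ↥c.F₁) := by
  apply X_pow_sub_C_irreducible_of_prime c.hp
  intro b hb
  have hb' : (b : LaurentSeries K) ^ c.p = c.h ^ c.p := by
    have := congrArg (fun z : ↥c.F₁ => (z : LaurentSeries K)) hb
    simpa [aF] using this
  have hb0 : (b : LaurentSeries K) ≠ 0 := by
    intro h0
    rw [h0, zero_pow c.hp.ne_zero] at hb'
    exact pow_ne_zero c.p c.h_ne_zero hb'.symm
  have h1 : (c.h / (b : LaurentSeries K)) ^ c.p = 1 := by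
    rw [div_pow, hb', div_self (pow_ne_zero c.p c.h_ne_zero)]
  haveI : NeZero c.p := ⟨c.hp.ne_zero⟩
  obtain ⟨i, -, hi⟩ := c.zC_isPrimitiveRoot.eq_pow_of_pow_eq_one h1
  apply c.hhF
  have : c.h = c.zC ^ i * (b : LaurentSeries K) := by
    rw [hi]
    field_simp
  rw [this]
  exact c.F₁.mul_mem (c.F₁.pow_mem c.zC_mem_F₁ i) b.2

theorem aeval_h : aeval c.h (X ^ c.p - C c.aF : Polynomial ↥c.F₁) = 0 := by
  rw [map_sub, map_pow, aeval_X, aeval_C]
  exact sub_self (c.h ^ c.p)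

theorem isIntegral_h : IsIntegral ↥c.F₁ c.h :=
  ⟨X ^ c.p - C c.aF, monic_X_pow_sub_C _ c.hp.ne_zero, c.aeval_h⟩

theorem minpoly_h : minpoly ↥c.F₁ c.h = X ^ c.p - C c.aF :=
  (minpoly.eq_of_irreducible_of_monic c.irreducible_h c.aeval_h
    (monic_X_pow_sub_C _ c.hp.ne_zero)).symm

theorem finrank_FcI : Module.finrank ↥c.F₁ ↥c.FcI = c.p := by
  rw [FcI, IntermediateField.adjoin.finrank c.isIntegral_h, c.minpoly_h,
    natDegree_X_pow_sub_C]

instance finiteDimensional_FcI : FiniteDimensional ↥c.F₁ ↥c.FcI :=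
  IntermediateField.adjoin.finiteDimensional c.isIntegral_h

/-- **The deck transformation** of the cover field `F₁(h)` over `F₁`. -/
def tauA : ↥c.FcI ≃ₐ[↥c.F₁] ↥c.FcI :=
  (exists_deck_h819 c.F₁ c.hp c.zC_isPrimitiveRoot c.zC_mem_F₁ c.hhp c.hhF).choose

theorem coe_tauA_hI : ((c.tauA c.hI : ↥c.FcI) : LaurentSeries K) = c.zC * c.h :=
  (exists_deck_h819 c.F₁ c.hp c.zC_isPrimitiveRoot c.zC_mem_F₁ c.hhp c.hhF).choose_spec

/-- `ζ` as an element of the cover field. -/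
def zI : ↥c.FcI := algebraMap ↥c.F₁ ↥c.FcI ⟨c.zC, c.zC_mem_F₁⟩

@[simp]
theorem coe_zI : ((c.zI : ↥c.FcI) : LaurentSeries K) = c.zC := rfl

theorem tauA_hI : c.tauA c.hI = c.zI * c.hI := Subtype.ext c.coe_tauA_hI

theorem tauA_zI : c.tauA c.zI = c.zI := c.tauA.commutes _

/-- Two `F₁`-algebra homomorphisms on the cover field which agree at `h` are equal. -/
theorem algHom_ext_FcI {A : Type*} [Ring A] [Algebra ↥c.F₁ A] (f g : ↥c.FcI →ₐ[↥c.F₁] A)
    (hh : f c.hI = g c.hI) : f = g :=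
  (IntermediateField.adjoin.powerBasis c.isIntegral_h).algHom_ext hh

theorem tauA_pow_hI (j : ℕ) : (c.tauA ^ j) c.hI = c.zI ^ j * c.hI := by
  induction j with
  | zero => simp
  | succ j ih =>
    rw [pow_succ', AlgEquiv.mul_apply, ih, map_mul, map_pow, c.tauA_zI, c.tauA_hI]
    ring

theorem zI_pow : c.zI ^ c.p = 1 := Subtype.ext (by
  show c.zC ^ c.p = 1
  exact c.zC_isPrimitiveRoot.pow_eq_one)

theorem tauA_pow : c.tauA ^ c.p = 1 := by
  have key : (c.tauA ^ c.p).toAlgHom = AlgHom.id ↥c.F₁ ↥c.FcI := by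
    apply c.algHom_ext_FcI
    show (c.tauA ^ c.p) c.hI = c.hI
    rw [c.tauA_pow_hI, c.zI_pow, one_mul]
  exact AlgEquiv.ext fun z => congrArg (fun f : ↥c.FcI →ₐ[↥c.F₁] ↥c.FcI => f z) key

/-- **`tauA` generates the deck group.** -/
theorem exists_pow_eq_tauA (g : ↥c.FcI ≃ₐ[↥c.F₁] ↥c.FcI) :
    ∃ j : ℕ, j < c.p ∧ g = c.tauA ^ j := by
  have hgp : (g c.hI) ^ c.p = c.hI ^ c.p := by
    have h1 : c.hI ^ c.p = algebraMap ↥c.F₁ ↥c.FcI c.aF := Subtype.ext rfl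
    rw [← map_pow, h1, g.commutes]
  have hI0 : c.hI ≠ 0 := by
    intro h0
    exact c.h_ne_zero (congrArg Subtype.val h0)
  have h1 : (((g c.hI : ↥c.FcI) : LaurentSeries K) / c.h) ^ c.p = 1 := by
    have := congrArg (fun z : ↥c.FcI => (z : LaurentSeries K)) hgp
    simp only [IntermediateField.coe_pow, coe_hI] at this
    rw [div_pow, this, div_self (pow_ne_zero c.p c.h_ne_zero)]
  haveI : NeZero c.p := ⟨c.hp.ne_zero⟩
  obtain ⟨j, hj, hi⟩ := c.zC_isPrimitiveRoot.eq_pow_of_pow_eq_one h1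
  refine ⟨j, hj, ?_⟩
  have key : g.toAlgHom = (c.tauA ^ j).toAlgHom := by
    apply c.algHom_ext_FcI
    show g c.hI = (c.tauA ^ j) c.hI
    rw [c.tauA_pow_hI]
    apply Subtype.ext
    show ((g c.hI : ↥c.FcI) : LaurentSeries K) = c.zC ^ j * c.h
    rw [hi]
    field_simp [c.h_ne_zero]
  exact AlgEquiv.ext fun z => congrArg (fun f : ↥c.FcI →ₐ[↥c.F₁] ↥c.FcI => f z) key

/-! ### Compatibility with the deck transformation `c.tau` of `L` -/

theorem mem_L_of_mem_FcI {z : LaurentSeries K} (hz : z ∈ c.FcI) : z ∈ c.L :=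
  c.mem_L_of_mem_Fc ((c.mem_FcI_iff z).mp hz)

/-- **`c.tau` restricted to the cover field is `c.tauA`.** -/
theorem coe_tau_eq_tauA (z : LaurentSeries K) (hz : z ∈ c.FcI) :
    ((c.tau ⟨z, c.mem_L_of_mem_FcI hz⟩ : ↥c.L) : LaurentSeries K) =
      ((c.tauA ⟨z, hz⟩ : ↥c.FcI) : LaurentSeries K) := by
  induction hz using IntermediateField.adjoin_induction with
  | mem x hx =>
    rw [Set.mem_singleton_iff] at hx
    subst hx
    exact c.coe_tau_hL.trans c.coe_tauA_hI.symm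
  | algebraMap x =>
    have h1 : c.tau ⟨algebraMap ↥c.F₁ (LaurentSeries K) x,
        c.mem_L_of_mem_FcI (c.FcI.algebraMap_mem x)⟩ =
        ⟨algebraMap ↥c.F₁ (LaurentSeries K) x, c.mem_L_of_mem_FcI (c.FcI.algebraMap_mem x)⟩ :=
      c.tau_of_mem_F₁ _ x.2
    have h2 : c.tauA ⟨algebraMap ↥c.F₁ (LaurentSeries K) x, c.FcI.algebraMap_mem x⟩ =
        ⟨algebraMap ↥c.F₁ (LaurentSeries K) x, c.FcI.algebraMap_mem x⟩ :=
      c.tauA.commutes x
    rw [h1, h2]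
  | add x y hx hy ihx ihy =>
    have e1 : (⟨x + y, c.mem_L_of_mem_FcI (add_mem hx hy)⟩ : ↥c.L) =
        ⟨x, c.mem_L_of_mem_FcI hx⟩ + ⟨y, c.mem_L_of_mem_FcI hy⟩ := Subtype.ext rfl
    have e2 : (⟨x + y, add_mem hx hy⟩ : ↥c.FcI) = ⟨x, hx⟩ + ⟨y, hy⟩ := Subtype.ext rfl
    rw [e1, e2, map_add, map_add]
    show ((c.tau ⟨x, _⟩ : ↥c.L) : LaurentSeries K) + ((c.tau ⟨y, _⟩ : ↥c.L) : LaurentSeries K) =
      ((c.tauA ⟨x, hx⟩ : ↥c.FcI) : LaurentSeries K) + ((c.tauA ⟨y, hy⟩ : ↥c.FcI) : LaurentSeries K)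
    rw [ihx, ihy]
  | inv x hx ihx =>
    have e1 : (⟨x⁻¹, c.mem_L_of_mem_FcI (inv_mem hx)⟩ : ↥c.L) =
        (⟨x, c.mem_L_of_mem_FcI hx⟩ : ↥c.L)⁻¹ := Subtype.ext rfl
    have e2 : (⟨x⁻¹, inv_mem hx⟩ : ↥c.FcI) = (⟨x, hx⟩ : ↥c.FcI)⁻¹ := Subtype.ext rfl
    rw [e1, e2, map_inv₀, map_inv₀]
    show ((c.tau ⟨x, _⟩ : ↥c.L) : LaurentSeries K)⁻¹ =
      ((c.tauA ⟨x, hx⟩ : ↥c.FcI) : LaurentSeries K)⁻¹
    rw [ihx]
  | mul x y hx hy ihx ihy =>
    have e1 : (⟨x * y, c.mem_L_of_mem_FcI (mul_mem hx hy)⟩ : ↥c.L) =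
        ⟨x, c.mem_L_of_mem_FcI hx⟩ * ⟨y, c.mem_L_of_mem_FcI hy⟩ := Subtype.ext rfl
    have e2 : (⟨x * y, mul_mem hx hy⟩ : ↥c.FcI) = ⟨x, hx⟩ * ⟨y, hy⟩ := Subtype.ext rfl
    rw [e1, e2, map_mul, map_mul]
    show ((c.tau ⟨x, _⟩ : ↥c.L) : LaurentSeries K) * ((c.tau ⟨y, _⟩ : ↥c.L) : LaurentSeries K) =
      ((c.tauA ⟨x, hx⟩ : ↥c.FcI) : LaurentSeries K) * ((c.tauA ⟨y, hy⟩ : ↥c.FcI) : LaurentSeries K)
    rw [ihx, ihy]

end PerCtx

end Fermat.Agent.Ribet.H819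

end
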