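import Mathlib

/-!
# Row 38, WALL-p, crux (I6), leaf INST-D — Kummer extensions of prime degree inside a field
# (helper819; Mathlib only)

`Ω` a field, `B ≤ Ω` a subfield, `ζ ∈ B` a primitive `p`-th root of unity (`p` prime),
`h ∈ Ω` with `h ^ p ∈ B`, `h ∉ B`.  For `M = B(h) = IntermediateField.adjoin B {h}`:

* `kummer_irreducible_h819` : `X ^ p - h ^ p` is irreducible over `B`;
* `kummer_finrank_h819`     : `[M : B] = p`;
* `kummer_adjoin_gen_h819`  : `B(gen) = ⊤` in `M`;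
* `kummer_isGalois_h819`    : `M / B` is Galois;
* `kummer_mem_zpowers_h819` : an automorphism `τ` with `τ h = ζ h` generates `Gal(M / B)`;
* `kummer_pow_eq_one_h819`  : `τ ^ p = 1`.
-/

set_option autoImplicit false
set_option linter.unusedSectionVars false
set_option linter.style.haveILetI false

noncomputable section

namespace Fermat.Agent.Ribet.H819

open Polynomial

section Kummer

variable {Ω : Type*} [Field Ω] (B : Subfield Ω) {p : ℕ} (hp : p.Prime) {ζ : Ω}
  (hζ : IsPrimitiveRoot ζ p) (hζB : ζ ∈ B) {h : Ω} (hhp : h ^ p ∈ B) (hhB : h ∉ B)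

include hp hζ hζB hhB in
theorem kummer_irreducible_h819 :
    Irreducible (X ^ p - C (⟨h ^ p, hhp⟩ : ↥B) : Polynomial ↥B) := by
  have hh0 : h ≠ 0 := fun h0 => hhB (h0 ▸ B.zero_mem)
  apply X_pow_sub_C_irreducible_of_prime hp
  intro b hb
  have hb' : (b : Ω) ^ p = h ^ p := by
    have := congrArg (fun z : ↥B => (z : Ω)) hb
    simpa using this
  have hb0 : (b : Ω) ≠ 0 := by
    intro h0
    rw [h0, zero_pow hp.ne_zero] at hb'
    exact pow_ne_zero p hh0 hb'.symm
  have h1 : (h / (b : Ω)) ^ p = 1 := by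
    rw [div_pow, hb', div_self (pow_ne_zero p hh0)]
  haveI : NeZero p := ⟨hp.ne_zero⟩
  obtain ⟨i, -, hi⟩ := hζ.eq_pow_of_pow_eq_one h1
  apply hhB
  have : h = ζ ^ i * (b : Ω) := by
    rw [hi]
    field_simp
  rw [this]
  exact B.mul_mem (B.pow_mem hζB i) b.2

theorem kummer_aeval_h819 :
    aeval h (X ^ p - C (⟨h ^ p, hhp⟩ : ↥B) : Polynomial ↥B) = 0 := by
  rw [map_sub, map_pow, aeval_X, aeval_C]
  exact sub_self (h ^ p)

include hp hhp in
theorem kummer_isIntegral_h819 : IsIntegral ↥B h :=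
  ⟨X ^ p - C (⟨h ^ p, hhp⟩ : ↥B), monic_X_pow_sub_C _ hp.ne_zero, kummer_aeval_h819 B hhp⟩

include hp hζ hζB hhB in
theorem kummer_minpoly_h819 : minpoly ↥B h = X ^ p - C (⟨h ^ p, hhp⟩ : ↥B) :=
  (minpoly.eq_of_irreducible_of_monic (kummer_irreducible_h819 B hp hζ hζB hhp hhB)
    (kummer_aeval_h819 B hhp) (monic_X_pow_sub_C _ hp.ne_zero)).symm

include hp hζ hζB hhp hhB in
theorem kummer_finrank_h819 :
    Module.finrank ↥B ↥(IntermediateField.adjoin ↥B ({h} : Set Ω)) = p := by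
  rw [IntermediateField.adjoin.finrank (kummer_isIntegral_h819 B hp hhp),
    kummer_minpoly_h819 B hp hζ hζB hhp hhB, natDegree_X_pow_sub_C]

include hp hhp in
theorem kummer_finiteDimensional_h819 :
    FiniteDimensional ↥B ↥(IntermediateField.adjoin ↥B ({h} : Set Ω)) :=
  IntermediateField.adjoin.finiteDimensional (kummer_isIntegral_h819 B hp hhp)

include hp hhp in
/-- The generator generates. -/
theorem kummer_adjoin_gen_h819 :
    IntermediateField.adjoin ↥B
      ({IntermediateField.AdjoinSimple.gen ↥B h} :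
        Set ↥(IntermediateField.adjoin ↥B ({h} : Set Ω))) = ⊤ := by
  apply IntermediateField.adjoin_eq_top_of_algebra
  have := (IntermediateField.adjoin.powerBasis (kummer_isIntegral_h819 B hp hhp)).adjoin_gen_eq_top
  rwa [IntermediateField.adjoin.powerBasis_gen] at this

include hp hζ hζB hhp hhB in
/-- `B(h) / B` is Galois. -/
theorem kummer_isGalois_h819 :
    IsGalois ↥B ↥(IntermediateField.adjoin ↥B ({h} : Set Ω)) := by
  haveI := kummer_finiteDimensional_h819 B hp hhp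
  have hfr := kummer_finrank_h819 B hp hζ hζB hhp hhB
  have hζ' : IsPrimitiveRoot (⟨ζ, hζB⟩ : ↥B) p := by
    have : IsPrimitiveRoot (B.subtype (⟨ζ, hζB⟩ : ↥B)) p := hζ
    exact this.of_map_of_injective B.subtype.injective
  have hK : (primitiveRoots p ↥B).Nonempty :=
    ⟨⟨ζ, hζB⟩, (mem_primitiveRoots hp.pos).mpr hζ'⟩
  have hgen : (IntermediateField.AdjoinSimple.gen ↥B h) ^ p =
      algebraMap ↥B ↥(IntermediateField.adjoin ↥B ({h} : Set Ω)) (⟨h ^ p, hhp⟩ : ↥B) :=
    Subtype.ext rfl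
  haveI : IsSplittingField ↥B ↥(IntermediateField.adjoin ↥B ({h} : Set Ω))
      (X ^ p - C (⟨h ^ p, hhp⟩ : ↥B)) := by
    have := isSplittingField_X_pow_sub_C_of_root_adjoin_eq_top
      (K := ↥B) (L := ↥(IntermediateField.adjoin ↥B ({h} : Set Ω)))
      (by rw [hfr]; exact hK) (a := (⟨h ^ p, hhp⟩ : ↥B))
      (α := IntermediateField.AdjoinSimple.gen ↥B h) (by rw [hfr]; exact hgen)
      (kummer_adjoin_gen_h819 B hp hhp)
    rwa [hfr] at this
  exact isGalois_of_isSplittingField_X_pow_sub_C hK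
    (kummer_irreducible_h819 B hp hζ hζB hhp hhB) _

include hp hhp in
/-- Two `B`-algebra homomorphisms on `B(h)` which agree at `h` are equal. -/
theorem kummer_algHom_ext_h819 {A : Type*} [Ring A] [Algebra ↥B A]
    (f g : ↥(IntermediateField.adjoin ↥B ({h} : Set Ω)) →ₐ[↥B] A)
    (hh : f (IntermediateField.AdjoinSimple.gen ↥B h) =
      g (IntermediateField.AdjoinSimple.gen ↥B h)) : f = g :=
  (IntermediateField.adjoin.powerBasis (kummer_isIntegral_h819 B hp hhp)).algHom_ext hh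

variable (τ : ↥(IntermediateField.adjoin ↥B ({h} : Set Ω)) ≃ₐ[↥B]
    ↥(IntermediateField.adjoin ↥B ({h} : Set Ω)))
  (hτ : ((τ (IntermediateField.AdjoinSimple.gen ↥B h) :
    ↥(IntermediateField.adjoin ↥B ({h} : Set Ω))) : Ω) = ζ * h)

include hζB hτ in
theorem kummer_pow_gen_h819 (j : ℕ) :
    (((τ ^ j) (IntermediateField.AdjoinSimple.gen ↥B h) :
      ↥(IntermediateField.adjoin ↥B ({h} : Set Ω))) : Ω) = ζ ^ j * h := by
  induction j with
  | zero => simp
  | succ j ih =>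
    rw [pow_succ', AlgEquiv.mul_apply]
    have e : (τ ^ j) (IntermediateField.AdjoinSimple.gen ↥B h) =
        algebraMap ↥B ↥(IntermediateField.adjoin ↥B ({h} : Set Ω)) (⟨ζ, hζB⟩ ^ j) *
          IntermediateField.AdjoinSimple.gen ↥B h := Subtype.ext (by
      rw [ih]
      rfl)
    rw [e, map_mul, AlgEquiv.commutes]
    show ζ ^ j * ((τ (IntermediateField.AdjoinSimple.gen ↥B h) :
      ↥(IntermediateField.adjoin ↥B ({h} : Set Ω))) : Ω) = ζ ^ (j + 1) * h
    rw [hτ]
    ring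

include hp hζ hζB hhp hhB hτ in
/-- **`τ` generates the Galois group.** -/
theorem kummer_exists_pow_h819
    (g : ↥(IntermediateField.adjoin ↥B ({h} : Set Ω)) ≃ₐ[↥B]
      ↥(IntermediateField.adjoin ↥B ({h} : Set Ω))) :
    ∃ j : ℕ, j < p ∧ g = τ ^ j := by
  have hh0 : h ≠ 0 := fun h0 => hhB (h0 ▸ B.zero_mem)
  have hgp : (g (IntermediateField.AdjoinSimple.gen ↥B h)) ^ p =
      (IntermediateField.AdjoinSimple.gen ↥B h) ^ p := by
    have h1 : (IntermediateField.AdjoinSimple.gen ↥B h) ^ p =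
        algebraMap ↥B ↥(IntermediateField.adjoin ↥B ({h} : Set Ω)) (⟨h ^ p, hhp⟩ : ↥B) :=
      Subtype.ext rfl
    rw [← map_pow, h1, g.commutes]
  have h1 : (((g (IntermediateField.AdjoinSimple.gen ↥B h) :
      ↥(IntermediateField.adjoin ↥B ({h} : Set Ω))) : Ω) / h) ^ p = 1 := by
    have := congrArg (fun z : ↥(IntermediateField.adjoin ↥B ({h} : Set Ω)) => (z : Ω)) hgp
    simp only [IntermediateField.coe_pow, IntermediateField.AdjoinSimple.coe_gen] at this
    rw [div_pow, this, div_self (pow_ne_zero p hh0)]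
  haveI : NeZero p := ⟨hp.ne_zero⟩
  obtain ⟨j, hj, hi⟩ := hζ.eq_pow_of_pow_eq_one h1
  refine ⟨j, hj, ?_⟩
  have key : g.toAlgHom = (τ ^ j).toAlgHom := by
    apply kummer_algHom_ext_h819 B hp hhp
    show g (IntermediateField.AdjoinSimple.gen ↥B h) =
      (τ ^ j) (IntermediateField.AdjoinSimple.gen ↥B h)
    apply Subtype.ext
    rw [kummer_pow_gen_h819 B hζB τ hτ j, hi]
    field_simp [hh0]
  exact AlgEquiv.ext fun z =>
    congrArg (fun f : ↥(IntermediateField.adjoin ↥B ({h} : Set Ω)) →ₐ[↥B]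
      ↥(IntermediateField.adjoin ↥B ({h} : Set Ω)) => f z) key

include hp hζ hζB hhp hhB hτ in
theorem kummer_mem_zpowers_h819
    (g : ↥(IntermediateField.adjoin ↥B ({h} : Set Ω)) ≃ₐ[↥B]
      ↥(IntermediateField.adjoin ↥B ({h} : Set Ω))) :
    g ∈ Subgroup.zpowers τ := by
  obtain ⟨j, -, hj⟩ := kummer_exists_pow_h819 B hp hζ hζB hhp hhB τ hτ g
  exact Subgroup.mem_zpowers_iff.mpr ⟨(j : ℤ), by rw [zpow_natCast, hj]⟩

include hp hζ hζB hhp hτ in
theorem kummer_pow_eq_one_h819 : τ ^ p = 1 := by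
  have key : (τ ^ p).toAlgHom =
      AlgHom.id ↥B ↥(IntermediateField.adjoin ↥B ({h} : Set Ω)) := by
    apply kummer_algHom_ext_h819 B hp hhp
    show (τ ^ p) (IntermediateField.AdjoinSimple.gen ↥B h) =
      IntermediateField.AdjoinSimple.gen ↥B h
    apply Subtype.ext
    rw [kummer_pow_gen_h819 B hζB τ hτ p, hζ.pow_eq_one, one_mul]
    rfl
  exact AlgEquiv.ext fun z =>
    congrArg (fun f : ↥(IntermediateField.adjoin ↥B ({h} : Set Ω)) →ₐ[↥B]
      ↥(IntermediateField.adjoin ↥B ({h} : Set Ω)) => f z) key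

end Kummer

end Fermat.Agent.Ribet.H819

end
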