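import Fermat.Agent.Ribet.H819.PerShell

/-!
# Row 38, WALL-p, (S4) WILD: the FE ADAPTER (helper819)

`K` a field of characteristic `0` (`ℚ̄`), `F₀ ⊆ ℚ((t))` (`= modularFunctionFieldFull N`),
`E ⊆ K` an intermediate field, `F_E = laurentBaseChange E F₀ ⊆ E((t))` (`= A2.Mod.FE E N`).

* `embBC F₀ E : F_E →+* K((t))` (coefficientwise inclusion), `imBC F₀ E` its image;
* `coeff_mem_of_mem_imBC`, `C_mem_imBC` : the fields `hcoef`, `hconst` of `PerCtx` for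
  `F₁ := imBC F₀ E₁`;
* `imBC_eq_closure`, `imBC_adjoin` : if `E₂ = E₁(u)` then `imBC F₀ E₂ = (imBC F₀ E₁)(u)`;
* `PerCtx.ofBC` : the context with `F₁ = imBC F₀ E₁`;
* for `c : PerCtx K` with `c.F₁ = imBC F₀ E₁`, `E₂ = E₁(c.u)`:
  `c.e₁BC : F_{E₁} →+* c.F₁`, `c.e₂BC : F_{E₂} →+* c.F₂`, surjective, with `coe` lemmas:
  the inputs `e₁, e₂` of `PerShell`;
* `bcMap : F_{E₁} →+* F_{E₂}` for `E₁ ≤ E₂`, `embBC_bcMap` (a canonical `Algebra K₁ K₂`).
-/

set_option autoImplicit false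
set_option linter.unusedSectionVars false
set_option linter.style.haveILetI false
set_option maxHeartbeats 400000

noncomputable section

namespace Fermat.Agent.Ribet.H819

open ModularCurve

section BC

variable {K : Type} [Field K] [Algebra ℚ K] (F₀ : IntermediateField ℚ (LaurentSeries ℚ))

/-- The embedding of `F_E = E(F₀) ⊆ E((t))` into `K((t))`. -/
def embBC (E : IntermediateField ℚ K) : ↥(laurentBaseChange ↥E F₀) →+* LaurentSeries K :=
  (coeffMap (algebraMap ↥E K)).comp (algebraMap ↥(laurentBaseChange ↥E F₀) (LaurentSeries ↥E))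

theorem embBC_apply (E : IntermediateField ℚ K) (x : ↥(laurentBaseChange ↥E F₀)) :
    embBC F₀ E x = coeffMap (algebraMap ↥E K) (x : LaurentSeries ↥E) := rfl

/-- The image of `F_E` in `K((t))`. -/
def imBC (E : IntermediateField ℚ K) : Subfield (LaurentSeries K) := (embBC F₀ E).fieldRange

theorem mem_imBC_iff (E : IntermediateField ℚ K) (z : LaurentSeries K) :
    z ∈ imBC F₀ E ↔ ∃ x : ↥(laurentBaseChange ↥E F₀), embBC F₀ E x = z :=
  RingHom.mem_fieldRange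

theorem embBC_mem (E : IntermediateField ℚ K) (x : ↥(laurentBaseChange ↥E F₀)) :
    embBC F₀ E x ∈ imBC F₀ E := (mem_imBC_iff F₀ E _).mpr ⟨x, rfl⟩

theorem coeff_mem_of_mem_imBC (E : IntermediateField ℚ K) {z : LaurentSeries K}
    (hz : z ∈ imBC F₀ E) (n : ℤ) : z.coeff n ∈ E.toSubfield := by
  obtain ⟨x, rfl⟩ := (mem_imBC_iff F₀ E z).mp hz
  rw [embBC_apply, coeffMap_coeff]
  exact ((x : LaurentSeries ↥E).coeff n).2

theorem C_mem_imBC (E : IntermediateField ℚ K) {c : K} (hc : c ∈ E) :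
    (HahnSeries.C c : LaurentSeries K) ∈ imBC F₀ E := by
  refine (mem_imBC_iff F₀ E _).mpr ⟨algebraMap ↥E ↥(laurentBaseChange ↥E F₀) ⟨c, hc⟩, ?_⟩
  rw [embBC_apply, IntermediateField.coe_algebraMap_apply, algebraMap_laurentSeries_eq_single,
    coeffMap_single, HahnSeries.C_apply]
  rfl

theorem coeffEmb_mem_imBC (E : IntermediateField ℚ K) {y : LaurentSeries ℚ} (hy : y ∈ F₀) :
    coeffEmb K y ∈ imBC F₀ E := by
  refine (mem_imBC_iff F₀ E _).mpr ⟨⟨coeffEmb ↥E y, coeffEmb_mem_laurentBaseChange ↥E hy⟩, ?_⟩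
  rw [embBC_apply]
  show coeffMap (algebraMap ↥E K) (coeffMap (algebraMap ℚ ↥E) y) = coeffMap (algebraMap ℚ K) y
  rw [coeffMap_coeffMap]
  exact coeffMap_congr (RingHom.ext fun q => (IsScalarTower.algebraMap_apply ℚ ↥E K q).symm) y

/-- The generators of the image. -/
def genBC (E : IntermediateField ℚ K) : Set (LaurentSeries K) :=
  (fun c : K => (HahnSeries.C c : LaurentSeries K)) '' (E : Set K) ∪
    (⇑(coeffEmb K) '' (F₀ : Set (LaurentSeries ℚ)))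

theorem imBC_eq_closure (E : IntermediateField ℚ K) :
    imBC F₀ E = Subfield.closure (genBC F₀ E) := by
  apply le_antisymm
  · intro z hz
    obtain ⟨x, rfl⟩ := (mem_imBC_iff F₀ E z).mp hz
    have hx : (x : LaurentSeries ↥E) ∈ Subfield.closure
        (Set.range (algebraMap ↥E (LaurentSeries ↥E)) ∪
          (⇑(coeffEmb ↥E) '' (F₀ : Set (LaurentSeries ℚ)))) :=
      mem_laurentBaseChange_iff.mp x.2
    have h1 : coeffMap (algebraMap ↥E K) (x : LaurentSeries ↥E) ∈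
        (Subfield.closure (Set.range (algebraMap ↥E (LaurentSeries ↥E)) ∪
          (⇑(coeffEmb ↥E) '' (F₀ : Set (LaurentSeries ℚ))))).map
            (coeffMap (algebraMap ↥E K)) := ⟨_, hx, rfl⟩
    rw [RingHom.map_field_closure] at h1
    refine Subfield.closure_mono ?_ h1
    rintro _ ⟨w, (⟨c, rfl⟩ | ⟨y, hy, rfl⟩), rfl⟩
    · left
      refine ⟨(c : K), c.2, ?_⟩
      show HahnSeries.C (c : K) = coeffMap (algebraMap ↥E K) (algebraMap ↥E (LaurentSeries ↥E) c)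
      rw [algebraMap_laurentSeries_eq_single, coeffMap_single, HahnSeries.C_apply]
      rfl
    · right
      refine ⟨y, hy, ?_⟩
      show coeffMap (algebraMap ℚ K) y =
        coeffMap (algebraMap ↥E K) (coeffMap (algebraMap ℚ ↥E) y)
      rw [coeffMap_coeffMap]
      exact coeffMap_congr (RingHom.ext fun q => IsScalarTower.algebraMap_apply ℚ ↥E K q) y
  · rw [Subfield.closure_le]
    rintro _ (⟨c, hc, rfl⟩ | ⟨y, hy, rfl⟩)
    · exact C_mem_imBC F₀ E hc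
    · exact coeffEmb_mem_imBC F₀ E hy

theorem imBC_mono {E₁ E₂ : IntermediateField ℚ K} (h : E₁ ≤ E₂) : imBC F₀ E₁ ≤ imBC F₀ E₂ := by
  rw [imBC_eq_closure F₀ E₁, Subfield.closure_le]
  rintro _ (⟨c, hc, rfl⟩ | ⟨y, hy, rfl⟩)
  · exact C_mem_imBC F₀ E₂ (h hc)
  · exact coeffEmb_mem_imBC F₀ E₂ hy

/-- **`F_{E₁(u)} = F_{E₁}(u)`** inside `K((t))`. -/
theorem imBC_adjoin {E₁ E₂ : IntermediateField ℚ K} {u : K}
    (hE : E₂.toSubfield = Subfield.closure ((E₁ : Set K) ∪ {u})) :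
    imBC F₀ E₂ = Subfield.closure ((imBC F₀ E₁ : Set (LaurentSeries K)) ∪
      {(HahnSeries.C u : LaurentSeries K)}) := by
  have h12 : E₁ ≤ E₂ := by
    intro c hc
    have : c ∈ E₂.toSubfield := by
      rw [hE]
      exact Subfield.subset_closure (Or.inl hc)
    exact this
  have hu : u ∈ E₂ := by
    have : u ∈ E₂.toSubfield := by
      rw [hE]
      exact Subfield.subset_closure (Or.inr rfl)
    exact this
  apply le_antisymm
  · rw [imBC_eq_closure F₀ E₂, Subfield.closure_le]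
    rintro _ (⟨c, hc, rfl⟩ | ⟨y, hy, rfl⟩)
    · have hc' : c ∈ Subfield.closure ((E₁ : Set K) ∪ {u}) := by
        rw [← hE]
        exact hc
      have h1 : (HahnSeries.C c : LaurentSeries K) ∈
          (Subfield.closure ((E₁ : Set K) ∪ {u})).map
            (HahnSeries.C : K →+* LaurentSeries K) := ⟨c, hc', rfl⟩
      rw [RingHom.map_field_closure] at h1
      refine Subfield.closure_mono ?_ h1
      rintro _ ⟨w, (hw | hw), rfl⟩
      · exact Or.inl (C_mem_imBC F₀ E₁ hw)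
      · rw [Set.mem_singleton_iff] at hw
        rw [hw]
        exact Or.inr rfl
    · exact Subfield.subset_closure (Or.inl (coeffEmb_mem_imBC F₀ E₁ hy))
  · rw [Subfield.closure_le]
    rintro z (hz | hz)
    · exact imBC_mono F₀ h12 hz
    · rw [Set.mem_singleton_iff] at hz
      rw [hz]
      exact C_mem_imBC F₀ E₂ hu

end BC

namespace PerCtx

section OfBC

variable {K : Type} [Field K] [Algebra ℚ K] (F₀ : IntermediateField ℚ (LaurentSeries ℚ))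

/-- The context of INST-D over the function field `F₁ = imBC F₀ E₁` (the image of
`F_{E₁} = laurentBaseChange E₁ F₀` in `K((t))`). -/
def ofBC (p : ℕ) (hp : p.Prime) (E₁ : IntermediateField ℚ K) (ζ : K) (hζ : IsPrimitiveRoot ζ p)
    (hζE : ζ ∈ E₁) (σ₀ : K ≃+* K) (hσE : ∀ c ∈ E₁, σ₀ c = c) (u : K) (hσu : σ₀ u = ζ⁻¹ * u)
    (hu0 : u ≠ 0) (hup : u ^ p ∈ E₁) (h : LaurentSeries K) (hhcoef : ∀ n : ℤ, h.coeff n ∈ E₁)
    (hhp : h ^ p ∈ imBC F₀ E₁) (hhF : h ∉ imBC F₀ E₁) : PerCtx K where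
  p := p
  hp := hp
  E₁ := E₁.toSubfield
  ζ := ζ
  hζ := hζ
  hζE := hζE
  σ₀ := σ₀
  hσE := hσE
  u := u
  hσu := hσu
  hu0 := hu0
  hup := hup
  F₁ := imBC F₀ E₁
  hcoef := fun _ hz n => coeff_mem_of_mem_imBC F₀ E₁ hz n
  hconst := fun _ hc => C_mem_imBC F₀ E₁ hc
  h := h
  hhcoef := hhcoef
  hhp := hhp
  hhF := hhF

variable (c : PerCtx K) {E₁ E₂ : IntermediateField ℚ K}

/-- `c.F₂ = F_{E₂}` if `c.F₁ = F_{E₁}` and `E₂ = E₁(u)`. -/
theorem F₂_eq_imBC (hF₁ : c.F₁ = imBC F₀ E₁)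
    (hE : E₂.toSubfield = Subfield.closure ((E₁ : Set K) ∪ {c.u})) :
    c.F₂ = imBC F₀ E₂ := by
  rw [imBC_adjoin F₀ hE, F₂, hF₁]
  rfl

/-- `e₁ : F_{E₁} →+* c.F₁`. -/
def e₁BC (hF₁ : c.F₁ = imBC F₀ E₁) : ↥(laurentBaseChange ↥E₁ F₀) →+* ↥c.F₁ :=
  (embBC F₀ E₁).codRestrict c.F₁ (fun x => by
    rw [hF₁]
    exact embBC_mem F₀ E₁ x)

theorem coe_e₁BC (hF₁ : c.F₁ = imBC F₀ E₁) (x : ↥(laurentBaseChange ↥E₁ F₀)) :
    ((c.e₁BC F₀ hF₁ x : ↥c.F₁) : LaurentSeries K) = embBC F₀ E₁ x := rfl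

theorem e₁BC_surjective (hF₁ : c.F₁ = imBC F₀ E₁) : Function.Surjective (c.e₁BC F₀ hF₁) := by
  intro y
  have hy : (y : LaurentSeries K) ∈ imBC F₀ E₁ := by
    rw [← hF₁]
    exact y.2
  obtain ⟨x, hx⟩ := (mem_imBC_iff F₀ E₁ _).mp hy
  exact ⟨x, Subtype.ext hx⟩

/-- `e₂ : F_{E₂} →+* c.F₂`. -/
def e₂BC (hF₁ : c.F₁ = imBC F₀ E₁)
    (hE : E₂.toSubfield = Subfield.closure ((E₁ : Set K) ∪ {c.u})) :
    ↥(laurentBaseChange ↥E₂ F₀) →+* ↥c.F₂ :=
  (embBC F₀ E₂).codRestrict c.F₂ (fun x => by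
    rw [c.F₂_eq_imBC F₀ hF₁ hE]
    exact embBC_mem F₀ E₂ x)

theorem coe_e₂BC (hF₁ : c.F₁ = imBC F₀ E₁)
    (hE : E₂.toSubfield = Subfield.closure ((E₁ : Set K) ∪ {c.u}))
    (x : ↥(laurentBaseChange ↥E₂ F₀)) :
    ((c.e₂BC F₀ hF₁ hE x : ↥c.F₂) : LaurentSeries K) = embBC F₀ E₂ x := rfl

theorem e₂BC_surjective (hF₁ : c.F₁ = imBC F₀ E₁)
    (hE : E₂.toSubfield = Subfield.closure ((E₁ : Set K) ∪ {c.u})) :
    Function.Surjective (c.e₂BC F₀ hF₁ hE) := by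
  intro y
  have hy : (y : LaurentSeries K) ∈ imBC F₀ E₂ := by
    rw [← c.F₂_eq_imBC F₀ hF₁ hE]
    exact y.2
  obtain ⟨x, hx⟩ := (mem_imBC_iff F₀ E₂ _).mp hy
  exact ⟨x, Subtype.ext hx⟩

/-- The compatibility `h₁₂` of `PerShell`, from the compatibility of `Algebra F_{E₁} F_{E₂}`
with the embeddings. -/
theorem h₁₂_BC (hF₁ : c.F₁ = imBC F₀ E₁)
    (hE : E₂.toSubfield = Subfield.closure ((E₁ : Set K) ∪ {c.u}))
    [Algebra ↥(laurentBaseChange ↥E₁ F₀) ↥(laurentBaseChange ↥E₂ F₀)]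
    (hcompat : ∀ x : ↥(laurentBaseChange ↥E₁ F₀),
      embBC F₀ E₂ (algebraMap ↥(laurentBaseChange ↥E₁ F₀) ↥(laurentBaseChange ↥E₂ F₀) x) =
        embBC F₀ E₁ x) (x : ↥(laurentBaseChange ↥E₁ F₀)) :
    ((c.e₂BC F₀ hF₁ hE
      (algebraMap ↥(laurentBaseChange ↥E₁ F₀) ↥(laurentBaseChange ↥E₂ F₀) x) : ↥c.F₂) :
        LaurentSeries K) = ((c.e₁BC F₀ hF₁ x : ↥c.F₁) : LaurentSeries K) := by
  rw [coe_e₂BC, coe_e₁BC, hcompat]

end OfBC

end PerCtx

end Fermat.Agent.Ribet.H819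

end
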