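import Fermat.Agent.Ribet.H819.PerFieldAbs
import Fermat.Prelude.Def_ModularCurve_LaurentCoeff

/-!
# Row 38, WALL-p, crux (I6), leaf INST-D, FIELD part (helper819)

The concrete field on which `H704.I6.PeriodStatement` is applied.

`K` the coefficient field (`ℚ̄`), `E₁ ≤ K` the tame level (`∋ ζ_p`), `σ₀ ∈ Aut(K / E₁)`,
`u ∈ K` with `u ^ p ∈ E₁`, `σ₀ u = ζ⁻¹ u` (the Kummer generator of the field of definition of `x`,
`H785.exists_kummer_gen`), `F₁ ≤ E₁((t))` the function field over `E₁` (`⊇ E₁`),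
`h ∈ E₁((t))` with `h ^ p ∈ F₁`, `h ∉ F₁` (`h ^ p = f_t`, the Kummer generator of `t`).

* `F₂ = F₁(u)`, `Fc = F₁(h)` (the function field of the cover), `L = F₂(h) = F₁(u, h)`;
* `sigma : L ≃+* L` the coefficientwise action of `σ₀`; `tau : L ≃ₐ[F₂] L` the deck transformation,
  `tau h = ζ h`; `lc : L →*₀ L` the leading coefficient;
* `sigma_tau`, `sigma_pow`, `sigma_ne_one`, `lc_lc`, `lc_sigma`, `tau_lc`, `lc_zeta`: the
  hypotheses of `PeriodStatement`;
* `mem_Fc_of_fixed` : `σ`-fixed elements of `L` lie in `Fc`; `tau_mem_Fc` : `τ` preserves `Fc`.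
-/

set_option autoImplicit false
set_option linter.unusedSectionVars false
set_option linter.style.haveILetI false

noncomputable section

namespace Fermat.Agent.Ribet.H819

open ModularCurve HahnSeries

section Coeff

variable {K : Type*} [Field K]

/-- Coefficientwise action of a ring automorphism on Laurent series. -/
def coeffEquiv (σ₀ : K ≃+* K) : LaurentSeries K ≃+* LaurentSeries K where
  toFun := coeffMap (σ₀ : K →+* K)
  invFun := coeffMap (σ₀.symm : K →+* K)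
  left_inv z := by
    ext n
    simp
  right_inv z := by
    ext n
    simp
  map_mul' := map_mul _
  map_add' := map_add _

@[simp]
theorem coeffEquiv_coeff (σ₀ : K ≃+* K) (z : LaurentSeries K) (n : ℤ) :
    (coeffEquiv σ₀ z).coeff n = σ₀ (z.coeff n) := rfl

@[simp]
theorem coeffEquiv_symm_coeff (σ₀ : K ≃+* K) (z : LaurentSeries K) (n : ℤ) :
    ((coeffEquiv σ₀).symm z).coeff n = σ₀.symm (z.coeff n) := rfl

theorem coeff_C_h819 (c : K) (n : ℤ) :
    (HahnSeries.C c : LaurentSeries K).coeff n = if n = 0 then c else 0 := by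
  rw [HahnSeries.C_apply]
  by_cases hn : n = 0
  · subst hn
    simp
  · rw [if_neg hn, HahnSeries.coeff_single_of_ne hn]

theorem coeffEquiv_C (σ₀ : K ≃+* K) (c : K) :
    coeffEquiv σ₀ (HahnSeries.C c : LaurentSeries K) = HahnSeries.C (σ₀ c) := by
  ext n
  rw [coeffEquiv_coeff, coeff_C_h819, coeff_C_h819]
  split_ifs
  · rfl
  · exact map_zero σ₀

theorem coeffEquiv_symm_C (σ₀ : K ≃+* K) (c : K) :
    (coeffEquiv σ₀).symm (HahnSeries.C c : LaurentSeries K) = HahnSeries.C (σ₀.symm c) := by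
  ext n
  rw [coeffEquiv_symm_coeff, coeff_C_h819, coeff_C_h819]
  split_ifs
  · rfl
  · exact map_zero σ₀.symm

theorem coeffEquiv_eq_self_of_coeff_mem (σ₀ : K ≃+* K) (E : Subfield K)
    (hσ : ∀ c ∈ E, σ₀ c = c) {z : LaurentSeries K} (hz : ∀ n : ℤ, z.coeff n ∈ E) :
    coeffEquiv σ₀ z = z := by
  ext n
  rw [coeffEquiv_coeff, hσ _ (hz n)]

theorem coeffEquiv_symm_eq_self_of_coeff_mem (σ₀ : K ≃+* K) (E : Subfield K)
    (hσ : ∀ c ∈ E, σ₀ c = c) {z : LaurentSeries K} (hz : ∀ n : ℤ, z.coeff n ∈ E) :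
    (coeffEquiv σ₀).symm z = z := by
  rw [RingEquiv.symm_apply_eq]
  exact (coeffEquiv_eq_self_of_coeff_mem σ₀ E hσ hz).symm

theorem leadingCoeff_coeffEquiv (σ₀ : K ≃+* K) (z : LaurentSeries K) :
    (coeffEquiv σ₀ z).leadingCoeff = σ₀ z.leadingCoeff := by
  by_cases hz : z = 0
  · subst hz
    simp
  · have hz' : coeffEquiv σ₀ z ≠ 0 := (map_ne_zero_iff _ (coeffEquiv σ₀).injective).mpr hz
    rw [HahnSeries.leadingCoeff_eq, HahnSeries.leadingCoeff_eq, coeffEquiv_coeff]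
    congr 2
    -- the orders agree
    have hsupp : (coeffEquiv σ₀ z).support = z.support := by
      ext n
      simp only [HahnSeries.mem_support, coeffEquiv_coeff, ne_eq]
      rw [map_eq_zero_iff σ₀ σ₀.injective]
    rw [HahnSeries.order_of_ne hz', HahnSeries.order_of_ne hz]
    congr 1

/-- The subfield of series with coefficients in a subfield `E` of `K`. -/
def coeffField (E : Subfield K) : Subfield (LaurentSeries K) :=
  (coeffMap E.subtype).fieldRange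

theorem mem_coeffField_iff (E : Subfield K) (z : LaurentSeries K) :
    z ∈ coeffField E ↔ ∀ n : ℤ, z.coeff n ∈ E := by
  constructor
  · rintro ⟨w, rfl⟩ n
    rw [coeffMap_coeff]
    exact (w.coeff n).2
  · intro hz
    refine ⟨⟨fun n => ⟨z.coeff n, hz n⟩, ?_⟩, ?_⟩
    · have : Function.support (fun n : ℤ => (⟨z.coeff n, hz n⟩ : E)) = z.support := by
        ext n
        simp only [Function.mem_support, ne_eq, HahnSeries.mem_support]
        rw [not_iff_not]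
        constructor
        · intro h
          exact congrArg Subtype.val h
        · intro h
          exact Subtype.ext h
      rw [this]
      exact z.isPWO_support
    · ext n
      rfl

theorem leadingCoeff_mem_of_mem_coeffField (E : Subfield K) {z : LaurentSeries K}
    (hz : z ∈ coeffField E) : z.leadingCoeff ∈ E := by
  rw [HahnSeries.leadingCoeff_eq]
  exact (mem_coeffField_iff E z).mp hz _

theorem C_mem_coeffField (E : Subfield K) {c : K} (hc : c ∈ E) :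
    (HahnSeries.C c : LaurentSeries K) ∈ coeffField E := by
  rw [mem_coeffField_iff]
  intro n
  rw [coeff_C_h819]
  split_ifs
  · exact hc
  · exact E.zero_mem

end Coeff

/-! ## The context -/

/-- The data of INST-D (field part). -/
structure PerCtx (K : Type) [Field K] where
  /-- the prime -/
  p : ℕ
  hp : p.Prime
  /-- the tame level -/
  E₁ : Subfield K
  ζ : K
  hζ : IsPrimitiveRoot ζ p
  hζE : ζ ∈ E₁
  /-- a generator of the Galois group of the field of definition of `x` over `E₁` -/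
  σ₀ : K ≃+* K
  hσE : ∀ c ∈ E₁, σ₀ c = c
  /-- the Kummer generator of the field of definition of `x` -/
  u : K
  hσu : σ₀ u = ζ⁻¹ * u
  hu0 : u ≠ 0
  hup : u ^ p ∈ E₁
  /-- the function field over `E₁` -/
  F₁ : Subfield (LaurentSeries K)
  hcoef : ∀ z ∈ F₁, ∀ n : ℤ, z.coeff n ∈ E₁
  hconst : ∀ c ∈ E₁, (HahnSeries.C c : LaurentSeries K) ∈ F₁
  /-- the `p`-th root of the Kummer generator of `t` -/
  h : LaurentSeries K
  hhcoef : ∀ n : ℤ, h.coeff n ∈ E₁
  hhp : h ^ p ∈ F₁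
  hhF : h ∉ F₁

namespace PerCtx

variable {K : Type} [Field K] (c : PerCtx K)

/-- The coefficientwise action of `σ₀`. -/
def Phi : LaurentSeries K ≃+* LaurentSeries K := coeffEquiv c.σ₀

/-- The constant `u`. -/
def uC : LaurentSeries K := HahnSeries.C c.u

/-- The constant `ζ`. -/
def zC : LaurentSeries K := HahnSeries.C c.ζ

/-- `F₂ = F₁(u)`: the function field over the field of definition of `x`. -/
def F₂ : Subfield (LaurentSeries K) := Subfield.closure ((c.F₁ : Set (LaurentSeries K)) ∪ {c.uC})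

/-- `Fc = F₁(h)`: the function field of the cover. -/
def Fc : Subfield (LaurentSeries K) := Subfield.closure ((c.F₁ : Set (LaurentSeries K)) ∪ {c.h})

/-- `L = F₂(h) = F₁(u, h)`. -/
def L : IntermediateField ↥c.F₂ (LaurentSeries K) :=
  IntermediateField.adjoin ↥c.F₂ ({c.h} : Set (LaurentSeries K))

/-- The field of definition `E' = E₁(u)` of `x`. -/
def E' : Subfield K := Subfield.closure ((c.E₁ : Set K) ∪ {c.u})

/-! ### Basic memberships -/

theorem F₁_le_F₂ : c.F₁ ≤ c.F₂ := fun _ hz => Subfield.subset_closure (Or.inl hz)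

theorem uC_mem_F₂ : c.uC ∈ c.F₂ := Subfield.subset_closure (Or.inr rfl)

theorem F₁_le_Fc : c.F₁ ≤ c.Fc := fun _ hz => Subfield.subset_closure (Or.inl hz)

theorem h_mem_Fc : c.h ∈ c.Fc := Subfield.subset_closure (Or.inr rfl)

theorem mem_L_of_mem_F₂ {z : LaurentSeries K} (hz : z ∈ c.F₂) : z ∈ c.L :=
  c.L.algebraMap_mem ⟨z, hz⟩

theorem mem_L_of_mem_F₁ {z : LaurentSeries K} (hz : z ∈ c.F₁) : z ∈ c.L :=
  c.mem_L_of_mem_F₂ (c.F₁_le_F₂ hz)

theorem h_mem_L : c.h ∈ c.L := IntermediateField.mem_adjoin_simple_self _ _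

theorem uC_mem_L : c.uC ∈ c.L := c.mem_L_of_mem_F₂ c.uC_mem_F₂

theorem zC_mem_F₁ : c.zC ∈ c.F₁ := c.hconst _ c.hζE

theorem Fc_le_L : c.Fc ≤ c.L.toSubfield := by
  rw [Fc, Subfield.closure_le]
  rintro z (hz | hz)
  · exact c.mem_L_of_mem_F₁ hz
  · rw [Set.mem_singleton_iff] at hz
    rw [hz]
    exact c.h_mem_L

theorem mem_L_of_mem_Fc {z : LaurentSeries K} (hz : z ∈ c.Fc) : z ∈ c.L := c.Fc_le_L hz

/-- `L` is the field generated by `F₁`, `u`, `h`. -/
theorem L_le {T : Subfield (LaurentSeries K)} (h1 : c.F₁ ≤ T) (h2 : c.uC ∈ T) (h3 : c.h ∈ T) :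
    c.L.toSubfield ≤ T := by
  have hF₂ : c.F₂ ≤ T := by
    rw [F₂, Subfield.closure_le]
    rintro z (hz | hz)
    · exact h1 hz
    · rw [Set.mem_singleton_iff] at hz
      rw [hz]
      exact h2
  rw [L, IntermediateField.adjoin_toSubfield, Subfield.closure_le]
  rintro z (⟨b, rfl⟩ | hz)
  · exact hF₂ b.2
  · rw [Set.mem_singleton_iff] at hz
    rw [hz]
    exact h3

theorem F₂_le {T : Subfield (LaurentSeries K)} (h1 : c.F₁ ≤ T) (h2 : c.uC ∈ T) : c.F₂ ≤ T := by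
  rw [F₂, Subfield.closure_le]
  rintro z (hz | hz)
  · exact h1 hz
  · rw [Set.mem_singleton_iff] at hz
    rw [hz]
    exact h2

theorem Fc_le {T : Subfield (LaurentSeries K)} (h1 : c.F₁ ≤ T) (h3 : c.h ∈ T) : c.Fc ≤ T := by
  rw [Fc, Subfield.closure_le]
  rintro z (hz | hz)
  · exact h1 hz
  · rw [Set.mem_singleton_iff] at hz
    rw [hz]
    exact h3

/-! ### Coefficients -/

theorem E₁_le_E' : c.E₁ ≤ c.E' := fun _ hz => Subfield.subset_closure (Or.inl hz)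

theorem u_mem_E' : c.u ∈ c.E' := Subfield.subset_closure (Or.inr rfl)

theorem L_le_coeffField : c.L.toSubfield ≤ coeffField c.E' := by
  apply c.L_le
  · intro z hz
    rw [mem_coeffField_iff]
    exact fun n => c.E₁_le_E' (c.hcoef z hz n)
  · exact C_mem_coeffField _ c.u_mem_E'
  · rw [mem_coeffField_iff]
    exact fun n => c.E₁_le_E' (c.hhcoef n)

theorem Fc_le_coeffField : c.Fc ≤ coeffField c.E₁ := by
  apply c.Fc_le
  · intro z hz
    rw [mem_coeffField_iff]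
    exact c.hcoef z hz
  · rw [mem_coeffField_iff]
    exact c.hhcoef

theorem C_mem_F₂ {e : K} (he : e ∈ c.E') : (HahnSeries.C e : LaurentSeries K) ∈ c.F₂ := by
  have : c.E' ≤ c.F₂.comap (HahnSeries.C : K →+* LaurentSeries K) := by
    rw [E', Subfield.closure_le]
    rintro z (hz | hz)
    · exact c.F₁_le_F₂ (c.hconst z hz)
    · rw [Set.mem_singleton_iff] at hz
      rw [hz]
      exact c.uC_mem_F₂
  exact this he

theorem leadingCoeff_mem {z : LaurentSeries K} (hz : z ∈ c.L) : z.leadingCoeff ∈ c.E' :=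
  leadingCoeff_mem_of_mem_coeffField _ (c.L_le_coeffField hz)

/-! ### The action of `Φ` -/

theorem Phi_F₁ {z : LaurentSeries K} (hz : z ∈ c.F₁) : c.Phi z = z :=
  coeffEquiv_eq_self_of_coeff_mem c.σ₀ c.E₁ c.hσE (c.hcoef z hz)

theorem Phi_h : c.Phi c.h = c.h :=
  coeffEquiv_eq_self_of_coeff_mem c.σ₀ c.E₁ c.hσE c.hhcoef

theorem Phi_Fc {z : LaurentSeries K} (hz : z ∈ c.Fc) : c.Phi z = z :=
  coeffEquiv_eq_self_of_coeff_mem c.σ₀ c.E₁ c.hσE
    ((mem_coeffField_iff _ _).mp (c.Fc_le_coeffField hz))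

theorem Phi_symm_F₁ {z : LaurentSeries K} (hz : z ∈ c.F₁) : c.Phi.symm z = z :=
  coeffEquiv_symm_eq_self_of_coeff_mem c.σ₀ c.E₁ c.hσE (c.hcoef z hz)

theorem Phi_symm_h : c.Phi.symm c.h = c.h :=
  coeffEquiv_symm_eq_self_of_coeff_mem c.σ₀ c.E₁ c.hσE c.hhcoef

theorem zeta_ne_zero : c.ζ ≠ 0 := c.hζ.ne_zero c.hp.ne_zero

theorem Phi_zC : c.Phi c.zC = c.zC := c.Phi_F₁ c.zC_mem_F₁

theorem Phi_uC : c.Phi c.uC = c.zC⁻¹ * c.uC := by
  show coeffEquiv c.σ₀ (HahnSeries.C c.u) = (HahnSeries.C c.ζ)⁻¹ * HahnSeries.C c.u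
  rw [coeffEquiv_C, c.hσu, map_mul, map_inv₀]

theorem Phi_symm_uC : c.Phi.symm c.uC = c.zC * c.uC := by
  rw [RingEquiv.symm_apply_eq, map_mul, c.Phi_zC, c.Phi_uC, ← mul_assoc,
    mul_inv_cancel₀ (HahnSeries.C_ne_zero c.zeta_ne_zero), one_mul]

/-! ### Roots of unity, `h ∉ F₂` -/

theorem zC_isPrimitiveRoot : IsPrimitiveRoot c.zC c.p :=
  c.hζ.map_of_injective (f := (HahnSeries.C : K →+* LaurentSeries K)) HahnSeries.C_injective

theorem zC_inv_isPrimitiveRoot : IsPrimitiveRoot c.zC⁻¹ c.p := c.zC_isPrimitiveRoot.inv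

theorem uC_pow_mem_F₁ : c.uC ^ c.p ∈ c.F₁ := by
  show (HahnSeries.C c.u : LaurentSeries K) ^ c.p ∈ c.F₁
  rw [← map_pow]
  exact c.hconst _ c.hup

theorem zC_mem_F₂ : c.zC ∈ c.F₂ := c.F₁_le_F₂ c.zC_mem_F₁

/-- `Φ`-fixed elements of `F₂ = F₁(u)` lie in `F₁`. -/
theorem mem_F₁_of_fixed {z : LaurentSeries K} (hz : z ∈ c.F₂) (hfix : c.Phi z = z) :
    z ∈ c.F₁ :=
  mem_of_fixed_h819 c.F₁ c.Phi (fun _ hw => c.Phi_F₁ hw) c.hp c.zC_inv_isPrimitiveRoot
    (c.F₁.inv_mem c.zC_mem_F₁) c.Phi_uC c.uC_pow_mem_F₁ hz hfix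

theorem h_notMem_F₂ : c.h ∉ c.F₂ := fun hh => c.hhF (c.mem_F₁_of_fixed hh c.Phi_h)

theorem h_pow_mem_F₂ : c.h ^ c.p ∈ c.F₂ := c.F₁_le_F₂ c.hhp

/-- `L = Fc(u)`. -/
theorem L_le_closure_Fc :
    c.L.toSubfield ≤ Subfield.closure ((c.Fc : Set (LaurentSeries K)) ∪ {c.uC}) :=
  c.L_le (fun _ hz => Subfield.subset_closure (Or.inl (c.F₁_le_Fc hz)))
    (Subfield.subset_closure (Or.inr rfl))
    (Subfield.subset_closure (Or.inl c.h_mem_Fc))

/-- **`Φ`-fixed elements of `L` lie in the function field `Fc = F₁(h)` of the cover.** -/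
theorem mem_Fc_of_fixed {z : LaurentSeries K} (hz : z ∈ c.L) (hfix : c.Phi z = z) :
    z ∈ c.Fc :=
  mem_of_fixed_h819 c.Fc c.Phi (fun _ hw => c.Phi_Fc hw) c.hp c.zC_inv_isPrimitiveRoot
    (c.Fc.inv_mem (c.F₁_le_Fc c.zC_mem_F₁)) c.Phi_uC (c.F₁_le_Fc c.uC_pow_mem_F₁)
    (c.L_le_closure_Fc hz) hfix

/-! ### The automorphism `σ` of `L` -/

theorem Phi_mem_F₂ {z : LaurentSeries K} (hz : z ∈ c.F₂) : c.Phi z ∈ c.F₂ := by
  have : c.F₂ ≤ c.F₂.comap (c.Phi : LaurentSeries K →+* LaurentSeries K) := by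
    apply c.F₂_le
    · intro w hw
      show c.Phi w ∈ c.F₂
      rw [c.Phi_F₁ hw]
      exact c.F₁_le_F₂ hw
    · show c.Phi c.uC ∈ c.F₂
      rw [c.Phi_uC]
      exact c.F₂.mul_mem (c.F₂.inv_mem c.zC_mem_F₂) c.uC_mem_F₂
  exact this hz

theorem Phi_symm_mem_F₂ {z : LaurentSeries K} (hz : z ∈ c.F₂) : c.Phi.symm z ∈ c.F₂ := by
  have : c.F₂ ≤ c.F₂.comap (c.Phi.symm : LaurentSeries K →+* LaurentSeries K) := by
    apply c.F₂_le
    · intro w hw
      show c.Phi.symm w ∈ c.F₂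
      rw [c.Phi_symm_F₁ hw]
      exact c.F₁_le_F₂ hw
    · show c.Phi.symm c.uC ∈ c.F₂
      rw [c.Phi_symm_uC]
      exact c.F₂.mul_mem c.zC_mem_F₂ c.uC_mem_F₂
  exact this hz

theorem Phi_mem_L {z : LaurentSeries K} (hz : z ∈ c.L) : c.Phi z ∈ c.L := by
  have : c.L.toSubfield ≤ c.L.toSubfield.comap (c.Phi : LaurentSeries K →+* LaurentSeries K) := by
    apply c.L_le
    · intro w hw
      show c.Phi w ∈ c.L
      rw [c.Phi_F₁ hw]
      exact c.mem_L_of_mem_F₁ hw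
    · show c.Phi c.uC ∈ c.L
      exact c.mem_L_of_mem_F₂ (c.Phi_mem_F₂ c.uC_mem_F₂)
    · show c.Phi c.h ∈ c.L
      rw [c.Phi_h]
      exact c.h_mem_L
  exact this hz

theorem Phi_symm_mem_L {z : LaurentSeries K} (hz : z ∈ c.L) : c.Phi.symm z ∈ c.L := by
  have : c.L.toSubfield ≤
      c.L.toSubfield.comap (c.Phi.symm : LaurentSeries K →+* LaurentSeries K) := by
    apply c.L_le
    · intro w hw
      show c.Phi.symm w ∈ c.L
      rw [c.Phi_symm_F₁ hw]
      exact c.mem_L_of_mem_F₁ hw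
    · show c.Phi.symm c.uC ∈ c.L
      exact c.mem_L_of_mem_F₂ (c.Phi_symm_mem_F₂ c.uC_mem_F₂)
    · show c.Phi.symm c.h ∈ c.L
      rw [c.Phi_symm_h]
      exact c.h_mem_L
  exact this hz

/-- **`σ`**: the coefficientwise action of `σ₀` on `L`. -/
def sigma : ↥c.L ≃+* ↥c.L where
  toFun z := ⟨c.Phi z, c.Phi_mem_L z.2⟩
  invFun z := ⟨c.Phi.symm z, c.Phi_symm_mem_L z.2⟩
  left_inv _ := Subtype.ext (c.Phi.symm_apply_apply _)
  right_inv _ := Subtype.ext (c.Phi.apply_symm_apply _)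
  map_mul' _ _ := Subtype.ext (map_mul c.Phi _ _)
  map_add' _ _ := Subtype.ext (map_add c.Phi _ _)

@[simp]
theorem coe_sigma (z : ↥c.L) : ((c.sigma z : ↥c.L) : LaurentSeries K) = c.Phi z := rfl

theorem coe_sigma_eq_coeffMap (z : ↥c.L) :
    ((c.sigma z : ↥c.L) : LaurentSeries K) =
      coeffMap (c.σ₀ : K →+* K) (z : LaurentSeries K) := rfl

/-! ### The deck transformation `τ` -/

/-- **`τ`**: the deck transformation of `L = F₂(h)` over `F₂`, `τ h = ζ h`. -/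
def tau : ↥c.L ≃ₐ[↥c.F₂] ↥c.L :=
  (exists_deck_h819 c.F₂ c.hp c.zC_isPrimitiveRoot c.zC_mem_F₂ c.h_pow_mem_F₂
    c.h_notMem_F₂).choose

/-- `h` as an element of `L`. -/
def hL : ↥c.L := ⟨c.h, c.h_mem_L⟩

/-- `u` as an element of `L`. -/
def uL : ↥c.L := ⟨c.uC, c.uC_mem_L⟩

/-- `ζ` as an element of `L`. -/
def zL : ↥c.L := ⟨c.zC, c.mem_L_of_mem_F₁ c.zC_mem_F₁⟩

theorem coe_tau_hL : ((c.tau c.hL : ↥c.L) : LaurentSeries K) = c.zC * c.h :=
  (exists_deck_h819 c.F₂ c.hp c.zC_isPrimitiveRoot c.zC_mem_F₂ c.h_pow_mem_F₂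
    c.h_notMem_F₂).choose_spec

theorem tau_hL : c.tau c.hL = c.zL * c.hL := Subtype.ext c.coe_tau_hL

theorem tau_of_mem_F₂ (z : ↥c.L) (hz : (z : LaurentSeries K) ∈ c.F₂) : c.tau z = z := by
  have : z = algebraMap ↥c.F₂ ↥c.L ⟨z, hz⟩ := Subtype.ext rfl
  rw [this]
  exact c.tau.commutes _

theorem tau_of_mem_F₁ (z : ↥c.L) (hz : (z : LaurentSeries K) ∈ c.F₁) : c.tau z = z :=
  c.tau_of_mem_F₂ z (c.F₁_le_F₂ hz)

theorem tau_uL : c.tau c.uL = c.uL := c.tau_of_mem_F₂ _ c.uC_mem_F₂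

theorem tau_zL : c.tau c.zL = c.zL := c.tau_of_mem_F₁ _ c.zC_mem_F₁

theorem sigma_hL : c.sigma c.hL = c.hL := Subtype.ext c.Phi_h

theorem sigma_zL : c.sigma c.zL = c.zL := Subtype.ext c.Phi_zC

theorem sigma_uL : c.sigma c.uL = c.zL⁻¹ * c.uL := Subtype.ext c.Phi_uC

theorem sigma_of_mem_Fc (z : ↥c.L) (hz : (z : LaurentSeries K) ∈ c.Fc) : c.sigma z = z :=
  Subtype.ext (c.Phi_Fc hz)

theorem mem_Fc_of_sigma_eq (z : ↥c.L) (hz : c.sigma z = z) : (z : LaurentSeries K) ∈ c.Fc :=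
  c.mem_Fc_of_fixed z.2 (congrArg Subtype.val hz)

/-! ### Induction on `L` -/

/-- Two ring homomorphisms `L → A` which agree on `F₂` and at `h` are equal. -/
theorem ringHom_ext_L {A : Type*} [DivisionRing A] (f g : ↥c.L →+* A)
    (h2 : ∀ z : ↥c.L, (z : LaurentSeries K) ∈ c.F₂ → f z = g z) (hh : f c.hL = g c.hL) :
    f = g := by
  ext z
  obtain ⟨z, hz⟩ := z
  induction hz using IntermediateField.adjoin_induction with
  | mem x hx =>
    rw [Set.mem_singleton_iff] at hx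
    subst hx
    exact hh
  | algebraMap x => exact h2 _ x.2
  | add x y hx hy ihx ihy =>
    have : (⟨x + y, add_mem hx hy⟩ : ↥c.L) = ⟨x, hx⟩ + ⟨y, hy⟩ := rfl
    rw [this, map_add, map_add, ihx, ihy]
  | inv x hx ihx =>
    have : (⟨x⁻¹, inv_mem hx⟩ : ↥c.L) = (⟨x, hx⟩ : ↥c.L)⁻¹ := rfl
    rw [this, map_inv₀, map_inv₀, ihx]
  | mul x y hx hy ihx ihy =>
    have : (⟨x * y, mul_mem hx hy⟩ : ↥c.L) = ⟨x, hx⟩ * ⟨y, hy⟩ := rfl
    rw [this, map_mul, map_mul, ihx, ihy]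

/-- Two ring homomorphisms `L → A` which agree on `F₁`, at `u` and at `h` are equal. -/
theorem ringHom_ext_L' {A : Type*} [DivisionRing A] (f g : ↥c.L →+* A)
    (h1 : ∀ z : ↥c.L, (z : LaurentSeries K) ∈ c.F₁ → f z = g z) (hu : f c.uL = g c.uL)
    (hh : f c.hL = g c.hL) : f = g := by
  apply c.ringHom_ext_L f g _ hh
  intro z hz
  obtain ⟨z, hzL⟩ := z
  have hz' : z ∈ c.F₂ := hz
  clear hz
  induction hz' using Subfield.closure_induction with
  | mem x hx =>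
    rcases hx with hx | hx
    · exact h1 _ hx
    · rw [Set.mem_singleton_iff] at hx
      subst hx
      exact hu
  | one =>
    have : (⟨1, hzL⟩ : ↥c.L) = 1 := rfl
    rw [this, map_one, map_one]
  | add x y hx hy ihx ihy =>
    have hxL := c.mem_L_of_mem_F₂ hx
    have hyL := c.mem_L_of_mem_F₂ hy
    have : (⟨x + y, hzL⟩ : ↥c.L) = ⟨x, hxL⟩ + ⟨y, hyL⟩ := rfl
    rw [this, map_add, map_add, ihx hxL, ihy hyL]
  | neg x hx ihx =>
    have hxL := c.mem_L_of_mem_F₂ hx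
    have : (⟨-x, hzL⟩ : ↥c.L) = -⟨x, hxL⟩ := rfl
    rw [this, map_neg, map_neg, ihx hxL]
  | inv x hx ihx =>
    have hxL := c.mem_L_of_mem_F₂ hx
    have : (⟨x⁻¹, hzL⟩ : ↥c.L) = (⟨x, hxL⟩ : ↥c.L)⁻¹ := rfl
    rw [this, map_inv₀, map_inv₀, ihx hxL]
  | mul x y hx hy ihx ihy =>
    have hxL := c.mem_L_of_mem_F₂ hx
    have hyL := c.mem_L_of_mem_F₂ hy
    have : (⟨x * y, hzL⟩ : ↥c.L) = ⟨x, hxL⟩ * ⟨y, hyL⟩ := rfl
    rw [this, map_mul, map_mul, ihx hxL, ihy hyL]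

/-! ### `σ τ = τ σ`, `σ ^ p = 1 ≠ σ` -/

/-- `τ` as a ring automorphism. -/
def tauR : ↥c.L ≃+* ↥c.L := c.tau.toRingEquiv

@[simp]
theorem tauR_apply (z : ↥c.L) : c.tauR z = c.tau z := rfl

theorem sigma_tau (z : ↥c.L) : c.sigma (c.tauR z) = c.tauR (c.sigma z) := by
  have key : ((c.sigma : ↥c.L →+* ↥c.L).comp (c.tauR : ↥c.L →+* ↥c.L)) =
      ((c.tauR : ↥c.L →+* ↥c.L).comp (c.sigma : ↥c.L →+* ↥c.L)) := by
    apply c.ringHom_ext_L'
    · intro w hw
      show c.sigma (c.tau w) = c.tau (c.sigma w)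
      have h1 : c.sigma w = w := Subtype.ext (c.Phi_F₁ hw)
      rw [c.tau_of_mem_F₁ w hw, h1, c.tau_of_mem_F₁ w hw]
    · show c.sigma (c.tau c.uL) = c.tau (c.sigma c.uL)
      rw [c.tau_uL, c.sigma_uL, map_mul, map_inv₀, c.tau_zL, c.tau_uL]
    · show c.sigma (c.tau c.hL) = c.tau (c.sigma c.hL)
      rw [c.tau_hL, c.sigma_hL, map_mul, c.sigma_zL, c.sigma_hL, c.tau_hL]
  exact congrArg (fun f : ↥c.L →+* ↥c.L => f z) key

theorem sigma_pow_apply_uL (j : ℕ) : (c.sigma ^ j) c.uL = (c.zL⁻¹) ^ j * c.uL := by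
  induction j with
  | zero => simp
  | succ j ih =>
    rw [pow_succ', RingAut.mul_apply, ih, map_mul, map_pow, map_inv₀, c.sigma_zL, c.sigma_uL]
    ring

theorem zL_pow : c.zL ^ c.p = 1 := Subtype.ext (by
  show c.zC ^ c.p = 1
  exact c.zC_isPrimitiveRoot.pow_eq_one)

theorem zL_ne_zero : c.zL ≠ 0 := by
  intro h0
  have := congrArg Subtype.val h0
  exact HahnSeries.C_ne_zero c.zeta_ne_zero this

theorem uL_ne_zero : c.uL ≠ 0 := by
  intro h0
  have := congrArg Subtype.val h0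
  exact HahnSeries.C_ne_zero c.hu0 this

theorem sigma_pow : c.sigma ^ c.p = 1 := by
  have key : ((c.sigma ^ c.p : ↥c.L ≃+* ↥c.L) : ↥c.L →+* ↥c.L) = RingHom.id _ := by
    have hfix : ∀ (w : ↥c.L), c.sigma w = w → ∀ j : ℕ, (c.sigma ^ j) w = w := by
      intro w hw j
      induction j with
      | zero => rfl
      | succ j ih => rw [pow_succ', RingAut.mul_apply, ih, hw]
    apply c.ringHom_ext_L'
    · intro w hw
      exact hfix w (Subtype.ext (c.Phi_F₁ hw)) c.p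
    · show (c.sigma ^ c.p) c.uL = c.uL
      rw [c.sigma_pow_apply_uL, inv_pow, c.zL_pow, inv_one, one_mul]
    · exact hfix _ c.sigma_hL c.p
  exact RingEquiv.ext fun z => congrArg (fun f : ↥c.L →+* ↥c.L => f z) key

theorem sigma_ne_one : c.sigma ≠ 1 := by
  intro h1
  have h2 : c.sigma c.uL = c.uL := by rw [h1]; rfl
  rw [c.sigma_uL] at h2
  have h3 : c.zL⁻¹ = 1 := by
    have := mul_right_cancel₀ c.uL_ne_zero (h2.trans (one_mul _).symm)
    exact this
  have h4 : c.zC = 1 := by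
    have : c.zL = 1 := by rw [← inv_inv c.zL, h3, inv_one]
    exact congrArg Subtype.val this
  have h5 := c.zC_isPrimitiveRoot
  rw [h4] at h5
  exact c.hp.one_lt.ne' (IsPrimitiveRoot.unique h5 IsPrimitiveRoot.one)

/-! ### The leading coefficient -/

/-- **`lc`**: the leading coefficient, as a constant of `L`. -/
def lc : ↥c.L →*₀ ↥c.L where
  toFun z := ⟨HahnSeries.C (z : LaurentSeries K).leadingCoeff,
    c.mem_L_of_mem_F₂ (c.C_mem_F₂ (c.leadingCoeff_mem z.2))⟩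
  map_zero' := Subtype.ext (by
    show (HahnSeries.C (0 : LaurentSeries K).leadingCoeff : LaurentSeries K) = 0
    simp)
  map_one' := Subtype.ext (by
    show (HahnSeries.C (1 : LaurentSeries K).leadingCoeff : LaurentSeries K) = 1
    rw [HahnSeries.leadingCoeff_one, map_one])
  map_mul' x y := Subtype.ext (by
    show (HahnSeries.C ((x : LaurentSeries K) * (y : LaurentSeries K)).leadingCoeff :
      LaurentSeries K) = HahnSeries.C (x : LaurentSeries K).leadingCoeff *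
        HahnSeries.C (y : LaurentSeries K).leadingCoeff
    rw [HahnSeries.leadingCoeff_mul, map_mul])

@[simp]
theorem coe_lc (z : ↥c.L) :
    ((c.lc z : ↥c.L) : LaurentSeries K) = HahnSeries.C (z : LaurentSeries K).leadingCoeff := rfl

theorem leadingCoeff_C_h819 (e : K) : (HahnSeries.C e : LaurentSeries K).leadingCoeff = e := by
  rw [HahnSeries.C_apply, HahnSeries.leadingCoeff_of_single]

theorem lc_lc (z : ↥c.L) : c.lc (c.lc z) = c.lc z := Subtype.ext (by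
  rw [coe_lc, coe_lc, leadingCoeff_C_h819])

theorem lc_sigma (z : ↥c.L) : c.lc (c.sigma z) = c.sigma (c.lc z) := Subtype.ext (by
  rw [coe_lc, coe_sigma, coe_sigma, coe_lc]
  show HahnSeries.C (coeffEquiv c.σ₀ (z : LaurentSeries K)).leadingCoeff =
    coeffEquiv c.σ₀ (HahnSeries.C (z : LaurentSeries K).leadingCoeff)
  rw [leadingCoeff_coeffEquiv, coeffEquiv_C])

theorem lc_mem_F₂ (z : ↥c.L) : ((c.lc z : ↥c.L) : LaurentSeries K) ∈ c.F₂ :=
  c.C_mem_F₂ (c.leadingCoeff_mem z.2)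

theorem tau_lc (z : ↥c.L) : c.tauR (c.lc z) = c.lc z := c.tau_of_mem_F₂ _ (c.lc_mem_F₂ z)

theorem lc_zL : c.lc c.zL = c.zL := Subtype.ext (by
  rw [coe_lc]
  show HahnSeries.C (HahnSeries.C c.ζ : LaurentSeries K).leadingCoeff = HahnSeries.C c.ζ
  rw [leadingCoeff_C_h819])

theorem lc_of_const (e : K) (he : (HahnSeries.C e : LaurentSeries K) ∈ c.L) :
    c.lc ⟨HahnSeries.C e, he⟩ = ⟨HahnSeries.C e, he⟩ := Subtype.ext (by
  rw [coe_lc]
  show HahnSeries.C (HahnSeries.C e : LaurentSeries K).leadingCoeff = HahnSeries.C e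
  rw [leadingCoeff_C_h819])

theorem zL_isPrimitiveRoot : IsPrimitiveRoot c.zL c.p := by
  have h := c.zC_isPrimitiveRoot
  refine IsPrimitiveRoot.of_map_of_injective (f := c.L.val) ?_ ?_
  · exact h
  · exact c.L.val.injective

/-! ### `τ` preserves the function field of the cover -/

theorem tau_mem_Fc (z : ↥c.L) (hz : (z : LaurentSeries K) ∈ c.Fc) :
    ((c.tau z : ↥c.L) : LaurentSeries K) ∈ c.Fc := by
  obtain ⟨z, hzL⟩ := z
  have hz' : z ∈ c.Fc := hz
  clear hz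
  induction hz' using Subfield.closure_induction with
  | mem x hx =>
    rcases hx with hx | hx
    · rw [c.tau_of_mem_F₁ _ hx]
      exact c.F₁_le_Fc hx
    · rw [Set.mem_singleton_iff] at hx
      subst hx
      have : (⟨c.h, hzL⟩ : ↥c.L) = c.hL := rfl
      rw [this, c.coe_tau_hL]
      exact c.Fc.mul_mem (c.F₁_le_Fc c.zC_mem_F₁) c.h_mem_Fc
  | one =>
    have : (⟨1, hzL⟩ : ↥c.L) = 1 := rfl
    rw [this, map_one]
    exact c.Fc.one_mem
  | add x y hx hy ihx ihy =>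
    have hxL := c.mem_L_of_mem_Fc hx
    have hyL := c.mem_L_of_mem_Fc hy
    have : (⟨x + y, hzL⟩ : ↥c.L) = ⟨x, hxL⟩ + ⟨y, hyL⟩ := rfl
    rw [this, map_add]
    exact c.Fc.add_mem (ihx hxL) (ihy hyL)
  | neg x hx ihx =>
    have hxL := c.mem_L_of_mem_Fc hx
    have : (⟨-x, hzL⟩ : ↥c.L) = -⟨x, hxL⟩ := rfl
    rw [this, map_neg]
    exact c.Fc.neg_mem (ihx hxL)
  | inv x hx ihx =>
    have hxL := c.mem_L_of_mem_Fc hx
    have : (⟨x⁻¹, hzL⟩ : ↥c.L) = (⟨x, hxL⟩ : ↥c.L)⁻¹ := rfl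
    rw [this, map_inv₀]
    exact c.Fc.inv_mem (ihx hxL)
  | mul x y hx hy ihx ihy =>
    have hxL := c.mem_L_of_mem_Fc hx
    have hyL := c.mem_L_of_mem_Fc hy
    have : (⟨x * y, hzL⟩ : ↥c.L) = ⟨x, hxL⟩ * ⟨y, hyL⟩ := rfl
    rw [this, map_mul]
    exact c.Fc.mul_mem (ihx hxL) (ihy hyL)

end PerCtx


end Fermat.Agent.Ribet.H819

end
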