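import Mathlib

/-!
# Row 38, WALL-p, crux (I6), leaf INST-D, FIELD part — abstract lemmas (helper819)

Mathlib only.  `Ω` a field, `Φ : Ω ≃+* Ω` an automorphism, `B ≤ Ω` a subfield fixed by `Φ`
pointwise, `ζ ∈ B` a primitive `p`-th root of unity, `p` prime.

* `mem_of_fixed_h819` : if `Φ x = ζ x`, `x ^ p ∈ B`, then every `Φ`-fixed element of `B(x)` lies
  in `B` (averaging over the powers of `Φ`);
* `exists_deck_h819`  : if `h ^ p ∈ B`, `h ∉ B`, there is an automorphism `τ` of `B(h)` over `B`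
  with `τ h = ζ h` (Kummer theory).
-/

set_option autoImplicit false
set_option linter.unusedSectionVars false
set_option linter.style.haveILetI false

noncomputable section

namespace Fermat.Agent.Ribet.H819

open Polynomial

section Fixed

variable {Ω : Type*} [Field Ω]

/-- `Φ^[j]` of a polynomial expression in an eigenvector `x` of `Φ`. -/
theorem iterate_aeval_h819 (B : Subfield Ω) (Φ : Ω ≃+* Ω) (hΦ : ∀ z ∈ B, Φ z = z) {ζ x : Ω}
    (hx : Φ x = ζ * x) (hζ : Φ ζ = ζ) (q : Polynomial ↥B) (j : ℕ) :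
    (⇑Φ)^[j] (aeval x q) = aeval (ζ ^ j * x) q := by
  induction j with
  | zero => simp
  | succ j ih =>
    rw [Function.iterate_succ_apply', ih]
    let ΦA : Ω →ₐ[↥B] Ω :=
      { (Φ : Ω →+* Ω) with
        commutes' := fun b => hΦ _ b.2 }
    have h1 : Φ (aeval (ζ ^ j * x) q) = ΦA (aeval (ζ ^ j * x) q) := rfl
    rw [h1, ← aeval_algHom_apply]
    have h2 : ΦA (ζ ^ j * x) = ζ ^ (j + 1) * x := by
      show Φ (ζ ^ j * x) = _
      rw [map_mul, map_pow, hζ, hx]
      ring
    rw [h2]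

/-- **Fixed elements of a Kummer extension.** -/
theorem mem_of_fixed_h819 (B : Subfield Ω) (Φ : Ω ≃+* Ω) (hΦ : ∀ z ∈ B, Φ z = z) {p : ℕ}
    (hp : p.Prime) {ζ : Ω} (hζ : IsPrimitiveRoot ζ p) (hζB : ζ ∈ B) {x : Ω}
    (hx : Φ x = ζ * x) (hxp : x ^ p ∈ B) {z : Ω}
    (hz : z ∈ Subfield.closure ((B : Set Ω) ∪ {x})) (hfix : Φ z = z) : z ∈ B := by
  classical
  -- `x` is integral over `B`
  have hint : IsIntegral ↥B x := by
    refine ⟨X ^ p - C ⟨x ^ p, hxp⟩, monic_X_pow_sub_C _ hp.ne_zero, ?_⟩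
    rw [← aeval_def, map_sub, map_pow, aeval_X, aeval_C]
    exact sub_self (x ^ p)
  -- `z` is a polynomial in `x`
  have hz' : z ∈ IntermediateField.adjoin ↥B ({x} : Set Ω) := by
    have : z ∈ (IntermediateField.adjoin ↥B ({x} : Set Ω)).toSubfield := by
      rw [IntermediateField.adjoin_toSubfield]
      have hr : Set.range (algebraMap ↥B Ω) = (B : Set Ω) := by
        ext y
        constructor
        · rintro ⟨b, rfl⟩
          exact b.2
        · intro hy
          exact ⟨⟨y, hy⟩, rfl⟩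
      rw [hr]
      exact hz
    exact this
  have hz'' : z ∈ Algebra.adjoin ↥B ({x} : Set Ω) := by
    rw [← IntermediateField.adjoin_simple_toSubalgebra_of_isAlgebraic hint.isAlgebraic]
    exact hz'
  rw [Algebra.adjoin_singleton_eq_range_aeval] at hz''
  obtain ⟨q, hq⟩ := hz''
  have hq' : aeval x q = z := hq
  subst hq'
  -- the sum of the conjugates
  have hζΦ : Φ ζ = ζ := hΦ ζ hζB
  have hiter : ∀ j : ℕ, (⇑Φ)^[j] (aeval x q) = aeval x q := by
    intro j
    induction j with
    | zero => rfl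
    | succ j ih => rw [Function.iterate_succ_apply', ih, hfix]
  have hsum : ∑ j ∈ Finset.range p, aeval (ζ ^ j * x) q = (p : Ω) * aeval x q := by
    have : ∀ j ∈ Finset.range p, aeval (ζ ^ j * x) q = aeval x q := by
      intro j _
      rw [← iterate_aeval_h819 B Φ hΦ hx hζΦ q j, hiter j]
    rw [Finset.sum_congr rfl this, Finset.sum_const, Finset.card_range, nsmul_eq_mul]
  have hp0 : (p : Ω) ≠ 0 := by
    haveI : NeZero p := ⟨hp.ne_zero⟩
    exact (hζ.neZero').ne
  -- each monomial contributes an element of `B`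
  have hmono : ∀ i : ℕ, ∑ j ∈ Finset.range p, (ζ ^ j * x) ^ i ∈ B := by
    intro i
    have e : ∑ j ∈ Finset.range p, (ζ ^ j * x) ^ i =
        x ^ i * ∑ j ∈ Finset.range p, (ζ ^ i) ^ j := by
      rw [Finset.mul_sum]
      refine Finset.sum_congr rfl fun j _ => ?_
      rw [mul_pow, ← pow_mul, ← pow_mul, mul_comm j i]
      ring
    rw [e]
    by_cases hi : p ∣ i
    · obtain ⟨k, rfl⟩ := hi
      refine B.mul_mem ?_ (B.sum_mem fun j _ => B.pow_mem (B.pow_mem hζB _) _)
      rw [pow_mul]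
      exact B.pow_mem hxp k
    · have hcop : Nat.Coprime i p := (Nat.Coprime.symm ((Nat.Prime.coprime_iff_not_dvd hp).mpr hi))
      have hprim : IsPrimitiveRoot (ζ ^ i) p := hζ.pow_of_coprime i hcop
      rw [hprim.geom_sum_eq_zero hp.one_lt, mul_zero]
      exact B.zero_mem
  have hS : ∑ j ∈ Finset.range p, aeval (ζ ^ j * x) q ∈ B := by
    have e : ∀ j : ℕ, aeval (ζ ^ j * x) q =
        ∑ i ∈ Finset.range (q.natDegree + 1), (q.coeff i : Ω) * (ζ ^ j * x) ^ i := by
      intro j
      rw [aeval_eq_sum_range]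
      refine Finset.sum_congr rfl fun i _ => ?_
      rw [Algebra.smul_def]
      rfl
    simp only [e]
    rw [Finset.sum_comm]
    refine B.sum_mem fun i _ => ?_
    rw [← Finset.mul_sum]
    exact B.mul_mem (q.coeff i).2 (hmono i)
  rw [hsum] at hS
  have : aeval x q = (p : Ω)⁻¹ * ((p : Ω) * aeval x q) := by
    rw [← mul_assoc, inv_mul_cancel₀ hp0, one_mul]
  rw [this]
  exact B.mul_mem (B.inv_mem (natCast_mem B p)) hS

end Fixed

section Deck

variable {Ω : Type*} [Field Ω]

/-- **The deck transformation of a Kummer extension of prime degree.** -/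
theorem exists_deck_h819 (B : Subfield Ω) {p : ℕ} (hp : p.Prime) {ζ : Ω}
    (hζ : IsPrimitiveRoot ζ p) (hζB : ζ ∈ B) {h : Ω} (hhp : h ^ p ∈ B) (hhB : h ∉ B) :
    ∃ τ : ↥(IntermediateField.adjoin ↥B ({h} : Set Ω)) ≃ₐ[↥B]
        ↥(IntermediateField.adjoin ↥B ({h} : Set Ω)),
      ((τ (IntermediateField.AdjoinSimple.gen ↥B h) :
        ↥(IntermediateField.adjoin ↥B ({h} : Set Ω))) : Ω) = ζ * h := by
  classical
  set a : ↥B := ⟨h ^ p, hhp⟩ with ha
  have hh0 : h ≠ 0 := fun h0 => hhB (h0 ▸ B.zero_mem)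
  -- `X ^ p - a` is irreducible over `B`
  have hirr : Irreducible (X ^ p - C a : Polynomial ↥B) := by
    apply X_pow_sub_C_irreducible_of_prime hp
    intro b hb
    have hb' : (b : Ω) ^ p = h ^ p := by
      have := congrArg (fun z : ↥B => (z : Ω)) hb
      simpa [ha] using this
    have hb0 : (b : Ω) ≠ 0 := by
      intro h0
      rw [h0, zero_pow hp.ne_zero] at hb'
      exact pow_ne_zero p hh0 hb'.symm
    have h1 : (h / (b : Ω)) ^ p = 1 := by
      rw [div_pow, hb', div_self (pow_ne_zero p hh0)]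
    haveI : NeZero p := ⟨hp.ne_zero⟩
    obtain ⟨i, -, hi⟩ := hζ.eq_pow_of_pow_eq_one h1
    apply hhB
    have : h = ζ ^ i * (b : Ω) := by
      rw [hi]
      field_simp
    rw [this]
    exact B.mul_mem (B.pow_mem hζB i) b.2
  have hroot : aeval h (X ^ p - C a : Polynomial ↥B) = 0 := by
    rw [map_sub, map_pow, aeval_X, aeval_C]
    exact sub_self (h ^ p)
  have hint : IsIntegral ↥B h := ⟨X ^ p - C a, monic_X_pow_sub_C _ hp.ne_zero, hroot⟩
  have hmin : minpoly ↥B h = X ^ p - C a :=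
    (minpoly.eq_of_irreducible_of_monic hirr hroot (monic_X_pow_sub_C _ hp.ne_zero)).symm
  let pb := IntermediateField.adjoin.powerBasis hint
  have hgen : pb.gen = IntermediateField.AdjoinSimple.gen ↥B h := rfl
  -- the second root `ζ h`
  have hζh : ζ * h ∈ IntermediateField.adjoin ↥B ({h} : Set Ω) := by
    refine mul_mem ?_ (IntermediateField.mem_adjoin_simple_self ↥B h)
    exact (IntermediateField.adjoin ↥B ({h} : Set Ω)).algebraMap_mem ⟨ζ, hζB⟩
  let y : ↥(IntermediateField.adjoin ↥B ({h} : Set Ω)) := ⟨ζ * h, hζh⟩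
  have hy : aeval y (minpoly ↥B pb.gen) = 0 := by
    have hm : minpoly ↥B pb.gen = X ^ p - C a := by
      rw [hgen, IntermediateField.minpoly_gen, hmin]
    rw [hm]
    apply Subtype.ext
    have hcoe : ((aeval y (X ^ p - C a : Polynomial ↥B) :
        ↥(IntermediateField.adjoin ↥B ({h} : Set Ω))) : Ω) =
        aeval (y : Ω) (X ^ p - C a : Polynomial ↥B) := by
      have := Polynomial.aeval_algHom_apply
        (IntermediateField.val (IntermediateField.adjoin ↥B ({h} : Set Ω))) y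
        (X ^ p - C a : Polynomial ↥B)
      exact this.symm
    rw [hcoe]
    show aeval (ζ * h) (X ^ p - C a : Polynomial ↥B) = 0
    rw [map_sub, map_pow, aeval_X, aeval_C, mul_pow, hζ.pow_eq_one, one_mul]
    exact sub_self (h ^ p)
  let φ : ↥(IntermediateField.adjoin ↥B ({h} : Set Ω)) →ₐ[↥B]
      ↥(IntermediateField.adjoin ↥B ({h} : Set Ω)) := pb.lift y hy
  haveI : FiniteDimensional ↥B ↥(IntermediateField.adjoin ↥B ({h} : Set Ω)) :=
    IntermediateField.adjoin.finiteDimensional hint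
  refine ⟨AlgEquiv.ofBijective φ (AlgHom.bijective φ), ?_⟩
  show ((φ (IntermediateField.AdjoinSimple.gen ↥B h) : _) : Ω) = ζ * h
  rw [← hgen]
  have : φ pb.gen = y := pb.lift_gen y hy
  rw [this]

end Deck

end Fermat.Agent.Ribet.H819

end
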