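import Fermat.Agent.Ribet.H712.FrameTypes
import Fermat.Agent.Ribet.H769.HorDesc
import Fermat.Agent.Ribet.H819.PerCov

/-!
# Row 38, WALL-p, (S4) WILD: `Nonempty (WildFrame …)` from LEVEL + MODEL + UNIT + SPLIT + KD
# (helper819)

The COVER, PER and HOR-DESC hypotheses of `H712.Frame.nonempty_wildFrame` are discharged here:

* COVER: `h` := the `p`-th root of the normalised Kummer generator `f_t` (`PerCtx.ofKummer`);
* PER: `PerCtx.per_cov` (from the ambient KD relation `σ₀ F = F · κ · f_t · G₀ ^ p`);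
* HOR-DESC: `H769.horDesc_frame769` + `H819.adjoin_range_BC` + `H712.Frame.adjoin_covGen`.

`nonempty_wildFrame_of_KD` : LEVEL + MODEL + UNIT + SPLIT (verbatim as in
`H712.Frame.nonempty_wildFrame`) + KUMMER-LEVEL (`σ₀`, `u`, `E₂ = E₁(u)`, `u ^ p = cc` a unit of
`R_{E₁}`) + KD ⟹ `Nonempty (WildFrame …)`.
-/

set_option autoImplicit false
set_option synthInstance.maxHeartbeats 400000
set_option maxHeartbeats 1000000
set_option linter.unusedSectionVars false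
set_option linter.style.haveILetI false

noncomputable section

namespace Fermat.Agent.Ribet.H819

open ModularCurve HahnSeries
open Fermat.Agent.S24 Fermat.Agent.A2 Fermat.Agent.Ribet.H704
open Fermat.Agent.Ribet.H704.CoreOut Fermat.Agent.Ribet.H712.Frame

theorem isAlgebraic_level_h819 (E : IntermediateField ℚ Kbar) : Algebra.IsAlgebraic ℚ ↥E :=
  ⟨fun x => (IntermediateField.isAlgebraic_iff).mpr
    ((AlgebraicClosure.isAlgebraic ℚ).isAlgebraic (x : Kbar))⟩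

/-- The coefficientwise `Algebra F_{E₁} F_{E₂}` (`H712.Frame.levelMap`). -/
@[reducible] def algLB (F₀N : ℕ) {E₁ E₂ : IntermediateField ℚ Kbar} (hle : E₁ ≤ E₂) :
    Algebra ↥(Mod.FE E₁ F₀N) ↥(Mod.FE E₂ F₀N) := (levelMap F₀N hle).toAlgebra

section HorDesc

variable (p : ℕ) (hp : p.Prime) (N : ℕ) (E₁ E₂ : IntermediateField ℚ Kbar) (hle : E₁ ≤ E₂)
  (h : LaurentSeries Kbar)

include hle in
/-- **HOR-DESC on the carriers of `H712.Frame`**: the hypothesis `hf'_div` of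
`H712.Frame.nonempty_wildFrame`. -/
theorem hf'_div_cov (f₂ : ↥(Mod.FE E₂ N)) (hdiv : DivisibleDiv E₂ p f₂)
    (f' : ↥(cov (sIota E₁ N) h)) (lc : E₂) (b : ↥(cov (sIota E₂ N) h)) (hlc : lc ≠ 0)
    (hb : b ≠ 0)
    (hf₂ : sIota E₂ N f₂ =
      sIota E₂ N (algebraMap E₂ (Mod.FE E₂ N) lc) * (f' : LaurentSeries Kbar) *
        (b : LaurentSeries Kbar) ^ p) :
    ∀ V : ValuationSubring ↥(cov (sIota E₁ N) h), IsDiscreteValuationRing V →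
      (∀ e : E₁, covMap (sIota E₁ N) h (algebraMap E₁ (Mod.FE E₁ N) e) ∈ V) →
      ∃ g u : ↥(cov (sIota E₁ N) h), g ≠ 0 ∧ u ∈ V ∧ u⁻¹ ∈ V ∧ f' = u * g ^ p := by
  letI iK₁K₂ : Algebra ↥(Mod.FE E₁ N) ↥(Mod.FE E₂ N) := (levelMap N hle).toAlgebra
  letI iK₁L₁ : Algebra ↥(Mod.FE E₁ N) ↥(cov (sIota E₁ N) h) := covAlgebra (sIota E₁ N) h
  letI iE₁L₁ : Algebra ↥E₁ ↥(cov (sIota E₁ N) h) :=
    ((covMap (sIota E₁ N) h).comp (algebraMap ↥E₁ ↥(Mod.FE E₁ N))).toAlgebra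
  letI iK₂L₂ : Algebra ↥(Mod.FE E₂ N) ↥(cov (sIota E₂ N) h) := covAlgebra (sIota E₂ N) h
  letI iL₁L₂ : Algebra ↥(cov (sIota E₁ N) h) ↥(cov (sIota E₂ N) h) :=
    (covIncl (sIota E₁ N) h (sIota E₂ N) (levelMap N hle) (sIota_levelMap N hle)).toAlgebra
  letI iK₁L₂ : Algebra ↥(Mod.FE E₁ N) ↥(cov (sIota E₂ N) h) :=
    ((covMap (sIota E₂ N) h).comp (levelMap N hle)).toAlgebra
  haveI t1 : IsScalarTower ↥(Mod.FE E₁ N) ↥(Mod.FE E₂ N) ↥(cov (sIota E₂ N) h) :=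
    IsScalarTower.of_algebraMap_eq (fun _ => rfl)
  haveI t2 : IsScalarTower ↥(Mod.FE E₁ N) ↥(cov (sIota E₁ N) h) ↥(cov (sIota E₂ N) h) :=
    IsScalarTower.of_algebraMap_eq (fun x => Subtype.ext (sIota_levelMap N hle x))
  have hK₂ : IntermediateField.adjoin ↥(Mod.FE E₁ N)
      (Set.range (algebraMap ↥E₂ ↥(Mod.FE E₂ N))) = ⊤ :=
    adjoin_range_BC (modularFunctionFieldFull N) (fun x => sIota_levelMap N hle x)
  have hgen : algebraMap ↥(cov (sIota E₁ N) h) ↥(cov (sIota E₂ N) h) (covGen (sIota E₁ N) h) =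
      covGen (sIota E₂ N) h := by
    apply Subtype.ext
    show ((covIncl (sIota E₁ N) h (sIota E₂ N) (levelMap N hle) (sIota_levelMap N hle)
      (covGen (sIota E₁ N) h) : ↥(cov (sIota E₂ N) h)) : LaurentSeries Kbar) = _
    rw [coe_covIncl]
    rfl
  have hadj₂ : IntermediateField.adjoin ↥(Mod.FE E₂ N)
      ({algebraMap ↥(cov (sIota E₁ N) h) ↥(cov (sIota E₂ N) h) (covGen (sIota E₁ N) h)} :
        Set ↥(cov (sIota E₂ N) h)) = ⊤ := by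
    rw [hgen]
    exact adjoin_covGen (sIota E₂ N) h
  have hf₂' : algebraMap ↥(Mod.FE E₂ N) ↥(cov (sIota E₂ N) h) f₂ =
      algebraMap ↥(Mod.FE E₂ N) ↥(cov (sIota E₂ N) h) (algebraMap E₂ (Mod.FE E₂ N) lc) *
        algebraMap ↥(cov (sIota E₁ N) h) ↥(cov (sIota E₂ N) h) f' * b ^ p :=
    Subtype.ext hf₂
  exact Fermat.Agent.Ribet.H769.horDesc_frame769 (E₁ := ↥E₁) (K₁ := ↥(Mod.FE E₁ N))
    (L₁ := ↥(cov (sIota E₁ N) h)) (E₂ := ↥E₂) (K₂ := ↥(Mod.FE E₂ N))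
    (L₂ := ↥(cov (sIota E₂ N) h)) (isAlgebraic_level_h819 E₂) p hK₂ (covGen (sIota E₁ N) h)
    hadj₂ hdiv hlc hb hf₂'

end HorDesc

section Final

variable (p M' : ℕ) [NeZero M'] [NeZero p] (hp : p.Prime)
  (A : ValuationSubring Kbar) (E₁ E₂ : IntermediateField ℚ Kbar) (hle : E₁ ≤ E₂)
  (w₁ : Mod.RE A E₁) (w₂ : Mod.RE A E₂)

include hp in
/-- **`Nonempty (WildFrame …)` from LEVEL + MODEL + UNIT + SPLIT + KUMMER-LEVEL + KD.** -/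
theorem nonempty_wildFrame_of_KD
    (c₂ : SSChart w₂ (Mod.chartAlg A E₂ (M' * p) (Mod.xE E₂ M' p)))
    (f₂ D₂ : Mod.FE E₂ (M' * p))
    -- LEVEL
    (hdvr₁ : IsDiscreteValuationRing (Mod.RE A E₁))
    (halg₁ : IsAlgClosed (IsLocalRing.ResidueField (Mod.RE A E₁)))
    (hp_mem : (p : Mod.RE A E₁) ∈ IsLocalRing.maximalIdeal (Mod.RE A E₁))
    (ζ : Mod.RE A E₁) (hζ : IsPrimitiveRoot ζ p)
    -- MODEL
    (ctx₁ : Alg.ChartCtx E₁ w₁ (Mod.xE E₁ M' p) (Mod.chartAlg A E₁ (M' * p) (Mod.xE E₁ M' p)))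
    (c₁ : SSChart w₁ (Mod.chartAlg A E₁ (M' * p) (Mod.xE E₁ M' p)))
    (map_mem : ∀ b ∈ Mod.chartAlg A E₁ (M' * p) (Mod.xE E₁ M' p),
      levelMap (M' * p) hle b ∈ Mod.chartAlg A E₂ (M' * p) (Mod.xE E₂ M' p))
    (comp₁ : ∀ (b : Mod.chartAlg A E₁ (M' * p) (Mod.xE E₁ M' p))
      (b' : Mod.chartAlg A E₂ (M' * p) (Mod.xE E₂ M' p)),
      (b' : Mod.FE E₂ (M' * p)) = levelMap (M' * p) hle (b : Mod.FE E₁ (M' * p)) →
        (b' ∈ c₂.p₁ ↔ b ∈ c₁.p₁))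
    (comp₂ : ∀ (b : Mod.chartAlg A E₁ (M' * p) (Mod.xE E₁ M' p))
      (b' : Mod.chartAlg A E₂ (M' * p) (Mod.xE E₂ M' p)),
      (b' : Mod.FE E₂ (M' * p)) = levelMap (M' * p) hle (b : Mod.FE E₁ (M' * p)) →
        (b' ∈ c₂.p₂ ↔ b ∈ c₁.p₂))
    (unif : ∃ (η : Mod.RE A E₂) (e : ℕ), IsUnit η ∧ 0 < e ∧ reMap A hle w₁ = η * w₂ ^ e)
    -- UNIT
    (Nn : ℕ) (D D' : Mod.chartAlg A E₁ (M' * p) (Mod.xE E₁ M' p))
    (hN : Nat.Coprime Nn p)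
    (hDD : D * D' = algebraMap (Mod.RE A E₁) (Mod.chartAlg A E₁ (M' * p) (Mod.xE E₁ M' p)) w₁ ^ Nn)
    (hD : D ∉ c₁.p₁) (hD' : D' ∉ c₁.p₂)
    (hD₂ : D₂ = levelMap (M' * p) hle (D : Mod.FE E₁ (M' * p)))
    -- SPLIT
    (ft : Mod.FE E₁ (M' * p)) (hft0 : ft ≠ 0) (hft_div : DivisibleDiv E₁ p ft)
    (hft_split₁ : I6.SplitAt (Mod.FE E₁ (M' * p)) c₁.p₁
      (algebraMap (Mod.RE A E₁) (Mod.chartAlg A E₁ (M' * p) (Mod.xE E₁ M' p)) w₁) p ft)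
    (hft_split₂ : I6.SplitAt (Mod.FE E₁ (M' * p)) c₁.p₂
      (algebraMap (Mod.RE A E₁) (Mod.chartAlg A E₁ (M' * p) (Mod.xE E₁ M' p)) w₁) p ft)
    -- the normalised Kummer generator of `t`
    (hlc : (ft : LaurentSeries ↥E₁).leadingCoeff = 1)
    (hord : (p : ℤ) ∣ (ft : LaurentSeries ↥E₁).order)
    (hnp : ∀ x : Mod.FE E₁ (M' * p), x ^ p ≠ ft)
    -- KUMMER-LEVEL: `E₂ = E₁(u)`, `σ₀ u = ζ⁻¹ u`, `u ^ p = cc` a unit of `R_{E₁}`
    (σ₀ : Kbar ≃+* Kbar) (hσE : ∀ c ∈ E₁, σ₀ c = c) (u : Kbar)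
    (hσu : σ₀ u = (((ζ : ↥E₁) : Kbar))⁻¹ * u) (hu0 : u ≠ 0)
    (hE : E₂.toSubfield = Subfield.closure ((E₁ : Set Kbar) ∪ {u}))
    (cc : Mod.RE A E₁) (hcc : IsUnit cc) (hccu : (((cc : ↥E₁) : Kbar)) = u ^ p)
    -- KD: `σ₀ x = x + t` on the Kummer generators
    (hf₂0 : f₂ ≠ 0) (hdiv₂ : DivisibleDiv E₂ p f₂)
    (G₀ : Mod.FE E₂ (M' * p)) (κ : Kbar) (hκ : κ ∈ E₂)
    (hσ : coeffMap (σ₀ : Kbar →+* Kbar) (sIota E₂ (M' * p) f₂) =
      sIota E₂ (M' * p) f₂ * HahnSeries.C κ * sIota E₁ (M' * p) ft *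
        (sIota E₂ (M' * p) G₀) ^ p) :
    Nonempty (WildFrame p (Mod.RE A E₂) E₂ (Mod.FE E₂ (M' * p)) w₂
      (Mod.chartAlg A E₂ (M' * p) (Mod.xE E₂ M' p)) c₂ f₂ D₂) := by
  -- the primitive root in `ℚ̄`
  have hζK : IsPrimitiveRoot (((ζ : ↥E₁) : Kbar)) p := by
    have h1 : IsPrimitiveRoot ((ζ : ↥E₁)) p :=
      hζ.map_of_injective (f := (Mod.RE A E₁).subtype) Subtype.val_injective
    exact h1.map_of_injective (f := algebraMap ↥E₁ Kbar) (algebraMap ↥E₁ Kbar).injective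
  have hup : u ^ p ∈ E₁ := by
    rw [← hccu]
    exact (cc : ↥E₁).2
  -- the context
  set c : PerCtx Kbar := PerCtx.ofKummer (modularFunctionFieldFull (M' * p)) p hp E₁
    (((ζ : ↥E₁) : Kbar)) hζK (ζ : ↥E₁).2 σ₀ hσE u hσu hu0 hup ft hlc hord hnp with hc
  have hh : c.h ^ p = sIota E₁ (M' * p) ft :=
    PerCtx.ofKummer_h_pow (modularFunctionFieldFull (M' * p)) p hp E₁ _ hζK (ζ : ↥E₁).2 σ₀ hσE
      u hσu hu0 hup ft hlc hord hnp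
  have hhF : c.h ∉ Set.range (sIota E₁ (M' * p)) := by
    intro hmem
    apply c.hhF
    show c.h ∈ imBC (modularFunctionFieldFull (M' * p)) E₁
    obtain ⟨x, hx⟩ := hmem
    exact (mem_imBC_iff _ _ _).mpr ⟨x, hx⟩
  have hζ₁ : IsPrimitiveRoot (algebraMap (Mod.RE A E₁) (Mod.FE E₁ (M' * p)) ζ) p :=
    hζ.map_of_injective (algebraMap_RE_FE_injective A E₁ (M' * p))
  have hζc : sIota E₁ (M' * p) (algebraMap (Mod.RE A E₁) (Mod.FE E₁ (M' * p)) ζ) =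
      HahnSeries.C (((ζ : ↥E₁) : Kbar)) := by
    show coeffMap (algebraMap ↥E₁ Kbar) (algebraMap ↥E₁ (LaurentSeries ↥E₁) (ζ : ↥E₁)) = _
    rw [algebraMap_laurentSeries_eq_single, coeffMap_single, HahnSeries.C_apply]
    rfl
  have ha : sIota E₁ (M' * p) (algebraMap (Mod.RE A E₁) (Mod.FE E₁ (M' * p)) cc) =
      HahnSeries.C (u ^ p) := by
    show coeffMap (algebraMap ↥E₁ Kbar) (algebraMap ↥E₁ (LaurentSeries ↥E₁) (cc : ↥E₁)) = _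
    rw [algebraMap_laurentSeries_eq_single, coeffMap_single, HahnSeries.C_apply, ← hccu]
    rfl
  -- the leading coefficient of `f₂`
  set lc : E₂ := (f₂ : LaurentSeries ↥E₂).leadingCoeff with hlcdef
  have hlc0 : lc ≠ 0 := by
    rw [hlcdef, Ne, HahnSeries.leadingCoeff_eq_zero]
    intro h0
    exact hf₂0 (Subtype.ext h0)
  have hℓ : sIota E₂ (M' * p) (algebraMap E₂ (Mod.FE E₂ (M' * p)) lc) =
      HahnSeries.C (sIota E₂ (M' * p) f₂).leadingCoeff := by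
    rw [sIota_apply E₂ (M' * p) f₂, leadingCoeff_coeffMap_of_injective]
    show coeffMap (algebraMap ↥E₂ Kbar) (algebraMap ↥E₂ (LaurentSeries ↥E₂) lc) = _
    rw [algebraMap_laurentSeries_eq_single, coeffMap_single, HahnSeries.C_apply]
  letI := algLB (M' * p) hle
  obtain ⟨f', G, b, hf', hG, hb, hper, hf₂⟩ :=
    c.per_cov (modularFunctionFieldFull (M' * p)) (E₁ := E₁) (E₂ := E₂) rfl hE rfl hζ₁ hζc ft hh
      hhF (algebraMap (Mod.RE A E₁) (Mod.FE E₁ (M' * p)) cc) ha f₂ G₀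
      (algebraMap E₂ (Mod.FE E₂ (M' * p)) lc) hf₂0 hℓ κ hκ hσ
  exact nonempty_wildFrame p M' hp A E₁ E₂ hle w₁ w₂ c₂ f₂ D₂ hdvr₁ halg₁ hp_mem ζ hζ ctx₁ c₁
    map_mem comp₁ comp₂ unif Nn D D' hN hDD hD hD' hD₂ ft hft0 hft_div hft_split₁ hft_split₂
    c.h hh hhF f' G cc hf' hG hcc hper
    (hf'_div_cov p (M' * p) E₁ E₂ hle c.h f₂ hdiv₂ f' lc b hlc0 hb hf₂)
    lc b hlc0 hb hf₂

end Final

end Fermat.Agent.Ribet.H819

end
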