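import Fermat.Agent.Ribet.H819.PerField
import Fermat.Agent.Ribet.H704.I6Spec

/-!
# Row 38, WALL-p, crux (I6), leaf INST-D: PER instantiated on `L = F₁(u, h)` (helper819)

`c : PerCtx K` (`PerField.lean`).  For a Kummer generator `f ∈ F₂ = F₁(u)` of `x` with
`σ f = f · c₀ · (h G) ^ p` (`G ∈ F₂`, `c₀` a constant) — this is `σ x = x + t` — the PERIOD
package `H704.I6.period_proved` gives `f' , G₂ ∈ Fc = F₁(h)` (the function field of the cover,
over the TAME level `E₁`) and `b ∈ L` with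

  `f = lc f · f' · b ^ p`,     `τ f' = f' · u ^ p · G₂ ^ p`     (`τ` = deck transformation).
-/

set_option autoImplicit false
set_option linter.unusedSectionVars false
set_option linter.style.haveILetI false

noncomputable section

namespace Fermat.Agent.Ribet.H819

open ModularCurve HahnSeries

namespace PerCtx

variable {K : Type} [Field K] (c : PerCtx K)

/-- **PER, instantiated.** -/
theorem period (f G c₀ : ↥c.L) (hf0 : f ≠ 0) (hf : (f : LaurentSeries K) ∈ c.F₂)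
    (hG : (G : LaurentSeries K) ∈ c.F₂) (hc₀ : c.lc c₀ = c₀)
    (hσf : c.sigma f = f * c₀ * (c.hL * G) ^ c.p) :
    ∃ f' b G₂ : ↥c.L, f' ≠ 0 ∧ b ≠ 0 ∧ G₂ ≠ 0 ∧ (f' : LaurentSeries K) ∈ c.Fc ∧
      (G₂ : LaurentSeries K) ∈ c.Fc ∧ f = c.lc f * f' * b ^ c.p ∧
      c.tau f' = f' * c.uL ^ c.p * G₂ ^ c.p := by
  have hτH : c.tauR (c.hL * G) = c.zL * (c.hL * G) := by
    rw [map_mul, tauR_apply, tauR_apply, c.tau_hL, c.tau_of_mem_F₂ G hG, mul_assoc]
  obtain ⟨f', b, G₂, hf'0, hb0, hG0, hσf', hfeq, hσG, hτf'⟩ :=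
    Fermat.Agent.Ribet.H704.I6.period_proved ↥c.L c.p c.hp c.sigma c.tauR c.sigma_tau
      c.sigma_pow c.sigma_ne_one c.zL c.zL_isPrimitiveRoot c.lc c.lc_lc c.lc_sigma c.tau_lc
      c.lc_zL f (c.hL * G) c₀ hf0 hc₀ (c.tau_of_mem_F₂ f hf) hτH hσf c.uL c.uL_ne_zero
      c.sigma_uL
  exact ⟨f', b, G₂, hf'0, hb0, hG0, c.mem_Fc_of_sigma_eq f' hσf', c.mem_Fc_of_sigma_eq G₂ hσG,
    hfeq, hτf'⟩

end PerCtx

end Fermat.Agent.Ribet.H819

end
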