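import Fermat.Agent.Ribet.H819.PerCover
import Fermat.Agent.Ribet.H819.PerDeckAbs
import Fermat.Agent.Ribet.H819.PerInst

/-!
# Row 38, WALL-p, crux (I6), leaf INST-D: the Kummer frame of `PerCtx` (helper819)

`c : PerCtx K`.  Both Kummer extensions `FcI = F₁(h) / F₁` (the cover at the TAME level) and
`L = F₂(h) / F₂` (the cover at the level of `x`) in the form consumed by
`H132.WildData` / `H704.CoreOut.CoverNode2Statement`:

* `isGalois_FcI`, `adjoin_hI : F₁⟮hI⟯ = ⊤`, `mem_zpowers_tauA` (`gen`);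
* `finrank_L`, `finiteDimensional_L`, `isGalois_L`, `adjoin_hL : F₂⟮hL⟯ = ⊤`, `mem_zpowers_tau`,
  `tau_pow`;
* `upF : F₁` the constant `u ^ p`; `coe_tau_of_mem_Fc` (`tau = tauA` on the cover field);
* **`period_FcI`** : PER with `f', G₂` as ELEMENTS of the cover field `FcI`:
  `f = lc f · f' · b ^ p` (in `K((t))`), `tauA f' = f' · u ^ p · G₂ ^ p`.
-/

set_option autoImplicit false
set_option linter.unusedSectionVars false
set_option linter.style.haveILetI false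
set_option maxHeartbeats 400000

noncomputable section

namespace Fermat.Agent.Ribet.H819

open ModularCurve Polynomial

namespace PerCtx

variable {K : Type} [Field K] (c : PerCtx K)

/-! ### `FcI / F₁` -/

instance isGalois_FcI : IsGalois ↥c.F₁ ↥c.FcI :=
  kummer_isGalois_h819 c.F₁ c.hp c.zC_isPrimitiveRoot c.zC_mem_F₁ c.hhp c.hhF

theorem adjoin_hI : IntermediateField.adjoin ↥c.F₁ ({c.hI} : Set ↥c.FcI) = ⊤ :=
  kummer_adjoin_gen_h819 c.F₁ c.hp c.hhp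

theorem mem_zpowers_tauA (g : ↥c.FcI ≃ₐ[↥c.F₁] ↥c.FcI) : g ∈ Subgroup.zpowers c.tauA :=
  kummer_mem_zpowers_h819 c.F₁ c.hp c.zC_isPrimitiveRoot c.zC_mem_F₁ c.hhp c.hhF c.tauA
    c.coe_tauA_hI g

theorem hI_pow : c.hI ^ c.p = algebraMap ↥c.F₁ ↥c.FcI c.aF := Subtype.ext rfl

theorem hI_ne_zero : c.hI ≠ 0 := fun h0 => c.h_ne_zero (congrArg Subtype.val h0)

/-! ### `L / F₂` -/

theorem finrank_L : Module.finrank ↥c.F₂ ↥c.L = c.p :=
  kummer_finrank_h819 c.F₂ c.hp c.zC_isPrimitiveRoot c.zC_mem_F₂ c.h_pow_mem_F₂ c.h_notMem_F₂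

instance finiteDimensional_L : FiniteDimensional ↥c.F₂ ↥c.L :=
  kummer_finiteDimensional_h819 c.F₂ c.hp c.h_pow_mem_F₂

instance isGalois_L : IsGalois ↥c.F₂ ↥c.L :=
  kummer_isGalois_h819 c.F₂ c.hp c.zC_isPrimitiveRoot c.zC_mem_F₂ c.h_pow_mem_F₂ c.h_notMem_F₂

theorem adjoin_hL : IntermediateField.adjoin ↥c.F₂ ({c.hL} : Set ↥c.L) = ⊤ :=
  kummer_adjoin_gen_h819 c.F₂ c.hp c.h_pow_mem_F₂

theorem mem_zpowers_tau (g : ↥c.L ≃ₐ[↥c.F₂] ↥c.L) : g ∈ Subgroup.zpowers c.tau :=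
  kummer_mem_zpowers_h819 c.F₂ c.hp c.zC_isPrimitiveRoot c.zC_mem_F₂ c.h_pow_mem_F₂
    c.h_notMem_F₂ c.tau c.coe_tau_hL g

theorem tau_pow : c.tau ^ c.p = 1 :=
  kummer_pow_eq_one_h819 c.F₂ c.hp c.zC_isPrimitiveRoot c.zC_mem_F₂ c.h_pow_mem_F₂ c.tau
    c.coe_tau_hL

/-- `h ^ p` as an element of `F₂`. -/
def aF₂ : ↥c.F₂ := ⟨c.h ^ c.p, c.h_pow_mem_F₂⟩

theorem hL_pow : c.hL ^ c.p = algebraMap ↥c.F₂ ↥c.L c.aF₂ := Subtype.ext rfl

/-! ### PER on the cover field -/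

/-- The constant `u ^ p`, as an element of `F₁`. -/
def upF : ↥c.F₁ := ⟨c.uC ^ c.p, c.uC_pow_mem_F₁⟩

theorem coe_upF : ((c.upF : ↥c.F₁) : LaurentSeries K) = HahnSeries.C (c.u ^ c.p) := by
  show c.uC ^ c.p = _
  rw [uC, ← map_pow]

/-- `c.tau` and `c.tauA` agree on the cover field (element form). -/
theorem coe_tau_of_mem_Fc (z : ↥c.L) (hz : (z : LaurentSeries K) ∈ c.Fc) :
    ((c.tau z : ↥c.L) : LaurentSeries K) =
      ((c.tauA ⟨(z : LaurentSeries K), (c.mem_FcI_iff _).mpr hz⟩ : ↥c.FcI) : LaurentSeries K) :=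
  c.coe_tau_eq_tauA (z : LaurentSeries K) ((c.mem_FcI_iff _).mpr hz)

/-- **PER on the cover field.**  For a Kummer generator `f ∈ F₂ = F₁(u)` with
`σ f = f · c₀ · (h G) ^ p` (`G ∈ F₂`, `c₀` a constant): there are `f', G₂` in the cover field
`FcI = F₁(h)` over the TAME level and `b ∈ L` with `f = lc f · f' · b ^ p` (in `K((t))`) and
`tauA f' = f' · u ^ p · G₂ ^ p`. -/
theorem period_FcI (f G c₀ : ↥c.L) (hf0 : f ≠ 0) (hf : (f : LaurentSeries K) ∈ c.F₂)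
    (hG : (G : LaurentSeries K) ∈ c.F₂) (hc₀ : c.lc c₀ = c₀)
    (hσf : c.sigma f = f * c₀ * (c.hL * G) ^ c.p) :
    ∃ (f' G₂ : ↥c.FcI) (b : ↥c.L), f' ≠ 0 ∧ G₂ ≠ 0 ∧ b ≠ 0 ∧
      (f : LaurentSeries K) =
        ((c.lc f : ↥c.L) : LaurentSeries K) * (f' : LaurentSeries K) *
          (b : LaurentSeries K) ^ c.p ∧
      c.tauA f' = f' * algebraMap ↥c.F₁ ↥c.FcI c.upF * G₂ ^ c.p := by
  obtain ⟨f', b, G₂, hf'0, hb0, hG0, hf'c, hGc, hfeq, hτ⟩ := c.period f G c₀ hf0 hf hG hc₀ hσf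
  refine ⟨⟨(f' : LaurentSeries K), (c.mem_FcI_iff _).mpr hf'c⟩,
    ⟨(G₂ : LaurentSeries K), (c.mem_FcI_iff _).mpr hGc⟩, b, ?_, ?_, hb0, ?_, ?_⟩
  · intro h0
    apply hf'0
    apply Subtype.ext
    have := congrArg (fun z : ↥c.FcI => (z : LaurentSeries K)) h0
    simpa using this
  · intro h0
    apply hG0
    apply Subtype.ext
    have := congrArg (fun z : ↥c.FcI => (z : LaurentSeries K)) h0
    simpa using this
  · have := congrArg (fun z : ↥c.L => (z : LaurentSeries K)) hfeq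
    simpa only [IntermediateField.coe_mul, IntermediateField.coe_pow] using this
  · apply Subtype.ext
    rw [← c.coe_tau_of_mem_Fc f' hf'c, hτ]
    simp only [IntermediateField.coe_mul, IntermediateField.coe_pow]
    rfl

end PerCtx

end Fermat.Agent.Ribet.H819

end
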