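import Fermat.Agent.Ribet.H819.PerWild

/-!
# Row 38, WALL-p, (S4) WILD: the COVER SHELL of `H704.CoreOut.WildFrame` on the carriers of
# `PerCtx` (helper819)

`c : PerCtx K`;  `K₁`, `K₂` abstract fields (`K₁ = FE E₁ N`, `K₂ = FE E₂ N`) with `[Algebra K₁ K₂]`
and surjective ring homomorphisms `e₁ : K₁ →+* F₁`, `e₂ : K₂ →+* F₂` compatible with the inclusion
`F₁ ⊆ F₂` (`h₁₂`).  Carriers: `L₁ := ↥c.FcI` (`= F₁(h)`), `L₂ := ↥c.L` (`= F₂(h)`).

Instances (reducible defs, to be installed with `letI`):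
* `c.algF e₁ : Algebra K₁ L₁` (`PerWild`), `c.algL e₂ : Algebra K₂ L₂`,
  `c.algLL : Algebra L₁ L₂` (the inclusion `c.incl`), `c.algKL e₂ : Algebra K₁ L₂`;
* `tower_KKL : IsScalarTower K₁ K₂ L₂`, `tower_KLL : IsScalarTower K₁ L₁ L₂`.

Fields of `WildFrame`:
* `hh` = `hI_pow_algF`, `hadj₁` = `adjoin_hI_algF`, `hadj₂` = `adjoin_incl_hI_algL`,
  `τ` = `c.tauF e₁`, `hτ` = `exists_pow_eq_tauF`;
* `shell_period` : PER output `f', G : L₁`, `b : L₂` with `hper` and `hf₂`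
  (`algebraMap K₂ L₂ f₂ = algebraMap K₂ L₂ ℓ₂ · algebraMap L₁ L₂ f' · b ^ p`, `ℓ₂ = lc f₂`),
  from the AMBIENT relation `σ₀ F = F · κ · (h · G₀) ^ p` in `K((t))`.

KERNEL NOTE: equalities between elements of DIFFERENT subtypes (`↥c.L`, `↥c.FcI`, `↥c.F₂`) are
never proved by `rfl` here (the kernel would try to unify the membership predicates).
-/

set_option autoImplicit false
set_option linter.unusedSectionVars false
set_option linter.style.haveILetI false
set_option maxHeartbeats 400000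

noncomputable section

namespace Fermat.Agent.Ribet.H819

open ModularCurve

theorem subfield_algebraMap_h819 {Ω : Type*} [Field Ω] (B : Subfield Ω) (y : ↥B) :
    algebraMap ↥B Ω y = (y : Ω) := rfl

namespace PerCtx

variable {K : Type} [Field K] (c : PerCtx K)

/-! ### The inclusion `L₁ = F₁(h) ⊆ L₂ = F₂(h)` -/

/-- The inclusion of the cover field over the tame level into `L`, as a function. -/
def inclFun (z : ↥c.FcI) : ↥c.L := ⟨z.1, c.mem_L_of_mem_FcI z.2⟩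

theorem coe_inclFun (z : ↥c.FcI) : (c.inclFun z).1 = z.1 := Subtype.coe_mk _ _

theorem inclFun_mul (x y : ↥c.FcI) : c.inclFun (x * y) = c.inclFun x * c.inclFun y := by
  apply Subtype.ext
  rw [IntermediateField.coe_mul, coe_inclFun, coe_inclFun, coe_inclFun, IntermediateField.coe_mul]

theorem inclFun_add (x y : ↥c.FcI) : c.inclFun (x + y) = c.inclFun x + c.inclFun y := by
  apply Subtype.ext
  rw [IntermediateField.coe_add, coe_inclFun, coe_inclFun, coe_inclFun, IntermediateField.coe_add]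

theorem inclFun_one : c.inclFun 1 = 1 := by
  apply Subtype.ext
  rw [coe_inclFun, IntermediateField.coe_one, IntermediateField.coe_one]

theorem inclFun_zero : c.inclFun 0 = 0 := by
  apply Subtype.ext
  rw [coe_inclFun, IntermediateField.coe_zero, IntermediateField.coe_zero]

/-- The inclusion of the cover field over the tame level into `L`. -/
def incl : ↥c.FcI →+* ↥c.L where
  toFun := c.inclFun
  map_one' := c.inclFun_one
  map_mul' := c.inclFun_mul
  map_zero' := c.inclFun_zero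
  map_add' := c.inclFun_add

theorem incl_apply (z : ↥c.FcI) : c.incl z = c.inclFun z := rfl

theorem coe_incl (z : ↥c.FcI) :
    ((c.incl z : ↥c.L) : LaurentSeries K) = (z : LaurentSeries K) := by
  rw [incl_apply]
  exact c.coe_inclFun z

theorem incl_injective : Function.Injective c.incl := c.incl.injective

theorem incl_hI : c.incl c.hI = c.hL := by
  apply Subtype.ext
  rw [coe_incl]
  rfl

theorem incl_tauA (z : ↥c.FcI) : c.incl (c.tauA z) = c.tau (c.incl z) := by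
  apply Subtype.ext
  rw [coe_incl]
  have h1 : (c.incl z : ↥c.L) = ⟨(z : LaurentSeries K), c.mem_L_of_mem_FcI z.2⟩ := by
    apply Subtype.ext
    rw [coe_incl]
  rw [h1]
  exact (c.coe_tau_eq_tauA (z : LaurentSeries K) z.2).symm

theorem exists_incl_eq_iff (z : ↥c.L) :
    (∃ z' : ↥c.FcI, c.incl z' = z) ↔ (z : LaurentSeries K) ∈ c.Fc := by
  constructor
  · rintro ⟨z', rfl⟩
    rw [coe_incl]
    exact (c.mem_FcI_iff _).mp z'.2
  · intro hz
    refine ⟨⟨(z : LaurentSeries K), (c.mem_FcI_iff _).mpr hz⟩, ?_⟩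
    apply Subtype.ext
    rw [coe_incl]

/-! ### Algebra structures -/

/-- The `K₁`-algebra structure on `L₂`, through `K₂`. -/
@[reducible] def algKL (K₁ : Type) {K₂ : Type} [Field K₁] [Field K₂] [Algebra K₁ K₂]
    (e₂ : K₂ →+* ↥c.F₂) : Algebra K₁ ↥c.L :=
  (((algebraMap ↥c.F₂ ↥c.L).comp e₂).comp (algebraMap K₁ K₂)).toAlgebra

section Alg

variable {K₁ K₂ : Type} [Field K₁] [Field K₂] [Algebra K₁ K₂]
  (e₁ : K₁ →+* ↥c.F₁) (e₂ : K₂ →+* ↥c.F₂)

/-- The `K₂`-algebra structure on `L = F₂(h)` induced by `e₂ : K₂ →+* F₂`. -/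
@[reducible] def algL : Algebra K₂ ↥c.L := ((algebraMap ↥c.F₂ ↥c.L).comp e₂).toAlgebra

/-- The `L₁`-algebra structure on `L₂` (inclusion). -/
@[reducible] def algLL : Algebra ↥c.FcI ↥c.L := c.incl.toAlgebra

theorem algebraMap_algL (x : K₂) :
    letI := c.algL e₂
    algebraMap K₂ ↥c.L x = algebraMap ↥c.F₂ ↥c.L (e₂ x) := rfl

theorem coe_algebraMap_algL (x : K₂) :
    letI := c.algL e₂
    ((algebraMap K₂ ↥c.L x : ↥c.L) : LaurentSeries K) = ((e₂ x : ↥c.F₂) : LaurentSeries K) := by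
  letI := c.algL e₂
  rw [c.algebraMap_algL e₂, IntermediateField.coe_algebraMap_apply, subfield_algebraMap_h819]

theorem coe_algebraMap_algF' (x : K₁) :
    letI := c.algF e₁
    ((algebraMap K₁ ↥c.FcI x : ↥c.FcI) : LaurentSeries K) =
      ((e₁ x : ↥c.F₁) : LaurentSeries K) := by
  letI := c.algF e₁
  rw [c.algebraMap_algF e₁, IntermediateField.coe_algebraMap_apply, subfield_algebraMap_h819]

theorem algebraMap_algLL (z : ↥c.FcI) :
    letI := c.algLL
    algebraMap ↥c.FcI ↥c.L z = c.incl z := rfl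

theorem algebraMap_algKL (x : K₁) :
    letI := c.algL e₂
    letI := c.algKL K₁ e₂
    algebraMap K₁ ↥c.L x = algebraMap K₂ ↥c.L (algebraMap K₁ K₂ x) := rfl

theorem tower_KKL :
    letI := c.algL e₂
    letI := c.algKL K₁ e₂
    IsScalarTower K₁ K₂ ↥c.L := by
  letI := c.algL e₂
  letI := c.algKL K₁ e₂
  exact IsScalarTower.of_algebraMap_eq (fun _ => rfl)

variable (h₁₂ : ∀ x : K₁, ((e₂ (algebraMap K₁ K₂ x) : ↥c.F₂) : LaurentSeries K) =
    ((e₁ x : ↥c.F₁) : LaurentSeries K))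

include h₁₂ in
theorem tower_KLL :
    letI := c.algF e₁
    letI := c.algLL
    letI := c.algKL K₁ e₂
    IsScalarTower K₁ ↥c.FcI ↥c.L := by
  letI := c.algF e₁
  letI := c.algLL
  letI := c.algL e₂
  letI := c.algKL K₁ e₂
  refine IsScalarTower.of_algebraMap_eq (fun x => ?_)
  apply Subtype.ext
  rw [c.algebraMap_algKL (K₁ := K₁) e₂, c.coe_algebraMap_algL e₂, c.algebraMap_algLL, c.coe_incl,
    c.coe_algebraMap_algF' e₁, h₁₂]

/-! ### The fields `hadj₂`, `hτ` of `WildFrame` -/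

variable (hs₁ : Function.Surjective e₁) (hs₂ : Function.Surjective e₂)

include hs₂ in
theorem finiteDimensional_algL :
    letI := c.algL e₂
    FiniteDimensional K₂ ↥c.L := by
  letI := c.algL e₂
  exact finiteDimensional_of_base_h819 e₂ (fun _ => rfl) hs₂

include hs₂ in
theorem isGalois_algL :
    letI := c.algL e₂
    IsGalois K₂ ↥c.L := by
  letI := c.algL e₂
  exact isGalois_of_base_h819 e₂ (fun _ => rfl) hs₂

include hs₂ in
theorem adjoin_hL_algL :
    letI := c.algL e₂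
    IntermediateField.adjoin K₂ ({c.hL} : Set ↥c.L) = ⊤ := by
  letI := c.algL e₂
  exact adjoin_eq_top_of_base_h819 e₂ (fun _ => rfl) hs₂ c.adjoin_hL

include hs₂ in
/-- `hadj₂` of `WildFrame`. -/
theorem adjoin_incl_hI_algL :
    letI := c.algL e₂
    letI := c.algLL
    IntermediateField.adjoin K₂ ({algebraMap ↥c.FcI ↥c.L c.hI} : Set ↥c.L) = ⊤ := by
  letI := c.algL e₂
  letI := c.algLL
  rw [c.algebraMap_algLL, c.incl_hI]
  exact c.adjoin_hL_algL e₂ hs₂

include hs₁ in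
/-- `hτ` of `WildFrame`. -/
theorem exists_pow_eq_tauF :
    letI := c.algF e₁
    ∀ g : ↥c.FcI ≃ₐ[K₁] ↥c.FcI, ∃ j : ℕ, g = c.tauF e₁ ^ j := by
  letI := c.algF e₁
  intro g
  obtain ⟨j, -, hj⟩ := c.exists_pow_eq_tauA (algEquivToBase_h819 e₁ (fun _ => rfl) hs₁ g)
  refine ⟨j, ?_⟩
  have h1 : g = algEquivOfBase_h819 e₁ (fun _ => rfl)
      (algEquivToBase_h819 e₁ (fun _ => rfl) hs₁ g) :=
    (algEquivOfBase_toBase_h819 e₁ (fun _ => rfl) hs₁ g).symm
  rw [h1, hj, map_pow]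
  rfl

/-! ### The PER output in the shape of `WildFrame` -/

/-- **PER in the shape of `WildFrame`.**  `f₂, G₀ ∈ K₂` with (ambient form, `F = e₂ f₂`)
`σ₀ F = F · κ · (h · G₀) ^ p`, `κ ∈ E₁(u)` a constant (this is `σ₀ x = x + t` for the Kummer
generators); `a ∈ K₁` the constant `u ^ p`; `ℓ₂ ∈ K₂` the constant `lc F`.  Then there are
`f', G ∈ L₁ = F₁(h)` and `b ∈ L₂` with `hper` and `hf₂` of `WildFrame`. -/
theorem shell_period (a : K₁)
    (ha : ((e₁ a : ↥c.F₁) : LaurentSeries K) = HahnSeries.C (c.u ^ c.p))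
    (f₂ G₀ ℓ₂ : K₂) (hf₂0 : f₂ ≠ 0)
    (hℓ : ((e₂ ℓ₂ : ↥c.F₂) : LaurentSeries K) =
      HahnSeries.C ((e₂ f₂ : ↥c.F₂) : LaurentSeries K).leadingCoeff)
    (κ : K) (hκ : κ ∈ c.E')
    (hσ : coeffMap (c.σ₀ : K →+* K) ((e₂ f₂ : ↥c.F₂) : LaurentSeries K) =
      ((e₂ f₂ : ↥c.F₂) : LaurentSeries K) * HahnSeries.C κ *
        (c.h * ((e₂ G₀ : ↥c.F₂) : LaurentSeries K)) ^ c.p) :
    letI := c.algF e₁
    letI := c.algL e₂
    letI := c.algLL
    ∃ (f' G : ↥c.FcI) (b : ↥c.L), f' ≠ 0 ∧ G ≠ 0 ∧ b ≠ 0 ∧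
      c.tauF e₁ f' = f' * algebraMap K₁ ↥c.FcI a * G ^ c.p ∧
      algebraMap K₂ ↥c.L f₂ =
        algebraMap K₂ ↥c.L ℓ₂ * algebraMap ↥c.FcI ↥c.L f' * b ^ c.p := by
  letI := c.algF e₁
  letI := c.algL e₂
  letI := c.algLL
  have hf0 : algebraMap K₂ ↥c.L f₂ ≠ 0 := (map_ne_zero (algebraMap K₂ ↥c.L)).mpr hf₂0
  have hf : ((algebraMap K₂ ↥c.L f₂ : ↥c.L) : LaurentSeries K) ∈ c.F₂ := by
    rw [c.coe_algebraMap_algL e₂]
    exact (e₂ f₂).2
  have hG : ((algebraMap K₂ ↥c.L G₀ : ↥c.L) : LaurentSeries K) ∈ c.F₂ := by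
    rw [c.coe_algebraMap_algL e₂]
    exact (e₂ G₀).2
  have hκL : (HahnSeries.C κ : LaurentSeries K) ∈ c.L := c.mem_L_of_mem_F₂ (c.C_mem_F₂ hκ)
  have hσf : c.sigma (algebraMap K₂ ↥c.L f₂) =
      algebraMap K₂ ↥c.L f₂ * ⟨HahnSeries.C κ, hκL⟩ *
        (c.hL * algebraMap K₂ ↥c.L G₀) ^ c.p := by
    apply Subtype.ext
    rw [c.coe_sigma_eq_coeffMap, IntermediateField.coe_mul, IntermediateField.coe_mul,
      IntermediateField.coe_pow, IntermediateField.coe_mul, c.coe_algebraMap_algL e₂,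
      c.coe_algebraMap_algL e₂, hσ]
    rfl
  obtain ⟨f', G, b, hf', hG', hb, hfeq, hτ⟩ := c.period_algF e₁ a ha (algebraMap K₂ ↥c.L f₂)
    (algebraMap K₂ ↥c.L G₀) ⟨HahnSeries.C κ, hκL⟩ hf0 hf hG (c.lc_of_const κ hκL) hσf
  refine ⟨f', G, b, hf', hG', hb, hτ, ?_⟩
  apply Subtype.ext
  rw [hfeq, IntermediateField.coe_mul, IntermediateField.coe_mul, IntermediateField.coe_pow,
    c.algebraMap_algLL, c.coe_incl, c.coe_lc, c.coe_algebraMap_algL e₂, c.coe_algebraMap_algL e₂,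
    hℓ]

end Alg

end PerCtx

end Fermat.Agent.Ribet.H819

end
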