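import Fermat.Agent.Ribet.H819.PerFrame
import Fermat.Agent.Ribet.H819.BaseIsoAbs

/-!
# Row 38, WALL-p, crux (I6), leaf INST-D: the cover field as a Kummer extension of an ABSTRACT
# function field (helper819)

`c : PerCtx K`, `F` any field with a surjective ring homomorphism `e : F →+* F₁`
(e.g. `F = FE E₁ N ⊆ E₁((t))`, `e = coeffMap (algebraMap E₁ ℚ̄)`, `F₁` its image in `ℚ̄((t))`).
The cover field `FcI = F₁(h)` becomes an `F`-algebra (`c.algF e`), and we provide the
field-theoretic fields of `H132.WildData` for `L := FcI`, `τ := c.tauF e`, `h := c.hI`: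

* `finiteDimensional_algF`, `isGalois_algF`, `finrank_algF`;
* `adjoin_hI_algF : F⟮hI⟯ = ⊤` (`h_top`);  `hI_pow_algF : hI ^ p = algebraMap F FcI g` (`h_pow`);
* `mem_zpowers_tauF` (`gen`);  `tauF_apply : tauF z = tauA z`;
* `period_algF` : PER in `WildData` form, `τ f' = f' · cst · G ^ p` with `cst = algebraMap F FcI a`
  for any `a : F` with `e a = u ^ p`.
-/

set_option autoImplicit false
set_option linter.unusedSectionVars false
set_option linter.style.haveILetI false
set_option maxHeartbeats 400000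

noncomputable section

namespace Fermat.Agent.Ribet.H819

open ModularCurve

namespace PerCtx

variable {K : Type} [Field K] (c : PerCtx K) {F : Type} [Field F] (e : F →+* ↥c.F₁)

/-- The `F`-algebra structure on the cover field `F₁(h)` induced by `e : F →+* F₁`. -/
@[reducible] def algF : Algebra F ↥c.FcI := ((algebraMap ↥c.F₁ ↥c.FcI).comp e).toAlgebra

theorem algebraMap_algF (x : F) :
    letI := c.algF e
    algebraMap F ↥c.FcI x = algebraMap ↥c.F₁ ↥c.FcI (e x) := rfl

theorem coe_algebraMap_algF (x : F) :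
    letI := c.algF e
    ((algebraMap F ↥c.FcI x : ↥c.FcI) : LaurentSeries K) = ((e x : ↥c.F₁) : LaurentSeries K) :=
  rfl

/-- The deck transformation, as an `F`-automorphism. -/
def tauF : letI := c.algF e; ↥c.FcI ≃ₐ[F] ↥c.FcI :=
  letI := c.algF e
  algEquivOfBase_h819 e (fun _ => rfl) c.tauA

theorem tauF_apply (z : ↥c.FcI) : c.tauF e z = c.tauA z := rfl

theorem tauF_hI : c.tauF e c.hI = c.zI * c.hI := c.tauA_hI

variable (hsurj : Function.Surjective e)

include hsurj in
theorem finiteDimensional_algF :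
    letI := c.algF e
    FiniteDimensional F ↥c.FcI := by
  letI := c.algF e
  exact finiteDimensional_of_base_h819 e (fun _ => rfl) hsurj

include hsurj in
theorem isGalois_algF :
    letI := c.algF e
    IsGalois F ↥c.FcI := by
  letI := c.algF e
  exact isGalois_of_base_h819 e (fun _ => rfl) hsurj

include hsurj in
theorem finrank_algF :
    letI := c.algF e
    Module.finrank F ↥c.FcI = c.p := by
  letI := c.algF e
  rw [finrank_of_base_h819 e (fun _ => rfl) hsurj, c.finrank_FcI]

include hsurj in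
theorem adjoin_hI_algF :
    letI := c.algF e
    IntermediateField.adjoin F ({c.hI} : Set ↥c.FcI) = ⊤ := by
  letI := c.algF e
  exact adjoin_eq_top_of_base_h819 e (fun _ => rfl) hsurj c.adjoin_hI

include hsurj in
theorem mem_zpowers_tauF :
    letI := c.algF e
    ∀ g : ↥c.FcI ≃ₐ[F] ↥c.FcI, g ∈ Subgroup.zpowers (c.tauF e) := by
  letI := c.algF e
  intro g
  exact mem_zpowers_of_base_h819 e (fun _ => rfl) hsurj c.tauA c.mem_zpowers_tauA g

theorem hI_pow_algF (g : F) (hg : ((e g : ↥c.F₁) : LaurentSeries K) = c.h ^ c.p) :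
    letI := c.algF e
    c.hI ^ c.p = algebraMap F ↥c.FcI g := by
  letI := c.algF e
  rw [c.hI_pow, c.algebraMap_algF e]
  congr 1
  exact Subtype.ext hg.symm

/-- **PER in `WildData` form** over the abstract function field `F`. -/
theorem period_algF (a : F) (ha : ((e a : ↥c.F₁) : LaurentSeries K) = HahnSeries.C (c.u ^ c.p))
    (f G c₀ : ↥c.L) (hf0 : f ≠ 0) (hf : (f : LaurentSeries K) ∈ c.F₂)
    (hG : (G : LaurentSeries K) ∈ c.F₂) (hc₀ : c.lc c₀ = c₀)
    (hσf : c.sigma f = f * c₀ * (c.hL * G) ^ c.p) :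
    letI := c.algF e
    ∃ (f' G₂ : ↥c.FcI) (b : ↥c.L), f' ≠ 0 ∧ G₂ ≠ 0 ∧ b ≠ 0 ∧
      (f : LaurentSeries K) =
        ((c.lc f : ↥c.L) : LaurentSeries K) * (f' : LaurentSeries K) *
          (b : LaurentSeries K) ^ c.p ∧
      c.tauF e f' = f' * algebraMap F ↥c.FcI a * G₂ ^ c.p := by
  letI := c.algF e
  obtain ⟨f', G₂, b, hf', hG₂, hb, hfeq, hτ⟩ := c.period_FcI f G c₀ hf0 hf hG hc₀ hσf
  refine ⟨f', G₂, b, hf', hG₂, hb, hfeq, ?_⟩
  rw [c.tauF_apply, hτ, c.algebraMap_algF e]
  have : e a = c.upF := Subtype.ext (ha.trans c.coe_upF.symm)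
  rw [this]

end PerCtx

end Fermat.Agent.Ribet.H819

end
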